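import Fermat.Agent.DR.Mono.Slope

/-!
# DR / Mono: the monodromy formula

Let `f` be a function all of whose orders are divisible by `n` and such that `τ f / f` is an `n`-th
power for all `τ` in the inertia group.  Then `w_s * ord_s f̄₁` modulo `n` does not depend on the
node `s`.
-/

set_option autoImplicit false

noncomputable section

open AlgebraicCurve Fermat.Agent.JRED Fermat.Agent.RR

namespace Fermat.Agent.DR.Mono

section General

variable {K F k Fk : Type*} [Field K] [Field F] [Algebra K F] [Field k] [Field Fk] [Algebra k Fk]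
variable {A : ValuationSubring K} {π : A →+* k} {R : RedDatum K F k Fk A π}

theorem mem_range_of_pow [IsAlgClosed k] {n : ℕ} (hn : n ≠ 0) {u : Fk} {κ : k}
    (h : u ^ n = algebraMap k Fk κ) : ∃ ζ, u = algebraMap k Fk ζ := by
  have hint : IsIntegral k u := by
    refine IsIntegral.of_pow (Nat.pos_of_ne_zero hn) ?_
    rw [h]
    exact isIntegral_algebraMap
  have h1 := IsAlgClosed.degree_eq_one_of_irreducible k (minpoly.irreducible hint)
  obtain ⟨ζ, hζ⟩ := minpoly.mem_range_of_degree_eq_one k u h1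
  exact ⟨ζ, hζ.symm⟩

/-- reductions of `n`-th roots of `τ f / f` are constant -/
theorem exists_red_const [IsAlgClosed k] (hπ : Function.Surjective π) {g : SemilinearAut K F}
    (hunit : ∀ c : K, c ≠ 0 → ∃ h : SemilinearAut.baseAut g c / c ∈ A, π ⟨_, h⟩ ≠ 0)
    (hred : ∀ {w : F} {u : Fk}, R.Red w u → R.Red (g • w) u)
    {n : ℕ} (hn : n ≠ 0) {f h : F} (hf : f ≠ 0) (hh : h ^ n = (g • f) / f) :
    ∃ ζ : k, ζ ≠ 0 ∧ R.Red h (algebraMap k Fk ζ) := by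
  obtain ⟨c, hc, u, hu, hcu⟩ := R.normalize f hf
  obtain ⟨he, he0⟩ := hunit c hc
  have h1 := hred hcu
  have h2 := RedDatum.div hπ h1 hcu hu
  rw [div_self hu] at h2
  have hcF : algebraMap K F c ≠ 0 := by simpa using hc
  have h3 : g • (algebraMap K F c * f) / (algebraMap K F c * f) =
      algebraMap K F (SemilinearAut.baseAut g c / c) * h ^ n := by
    rw [smul_mul', SemilinearAut.smul_algebraMap, hh, map_div₀]
    field_simp
  rw [h3] at h2
  have he1 : SemilinearAut.baseAut g c / c ≠ 0 := by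
    intro h0
    apply he0
    have : (⟨_, he⟩ : A) = 0 := Subtype.ext h0
    rw [this, map_zero]
  have h4 : R.Red (h ^ n) (algebraMap k Fk (π ⟨_, he⟩)⁻¹) := by
    have h5 := R.mul (RedDatum.inv hπ (R.const ⟨_, he⟩) (by simpa using he0)) h2
    rw [← mul_assoc, inv_mul_cancel₀ (by simpa using he1), one_mul, mul_one, ← map_inv₀] at h5
    exact h5
  have hκ : algebraMap k Fk (π ⟨_, he⟩)⁻¹ ≠ 0 := by simpa using he0
  rcases RedDatum.red_or_inv (R := R) hπ h with ⟨v, hv⟩ | h0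
  · have h5 := R.unique (RedDatum.pow hv n) h4
    obtain ⟨ζ, rfl⟩ := mem_range_of_pow hn h5
    refine ⟨ζ, ?_, hv⟩
    rintro rfl
    rw [map_zero, zero_pow hn] at h5
    exact hκ h5.symm
  · exfalso
    have h5 := RedDatum.pow h0 n
    rw [zero_pow hn, inv_pow] at h5
    exact inv_ne_zero hκ (R.unique (RedDatum.inv hπ h4 hκ) h5)

end General

variable {K F k F₁ F₂ : Type*} [Field K] [Field F] [Algebra K F] [Field k] [Field F₁] [Field F₂]
  [Algebra k F₁] [Algebra k F₂] [HasPrincipalDivisors K F] {A : ValuationSubring K} {π : A →+* k}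

/-- A semilinear automorphism which acts like an element of the inertia group. -/
structure InertiaAut (R₁ : RedDatum K F k F₁ A π) (R₂ : RedDatum K F k F₂ A π)
    (g : SemilinearAut K F) : Prop where
  unit : ∀ c : K, c ≠ 0 → ∃ h : SemilinearAut.baseAut g c / c ∈ A, π ⟨_, h⟩ ≠ 0
  red₁ : ∀ {w : F} {u : F₁}, R₁.Red w u → R₁.Red (g • w) u
  red₂ : ∀ {w : F} {u : F₂}, R₂.Red w u → R₂.Red (g • w) u

variable {R₁ : RedDatum K F k F₁ A π} {R₂ : RedDatum K F k F₂ A π}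

section Tau

variable {q : ℕ} (N : Node R₁ R₂ q) {ϖ : K} (C : Coord N.toPlacePair ϖ)
variable [IsAlgClosed K] [Fermat.FF.IsFF1 K F]
variable [IsAlgClosed k] [hq : Fact q.Prime] [CharP k q]
    [Fermat.FF.IsFF1 k F₁] [Fermat.FF.IsFF1 k F₂] (hπ : Function.Surjective π) (hA : Arch π)
    (hϖ : ϖ ∈ A) (h0 : π ⟨ϖ, hϖ⟩ = 0) (hϖ0 : ϖ ≠ 0)

include hπ hA hϖ h0 hϖ0 in
/-- **Galois action on the product of the values of the coordinate.** -/
theorem Coord.tau {g : SemilinearAut K F} (hg : InertiaAut R₁ R₂ g)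
    (hAnn : ∀ P ∈ N.Ann, g • P ∈ N.Ann) (hAnn' : ∀ P ∈ N.Ann, g⁻¹ • P ∈ N.Ann)
    (hy : g • C.y = C.y) {h : F} (hh : h ≠ 0) (D : Place K F → ℤ) {T : Finset (Place K F)}
    (hT : ∀ P ∈ T, P ∈ N.Ann) (hT' : ∀ P ∈ N.Ann, P ∉ T → D P = 0)
    (hord : ∀ Q ∈ N.Ann, Q.ord h = D (g⁻¹ • Q) - D Q) {ζ₁ ζ₂ : k}
    (h1 : R₁.Red h (algebraMap k F₁ ζ₁)) (h2 : R₂.Red h (algebraMap k F₂ ζ₂)) :
    ∃ hb : SemilinearAut.baseAut g (C.b N T D) / C.b N T D ∈ A,
      π ⟨_, hb⟩ ≠ 0 ∧ ζ₁ * π ⟨_, hb⟩ = ζ₂ := by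
  classical
  have hsp := fun P (hP : P ∈ T) =>
    C.value_spec hπ hϖ h0 hϖ0 (hT P hP) (C.v_spec N (hT P hP))
  have hval : ∀ P ∈ T, Val (g • P) C.y (SemilinearAut.baseAut g (C.v N P)) := by
    intro P hP
    have := (C.v_spec N (hT P hP)).smul (g := g)
    rwa [hy] at this
  have hsp' := fun P (hP : P ∈ T) =>
    C.value_spec hπ hϖ h0 hϖ0 (hAnn P (hT P hP)) (hval P hP)
  have hfac : ∀ P ∈ T, C.y - algebraMap K F (C.v N P) ≠ 0 := fun P hP =>
    Fermat.FF.ne_zero_of_ord_ne_zero P (by rw [(hsp P hP).2.2.2.1]; exact one_ne_zero)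
  have hfac' : ∀ P ∈ T, C.y - algebraMap K F (SemilinearAut.baseAut g (C.v N P)) ≠ 0 :=
    fun P hP => Fermat.FF.ne_zero_of_ord_ne_zero (g • P)
      (by rw [(hsp' P hP).2.2.2.1]; exact one_ne_zero)
  set r : Place K F → F := fun P => (C.y - algebraMap K F (SemilinearAut.baseAut g (C.v N P))) /
    (C.y - algebraMap K F (C.v N P)) with hr
  set c' : Place K F → K := fun P => SemilinearAut.baseAut g (C.v N P) / C.v N P with hc'
  have hr0 : ∀ P ∈ T, r P ≠ 0 := fun P hP => div_ne_zero (hfac' P hP) (hfac P hP)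
  set η : F := ∏ P ∈ T, r P ^ D P with hη
  have hη0 : η ≠ 0 := Finset.prod_ne_zero_iff.mpr fun P hP => zpow_ne_zero _ (hr0 P hP)
  -- divisor of `η` on the annulus
  have hordη : ∀ Q ∈ N.Ann, Q.ord η = D (g⁻¹ • Q) - D Q := by
    intro Q hQ
    rw [hη, ord_prod_zpow Q T _ hr0]
    have e1 : ∀ P ∈ T, D P * Q.ord (r P) =
        D P * Q.ord (C.y - algebraMap K F (SemilinearAut.baseAut g (C.v N P))) -
        D P * Q.ord (C.y - algebraMap K F (C.v N P)) := by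
      intro P hP
      rw [hr]
      simp only
      rw [div_eq_mul_inv, Q.ord_mul (hfac' P hP) (inv_ne_zero (hfac P hP)), Q.ord_inv]
      ring
    rw [Finset.sum_congr rfl e1, Finset.sum_sub_distrib]
    congr 1
    · by_cases hQT : g⁻¹ • Q ∈ T
      · rw [Finset.sum_eq_single (g⁻¹ • Q)]
        · have := (hsp' _ hQT).2.2.2.1
          rw [smul_inv_smul] at this
          rw [this, mul_one]
        · intro P hP hPQ
          rw [(hsp' P hP).2.2.2.2 Q hQ, mul_zero]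
          intro h
          exact hPQ (by rw [h, inv_smul_smul])
        · exact fun h => absurd hQT h
      · rw [hT' _ (hAnn' Q hQ) hQT]
        apply Finset.sum_eq_zero
        intro P hP
        rw [(hsp' P hP).2.2.2.2 Q hQ (fun h => hQT (by rw [h, inv_smul_smul]; exact hP)),
          mul_zero]
    · by_cases hQT : Q ∈ T
      · rw [Finset.sum_eq_single Q]
        · rw [(hsp Q hQT).2.2.2.1, mul_one]
        · intro P hP hPQ
          rw [(hsp P hP).2.2.2.2 Q hQ (Ne.symm hPQ), mul_zero]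
        · exact fun h => absurd hQT h
      · rw [hT' Q hQ hQT]
        apply Finset.sum_eq_zero
        intro P hP
        rw [(hsp P hP).2.2.2.2 Q hQ (fun h => hQT (h ▸ hP)), mul_zero]
  -- reductions of `η`
  have hη1 : R₁.Red η 1 := by
    have h3 : R₁.Red η (∏ P ∈ T, (C.y₁ / C.y₁) ^ D P) :=
      red_prod T fun P hP => red_zpow hπ
        (RedDatum.div hπ (hsp' P hP).2.1 (hsp P hP).2.1 C.y₁_ne)
        (div_ne_zero C.y₁_ne C.y₁_ne) _
    rw [div_self C.y₁_ne] at h3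
    simpa using h3
  have hvu : ∀ P ∈ T, ∃ h : c' P ∈ A, π ⟨_, h⟩ ≠ 0 := fun P hP => hg.unit _ (hsp P hP).1
  have hrP : ∀ P (hP : P ∈ T), R₂.Red (r P) (algebraMap k F₂ (π ⟨c' P, (hvu P hP).choose⟩)) := by
    intro P hP
    have h3 := RedDatum.div hπ (hsp' P hP).2.2.1 (hsp P hP).2.2.1 (by simp)
    have h4 := R₂.mul (R₂.const ⟨c' P, (hvu P hP).choose⟩) h3
    rw [div_self (by simp), mul_one] at h4
    have hv1 : algebraMap K F (C.v N P) ≠ 0 := by simpa using (hsp P hP).1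
    have hv2 : algebraMap K F (SemilinearAut.baseAut g (C.v N P)) ≠ 0 := by
      simpa using (hsp P hP).1
    have hv3 := hfac P hP
    have h5 : algebraMap K F (c' P) *
        (algebraMap K F (SemilinearAut.baseAut g (C.v N P))⁻¹ *
          (C.y - algebraMap K F (SemilinearAut.baseAut g (C.v N P))) /
        (algebraMap K F (C.v N P)⁻¹ * (C.y - algebraMap K F (C.v N P)))) = r P := by
      rw [hc', hr]
      simp only
      rw [map_div₀, map_inv₀, map_inv₀]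
      field_simp
    rw [h5] at h4
    exact h4
  -- a common value
  let κ : Place K F → F₂ := fun P =>
    if hP : P ∈ T then algebraMap k F₂ (π ⟨c' P, (hvu P hP).choose⟩) else 1
  have hκ : ∀ P (hP : P ∈ T), κ P = algebraMap k F₂ (π ⟨c' P, (hvu P hP).choose⟩) :=
    fun P hP => dif_pos hP
  have hκ0 : ∀ P ∈ T, κ P ≠ 0 := by
    intro P hP
    rw [hκ P hP]
    simpa using (hvu P hP).choose_spec
  have hη2 : R₂.Red η (∏ P ∈ T, κ P ^ D P) :=
    red_prod T fun P hP => red_zpow hπ (by rw [hκ P hP]; exact hrP P hP) (hκ0 P hP) _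
  have hb2 : R₂.Red (algebraMap K F (SemilinearAut.baseAut g (C.b N T D) / C.b N T D))
      (∏ P ∈ T, κ P ^ D P) := by
    have h3 : R₂.Red (∏ P ∈ T, (algebraMap K F (c' P)) ^ D P) (∏ P ∈ T, κ P ^ D P) :=
      red_prod T fun P hP => red_zpow hπ
        (by rw [hκ P hP]; exact R₂.const ⟨c' P, (hvu P hP).choose⟩) (hκ0 P hP) _
    have h4 : algebraMap K F (SemilinearAut.baseAut g (C.b N T D) / C.b N T D) =
        ∏ P ∈ T, (algebraMap K F (c' P)) ^ D P := by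
      rw [Coord.b, map_prod, ← Finset.prod_div_distrib, map_prod]
      refine Finset.prod_congr rfl fun P _ => ?_
      rw [hc', ← map_zpow₀]
      simp only
      rw [div_zpow, map_zpow₀]
    rw [h4]
    exact h3
  have hbA := RedDatum.mem_of_red_const hπ hb2
  have hbval := R₂.unique hb2 (R₂.const ⟨_, hbA⟩)
  have hbne : π ⟨_, hbA⟩ ≠ 0 := by
    intro h3
    rw [h3, map_zero] at hbval
    exact Finset.prod_ne_zero_iff.mpr (fun P hP => zpow_ne_zero _ (hκ0 P hP)) hbval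
  refine ⟨hbA, hbne, ?_⟩
  rw [hbval] at hη2
  -- apply the node theorem to `h / η`
  have hinv : Inv N.Ann (h / η) := by
    refine ⟨div_ne_zero hh hη0, fun Q hQ => ?_⟩
    rw [div_eq_mul_inv, Q.ord_mul hh (inv_ne_zero hη0), Q.ord_inv, hord Q hQ, hordη Q hQ]
    ring
  obtain ⟨c, hc1, hc2⟩ := N.regs hπ hA (RedDatum.div hπ h1 hη1 one_ne_zero)
    (RedDatum.div hπ h2 hη2 (by simpa using hbne)) hinv.pf
  rw [div_one] at hc1
  rw [← map_div₀] at hc2
  have e1 := hc1.unique (val_const _)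
  have e2 := hc2.unique (val_const _)
  rw [← e1, e2, div_mul_cancel₀ _ hbne]

end Tau

section Mono

variable [IsAlgClosed K] [Fermat.FF.IsFF1 K F] [IsAlgClosed k] {q : ℕ} [hq : Fact q.Prime]
  [CharP k q] [Fermat.FF.IsFF1 k F₁] [Fermat.FF.IsFF1 k F₂]

/-- The arithmetic input: an element of `K` whose `n`-th power has integral valuation and on which
inertia acts trivially modulo the maximal ideal has integral valuation. -/
def InertInput (π : A →+* k) (G : Subgroup (SemilinearAut K F)) (ϖ : K) (n : ℕ) : Prop :=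
  ∀ (b : K) (M : ℤ), b ≠ 0 → (∀ g ∈ G, ∃ h : SemilinearAut.baseAut g b / b ∈ A, π ⟨_, h⟩ = 1) →
    (∃ h : b ^ n * ϖ ^ M ∈ A, π ⟨_, h⟩ ≠ 0) → (n : ℤ) ∣ M

omit [IsAlgClosed K] [IsAlgClosed k] in
theorem unit_div {a b : K} (hb : b ∈ A) (hb0 : π ⟨b, hb⟩ ≠ 0) (ha : a ∈ A)
    (hπ : Function.Surjective π) :
    ∃ h : a / b ∈ A, π ⟨_, h⟩ = π ⟨a, ha⟩ / π ⟨b, hb⟩ := by
  obtain ⟨c, hc⟩ := isUnit_iff_exists_inv.mp (isUnit_of_res_ne_zero hπ hb0)
  have hc' : b * (c : K) = 1 := congrArg Subtype.val hc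
  have h1 : a / b = a * c := by
    rw [div_eq_mul_inv, inv_eq_of_mul_eq_one_right hc']
  have h2 : a / b ∈ A := by rw [h1]; exact mul_mem ha c.2
  refine ⟨h2, ?_⟩
  rw [eq_div_iff hb0, ← map_mul]
  congr 1
  apply Subtype.ext
  have hbne : b ≠ 0 := left_ne_zero_of_mul_eq_one hc'
  exact div_mul_cancel₀ a hbne

/-- **The monodromy formula.** -/
theorem mono (hπ : Function.Surjective π) (hA : Arch π) {ϖ : K}
    (hϖ : ϖ ∈ A) (h0 : π ⟨ϖ, hϖ⟩ = 0) (hϖ0 : ϖ ≠ 0)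
    {Ns Nt : Node R₁ R₂ q} (Cs : Coord Ns.toPlacePair ϖ) (Ct : Coord Nt.toPlacePair ϖ)
    (G : Subgroup (SemilinearAut K F)) (hG : ∀ g ∈ G, InertiaAut R₁ R₂ g)
    (hGs : ∀ g ∈ G, ∀ P ∈ Ns.Ann, g • P ∈ Ns.Ann) (hGt : ∀ g ∈ G, ∀ P ∈ Nt.Ann, g • P ∈ Nt.Ann)
    (hys : ∀ g ∈ G, g • Cs.y = Cs.y) (hyt : ∀ g ∈ G, g • Ct.y = Ct.y)
    {n : ℕ} (hn : n ≠ 0) (hI : InertInput π G ϖ n) {f : F} (hf : f ≠ 0)
    (hdiv : ∀ P : Place K F, (n : ℤ) ∣ P.ord f)
    (hτ : ∀ g ∈ G, ∃ h : F, h ^ n = (g • f) / f) :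
    (n : ℤ) ∣ Cs.w * o R₁ Ns.s₁ f - Ct.w * o R₁ Nt.s₁ f := by
  classical
  have hnZ : (n : ℤ) ≠ 0 := by exact_mod_cast hn
  set D : Place K F → ℤ := fun P => P.ord f / n with hD
  have hDn : ∀ P : Place K F, P.ord f = n * D P := fun P => (Int.mul_ediv_cancel' (hdiv P)).symm
  have hD0 : ∀ P : Place K F, P.ord f = 0 → D P = 0 := by
    intro P hP
    rw [hD]
    simp only
    rw [hP, Int.zero_ediv]
  set Ts : Finset (Place K F) := (divOf (K := K) f).support.filter (· ∈ Ns.Ann) with hTs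
  set Tt : Finset (Place K F) := (divOf (K := K) f).support.filter (· ∈ Nt.Ann) with hTt
  have hTs1 : ∀ P ∈ Ts, P ∈ Ns.Ann := fun P hP => (Finset.mem_filter.mp hP).2
  have hTt1 : ∀ P ∈ Tt, P ∈ Nt.Ann := fun P hP => (Finset.mem_filter.mp hP).2
  have hTs2 : ∀ P ∈ Ns.Ann, P ∉ Ts → D P = 0 := by
    intro P hP hPT
    apply hD0
    by_contra hne
    exact hPT (Finset.mem_filter.mpr ⟨mem_supp_iff.mpr hne, hP⟩)
  have hTt2 : ∀ P ∈ Nt.Ann, P ∉ Tt → D P = 0 := by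
    intro P hP hPT
    apply hD0
    by_contra hne
    exact hPT (Finset.mem_filter.mpr ⟨mem_supp_iff.mpr hne, hP⟩)
  obtain ⟨c₁, hc1, u₁, hu1, h1⟩ := R₁.normalize f hf
  obtain ⟨c₂, hc2, u₂, hu2, h2⟩ := R₂.normalize f hf
  obtain ⟨hs, hs0⟩ := Cs.slope Ns hπ hA hϖ h0 hϖ0 hf n D (fun P _ => hDn P) hTs1 hTs2 h1 hu1 h2 hu2
  obtain ⟨ht, ht0⟩ := Ct.slope Nt hπ hA hϖ h0 hϖ0 hf n D (fun P _ => hDn P) hTt1 hTt2 h1 hu1 h2 hu2
  set bs := Cs.b Ns Ts D with hbs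
  set bt := Ct.b Nt Tt D with hbt
  have hbs0 : bs ≠ 0 := Cs.b_ne_zero Ns hπ hϖ h0 hϖ0 hTs1 D
  have hbt0 : bt ≠ 0 := Ct.b_ne_zero Nt hπ hϖ h0 hϖ0 hTt1 D
  set Ms : ℤ := Cs.w * (o R₁ Ns.s₁ f - n * ∑ P ∈ Ts, D P) with hMs
  set Mt : ℤ := Ct.w * (o R₁ Nt.s₁ f - n * ∑ P ∈ Tt, D P) with hMt
  obtain ⟨hr, hr1⟩ := unit_div ht ht0 hs hπ
  have e1 : c₂ / c₁ * bs ^ (n : ℤ) * ϖ ^ Ms / (c₂ / c₁ * bt ^ (n : ℤ) * ϖ ^ Mt) =
      (bs / bt) ^ n * ϖ ^ (Ms - Mt) := by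
    rw [zpow_sub₀ hϖ0, zpow_natCast, zpow_natCast, div_pow]
    field_simp
  have hunit : ∃ h : (bs / bt) ^ n * ϖ ^ (Ms - Mt) ∈ A, π ⟨_, h⟩ ≠ 0 := by
    rw [← e1]
    exact ⟨hr, by rw [hr1]; exact div_ne_zero hs0 ht0⟩
  have hact : ∀ g ∈ G, ∃ h : SemilinearAut.baseAut g (bs / bt) / (bs / bt) ∈ A,
      π ⟨_, h⟩ = 1 := by
    intro g hg
    obtain ⟨h, hh⟩ := hτ g hg
    have hgf : g • f ≠ 0 := (smul_ne_zero_iff_ne g).mpr hf
    have hh0 : h ≠ 0 := by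
      rintro rfl
      rw [zero_pow hn] at hh
      exact div_ne_zero hgf hf hh.symm
    have hIg := hG g hg
    obtain ⟨ζ₁, hζ1, hζ1'⟩ := exists_red_const (R := R₁) hπ hIg.unit hIg.red₁ hn hf hh
    obtain ⟨ζ₂, -, hζ2'⟩ := exists_red_const (R := R₂) hπ hIg.unit hIg.red₂ hn hf hh
    have hord : ∀ Q : Place K F, Q.ord h = D (g⁻¹ • Q) - D Q := by
      intro Q
      have h3 : (n : ℤ) * Q.ord h = n * (D (g⁻¹ • Q) - D Q) := by
        rw [← Fermat.FF.ord_pow, hh, div_eq_mul_inv, Q.ord_mul hgf (inv_ne_zero hf), Q.ord_inv,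
          mul_sub, ← hDn, ← hDn]
        have h4 := SemilinearAut.ord_smul g (g⁻¹ • Q) f
        rw [smul_inv_smul] at h4
        rw [h4]
        ring
      exact mul_left_cancel₀ hnZ h3
    obtain ⟨hsA, hs1, hs2⟩ := Cs.tau Ns hπ hA hϖ h0 hϖ0 hIg (hGs g hg)
      (hGs g⁻¹ (G.inv_mem hg)) (hys g hg) hh0 D hTs1 hTs2 (fun Q _ => hord Q) hζ1' hζ2'
    obtain ⟨htA, ht1, ht2⟩ := Ct.tau Nt hπ hA hϖ h0 hϖ0 hIg (hGt g hg)
      (hGt g⁻¹ (G.inv_mem hg)) (hyt g hg) hh0 D hTt1 hTt2 (fun Q _ => hord Q) hζ1' hζ2'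
    obtain ⟨hA', hA1⟩ := unit_div htA ht1 hsA hπ
    have e2 : SemilinearAut.baseAut g (bs / bt) / (bs / bt) =
        SemilinearAut.baseAut g bs / bs / (SemilinearAut.baseAut g bt / bt) := by
      have : SemilinearAut.baseAut g bt ≠ 0 := by simpa using hbt0
      rw [map_div₀]
      field_simp
    have e3 : π ⟨_, hsA⟩ = π ⟨_, htA⟩ := mul_left_cancel₀ hζ1 (hs2.trans ht2.symm)
    rw [e2]
    exact ⟨hA', by rw [hA1, e3, div_self ht1]⟩
  have hdvd := hI (bs / bt) (Ms - Mt) (div_ne_zero hbs0 hbt0) hact hunit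
  have e4 : (Cs.w : ℤ) * o R₁ Ns.s₁ f - Ct.w * o R₁ Nt.s₁ f =
      (Ms - Mt) + n * (Cs.w * ∑ P ∈ Ts, D P - Ct.w * ∑ P ∈ Tt, D P) := by
    rw [hMs, hMt]
    ring
  rw [e4]
  exact dvd_add hdvd (dvd_mul_right _ _)

end Mono

end Fermat.Agent.DR.Mono
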