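import Fermat.Agent.DR.InertiaValue
import Fermat.Agent.TWP.Place
import Fermat.Agent.DR.Mono.Formula

/-!
# DR / Mono: arithmetic of the inertia group of a place of `ℚ̄` above `q`

* `unit_of_decomposition`: `σ x / x` is a unit for `σ` in the decomposition group;
* `exists_pow_val`: values are rational multiples of the value of `q`;
* `arch`: the valuation has rank one;
* `inert`: if `b ^ n * q ^ M` is a unit, `n` prime to `q`, and `σ b / b ≡ 1` for all `σ` in the
  inertia group then `n ∣ M`.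
-/

set_option autoImplicit false

noncomputable section

open scoped Pointwise
open AlgebraicCurve Fermat.Agent.JRED Fermat.Agent.RR

namespace Fermat.Agent.DR.Mono

local notation "ℚbar" => AlgebraicClosure ℚ

variable {A : ValuationSubring ℚbar}

theorem smul_mem_iff_of_smul_eq {σ : ℚbar ≃ₐ[ℚ] ℚbar} (hσ : σ • A = A) (x : ℚbar) :
    σ x ∈ A ↔ x ∈ A := by
  constructor
  · intro h
    rw [← hσ, ValuationSubring.mem_pointwise_smul_iff_inv_smul_mem] at h
    simpa using h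
  · intro h
    rw [← hσ]
    exact ValuationSubring.smul_mem_pointwise_smul σ x A h

theorem val_le_iff_of_smul_eq {σ : ℚbar ≃ₐ[ℚ] ℚbar} (hσ : σ • A = A) {x y : ℚbar} (hy : y ≠ 0) :
    A.valuation (σ x) ≤ A.valuation (σ y) ↔ A.valuation x ≤ A.valuation y := by
  have hy' : σ y ≠ 0 := by simpa using hy
  have h1 : ∀ a b : ℚbar, b ≠ 0 → (A.valuation a ≤ A.valuation b ↔ a / b ∈ A) := by
    intro a b hb
    have hvb : 0 < A.valuation b := zero_lt_iff.mpr ((Valuation.ne_zero_iff _).mpr hb)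
    rw [← A.valuation_le_one_iff, map_div₀, div_le_one₀ hvb]
  rw [h1 _ _ hy', h1 _ _ hy, ← map_div₀, smul_mem_iff_of_smul_eq hσ]

/-- The decomposition group preserves the valuation. -/
theorem val_eq_of_smul_eq {σ : ℚbar ≃ₐ[ℚ] ℚbar} (hσ : σ • A = A) (x : ℚbar) :
    A.valuation (σ x) = A.valuation x := by
  rcases eq_or_ne x 0 with rfl | hx
  · rw [map_zero]
  -- a power of `σ` fixes `x`
  have hfin : Set.Finite (Set.range fun n : ℕ => (σ ^ n) x) := by
    refine ((minpoly ℚ x).rootSet_finite ℚbar).subset ?_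
    rintro _ ⟨n, rfl⟩
    rw [Polynomial.mem_rootSet]
    refine ⟨minpoly.ne_zero (Algebra.IsIntegral.isIntegral x), ?_⟩
    simp only
    rw [← AlgEquiv.coe_toAlgHom, Polynomial.aeval_algHom_apply, minpoly.aeval, map_zero]
  have hle : ∀ n : ℕ, ∀ y z : ℚbar, z ≠ 0 →
      (A.valuation ((σ ^ n) y) ≤ A.valuation ((σ ^ n) z) ↔ A.valuation y ≤ A.valuation z) := by
    intro n
    induction n with
    | zero => intro y z _; simp
    | succ n ih =>
      intro y z hz
      have hz' : (σ ^ n) z ≠ 0 := (map_ne_zero_iff _ (σ ^ n).injective).mpr hz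
      rw [pow_succ', AlgEquiv.mul_apply, AlgEquiv.mul_apply, val_le_iff_of_smul_eq hσ hz', ih y z hz]
  obtain ⟨m, n, hmn, h⟩ : ∃ m n : ℕ, m < n ∧ (σ ^ m) x = (σ ^ n) x := by
    have h1 := Set.Finite.exists_lt_map_eq_of_forall_mem (t := _) (f := fun n : ℕ => (σ ^ n) x)
      (fun n => Set.mem_range_self n) hfin
    obtain ⟨a, b, hab, h⟩ := h1
    exact ⟨a, b, hab, h⟩
  obtain ⟨d, rfl⟩ := Nat.exists_eq_add_of_lt hmn
  have hd : (σ ^ (d + 1)) x = x := by
    have h2 : (σ ^ m) ((σ ^ (d + 1)) x) = (σ ^ m) x := by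
      rw [← AlgEquiv.mul_apply, ← pow_add, ← add_assoc, ← h]
    exact (σ ^ m).injective h2
  have hσx : σ x ≠ 0 := by simpa using hx
  rcases le_total (A.valuation (σ x)) (A.valuation x) with hcmp | hcmp
  · refine le_antisymm hcmp ?_
    -- `v (σ^(d+1) x) ≤ v (σ x)`
    have hmono : ∀ n : ℕ, A.valuation ((σ ^ (n + 1)) x) ≤ A.valuation (σ x) := by
      intro n
      induction n with
      | zero => simp
      | succ n ih =>
        refine le_trans ?_ ih
        have := (hle (n + 1) (σ x) x hx).mpr hcmp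
        rwa [← AlgEquiv.mul_apply, ← pow_succ] at this
    rw [← hd] at hcmp ⊢
    rw [hd]
    have := hmono d
    rwa [hd] at this
  · refine le_antisymm ?_ hcmp
    have hmono : ∀ n : ℕ, A.valuation (σ x) ≤ A.valuation ((σ ^ (n + 1)) x) := by
      intro n
      induction n with
      | zero => simp
      | succ n ih =>
        refine le_trans ih ?_
        have := (hle (n + 1) x (σ x) hσx).mpr hcmp
        rwa [← AlgEquiv.mul_apply, ← pow_succ] at this
    have := hmono d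
    rwa [hd] at this

theorem smul_eq_of_inertia {σ : ℚbar ≃ₐ[ℚ] ℚbar} (hσ : σ ∈ A.inertiaSubgroupIn ℚ) :
    σ • A = A :=
  ((TWP.Place.mem_inertiaSubgroupIn_iff A σ).mp hσ).1

variable {q : ℕ} [hq : Fact q.Prime] (hA : A.LiesOverPrime q)

include hA in
/-- Values are rational multiples of the value of `q`. -/
theorem exists_pow_val {x : ℚbar} (hx : x ≠ 0) :
    ∃ n : ℕ, 0 < n ∧ ∃ N : ℤ, A.valuation (x ^ n * (q : ℚbar) ^ N) = 1 := by
  classical
  let S : Finset ℚbar := ((minpoly ℚ x).rootSet_finite ℚbar).toFinset.filter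
    (fun y => ∃ σ ∈ A.inertiaSubgroupIn ℚ, y = σ x)
  have hmem : ∀ y, y ∈ S ↔ ∃ σ ∈ A.inertiaSubgroupIn ℚ, y = σ x := by
    intro y
    rw [Finset.mem_filter, Set.Finite.mem_toFinset, and_iff_right_iff_imp]
    rintro ⟨σ, -, rfl⟩
    rw [Polynomial.mem_rootSet]
    refine ⟨minpoly.ne_zero (Algebra.IsIntegral.isIntegral x), ?_⟩
    rw [← AlgEquiv.coe_toAlgHom, Polynomial.aeval_algHom_apply, minpoly.aeval, map_zero]
  have hxS : x ∈ S := (hmem x).mpr ⟨1, Subgroup.one_mem _, rfl⟩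
  have hval : ∀ y ∈ S, A.valuation y = A.valuation x := by
    intro y hy
    obtain ⟨σ, hσ, rfl⟩ := (hmem y).mp hy
    exact val_eq_of_smul_eq (smul_eq_of_inertia hσ) x
  have hne : ∀ y ∈ S, y ≠ 0 := by
    intro y hy
    obtain ⟨σ, hσ, rfl⟩ := (hmem y).mp hy
    simpa using hx
  have hfix : ∀ σ ∈ A.inertiaSubgroupIn ℚ, σ (∏ y ∈ S, y) = ∏ y ∈ S, y := by
    intro σ hσ
    rw [map_prod]
    refine Finset.prod_bij (fun y _ => σ y) ?_ ?_ ?_ ?_
    · intro y hy
      obtain ⟨τ, hτ, rfl⟩ := (hmem y).mp hy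
      exact (hmem _).mpr ⟨σ * τ, Subgroup.mul_mem _ hσ hτ, rfl⟩
    · intro a _ b _ h
      exact σ.injective h
    · intro y hy
      obtain ⟨τ, hτ, rfl⟩ := (hmem y).mp hy
      refine ⟨(σ⁻¹ * τ) x, (hmem _).mpr ⟨σ⁻¹ * τ, Subgroup.mul_mem _ (Subgroup.inv_mem _ hσ) hτ,
        rfl⟩, ?_⟩
      change (σ * (σ⁻¹ * τ)) x = τ x
      rw [mul_inv_cancel_left]
    · intro a _
      rfl
  obtain ⟨N, hN⟩ := InertiaValue.exists_zpow_of_inertia_fixed A hq.out hA
    (Finset.prod_ne_zero_iff.mpr hne) hfix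
  refine ⟨S.card, Finset.card_pos.mpr ⟨x, hxS⟩, N, ?_⟩
  rw [map_mul, map_prod, Finset.prod_congr rfl hval, Finset.prod_const] at hN
  rw [map_mul, map_pow]
  exact hN

omit hq in
include hA in
theorem val_q_lt_one : A.valuation (q : ℚbar) < 1 := by
  have : (q : ℚbar) ∈ A.nonunits := hA
  exact (ValuationSubring.mem_nonunits_iff A).mp this

include hA in
theorem zpow_eq_zero_of_val {M : ℤ} (h : A.valuation ((q : ℚbar) ^ M) = 1) : M = 0 := by
  have hlt := val_q_lt_one hA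
  have hq0 : (q : ℚbar) ≠ 0 := by exact_mod_cast hq.out.ne_zero
  have hv0 : A.valuation (q : ℚbar) ≠ 0 := (Valuation.ne_zero_iff _).mpr hq0
  rcases lt_trichotomy M 0 with hM | hM | hM
  · exfalso
    obtain ⟨m, rfl⟩ := Int.exists_eq_neg_ofNat hM.le
    have hm : m ≠ 0 := by rintro rfl; simp at hM
    rw [zpow_neg, map_inv₀, zpow_natCast, map_pow, inv_eq_one] at h
    exact (pow_lt_one₀ zero_le hlt hm).ne h
  · exact hM
  · exfalso
    obtain ⟨m, rfl⟩ := Int.eq_ofNat_of_zero_le hM.le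
    have hm : m ≠ 0 := by rintro rfl; simp at hM
    rw [zpow_natCast, map_pow] at h
    exact (pow_lt_one₀ zero_le hlt hm).ne h

include hA in
theorem zpow_nonneg_of_val {M : ℤ} (h : A.valuation ((q : ℚbar) ^ M) ≤ 1) : 0 ≤ M := by
  by_contra hM
  push Not at hM
  obtain ⟨m, rfl⟩ := Int.exists_eq_neg_ofNat hM.le
  have hm : m ≠ 0 := by rintro rfl; simp at hM
  have hlt := val_q_lt_one hA
  have hq0 : (q : ℚbar) ≠ 0 := by exact_mod_cast hq.out.ne_zero
  have hv0 : A.valuation (q : ℚbar) ≠ 0 := (Valuation.ne_zero_iff _).mpr hq0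
  rw [zpow_neg, map_inv₀, zpow_natCast, map_pow, inv_le_one₀ (zero_lt_iff.mpr (pow_ne_zero _ hv0))] at h
  exact absurd h (not_le.mpr (pow_lt_one₀ zero_le hlt hm))

include hA in
/-- The valuation has rank one. -/
theorem exists_pow_mul_mem {a : ℚbar} (ha : A.valuation a < 1) (y : ℚbar) :
    ∃ m : ℕ, a ^ m * y ∈ A := by
  rcases eq_or_ne y 0 with rfl | hy
  · exact ⟨0, by simp⟩
  rcases eq_or_ne a 0 with rfl | ha0
  · exact ⟨1, by simp⟩
  obtain ⟨n, hn, N, hN⟩ := exists_pow_val hA ha0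
  obtain ⟨n', hn', N', hN'⟩ := exists_pow_val hA hy
  have hq0 : (q : ℚbar) ≠ 0 := by exact_mod_cast hq.out.ne_zero
  have hv0 : A.valuation (q : ℚbar) ≠ 0 := (Valuation.ne_zero_iff _).mpr hq0
  have hNneg : N < 0 := by
    by_contra hcon
    push Not at hcon
    obtain ⟨m, rfl⟩ := Int.eq_ofNat_of_zero_le hcon
    rw [map_mul, map_pow, zpow_natCast, map_pow] at hN
    have h1 : A.valuation a ^ n < 1 := pow_lt_one₀ zero_le ha hn.ne'
    have h2 : A.valuation (q : ℚbar) ^ m ≤ 1 := pow_le_one₀ zero_le (val_q_lt_one hA).le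
    exact absurd hN (mul_lt_one_of_lt_of_le h1 h2).ne
  have hva : A.valuation a ^ n = A.valuation ((q : ℚbar) ^ (-N)) := by
    rw [map_mul, map_pow] at hN
    rw [zpow_neg, map_inv₀]
    exact eq_inv_of_mul_eq_one_left hN
  have hvy : A.valuation y ^ n' = A.valuation ((q : ℚbar) ^ (-N')) := by
    rw [map_mul, map_pow] at hN'
    rw [zpow_neg, map_inv₀]
    exact eq_inv_of_mul_eq_one_left hN'
  let m : ℕ := N'.natAbs * n
  refine ⟨m, ?_⟩
  rw [← A.valuation_le_one_iff]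
  have key : A.valuation (a ^ m * y) ^ (n * n') =
      A.valuation ((q : ℚbar) ^ (-N * m * n' + -N' * n)) := by
    rw [map_mul, map_pow, mul_pow, ← pow_mul,
      show m * (n * n') = n * (m * n') by ring, pow_mul, hva, mul_comm n n', pow_mul _ n' n, hvy,
      ← map_pow, ← map_pow, ← map_mul, ← zpow_natCast, ← zpow_natCast, ← zpow_mul, ← zpow_mul,
      ← zpow_add₀ hq0]
    congr 2
    push_cast
    ring
  have hexp : (0 : ℤ) ≤ -N * m * n' + -N' * n := by
    have h1 : (1 : ℤ) ≤ -N := by omega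
    have h2 : (1 : ℤ) ≤ n' := by exact_mod_cast hn'
    have h3 : (0 : ℤ) ≤ n := Int.natCast_nonneg n
    have h4 : N' ≤ (N'.natAbs : ℤ) := Int.le_natAbs
    have h5 : (m : ℤ) = (N'.natAbs : ℤ) * n := by simp [m]
    have h6 : (0 : ℤ) ≤ m := Int.natCast_nonneg m
    have h7 : (m : ℤ) ≤ -N * m * n' := by
      have : (m : ℤ) * 1 ≤ m * (-N * n') := mul_le_mul_of_nonneg_left (by nlinarith) h6
      nlinarith
    nlinarith
  have h1 : A.valuation (a ^ m * y) ^ (n * n') ≤ 1 := by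
    rw [key]
    obtain ⟨e, he⟩ := Int.eq_ofNat_of_zero_le hexp
    rw [he, zpow_natCast, map_pow]
    exact pow_le_one₀ zero_le (val_q_lt_one hA).le
  by_contra hcon
  push Not at hcon
  exact absurd h1 (not_le.mpr (one_lt_pow₀ hcon (Nat.mul_pos hn hn').ne'))

section Residue

variable {k : Type*} [Field k] {π : A →+* k} (hπ : Function.Surjective π)

include hπ in
theorem res_eq_zero_iff {a : ℚbar} (ha : a ∈ A) : π ⟨a, ha⟩ = 0 ↔ A.valuation a < 1 := by
  constructor
  · intro h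
    rw [← ValuationSubring.mem_nonunits_iff]
    rw [ValuationSubring.mem_nonunits_iff_exists_mem_maximalIdeal]
    refine ⟨ha, ?_⟩
    rw [IsLocalRing.mem_maximalIdeal, mem_nonunits_iff]
    intro hu
    have := hu.map π
    rw [h] at this
    exact not_isUnit_zero this
  · intro h
    apply res_eq_zero_of_not_isUnit hπ
    intro hu
    have := (A.valuation_eq_one_iff ⟨a, ha⟩).mp hu
    exact absurd this h.ne

include hπ in
theorem res_ne_zero_iff {a : ℚbar} (ha : a ∈ A) : π ⟨a, ha⟩ ≠ 0 ↔ A.valuation a = 1 := by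
  rw [Ne, res_eq_zero_iff hπ ha, not_lt]
  exact ⟨fun h => le_antisymm ((A.valuation_le_one_iff a).mpr ha) h, fun h => h.ge⟩

include hA hπ in
theorem arch : Arch π := by
  intro a ha y
  exact exists_pow_mul_mem hA ((res_eq_zero_iff hπ a.2).mp ha) y

include hπ in
theorem unit_of_smul_eq {σ : ℚbar ≃ₐ[ℚ] ℚbar} (hσ : σ • A = A) {x : ℚbar} (hx : x ≠ 0) :
    ∃ h : σ x / x ∈ A, π ⟨_, h⟩ ≠ 0 := by
  have hv : A.valuation (σ x / x) = 1 := by
    rw [map_div₀, val_eq_of_smul_eq hσ, div_self ((Valuation.ne_zero_iff _).mpr hx)]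
  have h : σ x / x ∈ A := (A.valuation_le_one_iff _).mp hv.le
  exact ⟨h, (res_ne_zero_iff hπ h).mpr hv⟩

include hπ in
theorem res_inertia {σ : ℚbar ≃ₐ[ℚ] ℚbar} (hσ : σ ∈ A.inertiaSubgroupIn ℚ) {x : ℚbar}
    (hx : A.valuation x = 1) : ∃ h : σ x / x ∈ A, π ⟨_, h⟩ = 1 := by
  have hx0 : x ≠ 0 := by rintro rfl; simp at hx
  obtain ⟨hσA, hres⟩ := (TWP.Place.mem_inertiaSubgroupIn_iff A σ).mp hσ
  obtain ⟨h, -⟩ := unit_of_smul_eq (π := π) hπ hσA hx0
  refine ⟨h, ?_⟩
  have hxA : x ∈ A := (A.valuation_le_one_iff _).mp hx.le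
  have h1 := hres x hxA
  have h2 : A.valuation (σ x / x - 1) < 1 := by
    have h3 : σ x / x - 1 = (σ x - x) / x := by field_simp
    rw [h3, map_div₀, hx, div_one]
    exact (ValuationSubring.mem_nonunits_iff A).mp h1
  have h3 : σ x / x - 1 ∈ A := sub_mem h A.one_mem
  have h4 := (res_eq_zero_iff hπ h3).mpr h2
  have h5 : (⟨σ x / x - 1, h3⟩ : A) = ⟨σ x / x, h⟩ - 1 := rfl
  rw [h5, map_sub, map_one, sub_eq_zero] at h4
  exact h4

include hA hπ in
/-- **The inertia criterion for integral valuation.** -/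
theorem inert {n : ℕ} (hn : (n : k) ≠ 0) {b : ℚbar} {M : ℤ} (hb : b ≠ 0)
    (hI : ∀ σ ∈ A.inertiaSubgroupIn ℚ, ∃ h : σ b / b ∈ A, π ⟨_, h⟩ = 1)
    (hu : A.valuation (b ^ n * (q : ℚbar) ^ M) = 1) : (n : ℤ) ∣ M := by
  have hn0 : n ≠ 0 := by rintro rfl; simp at hn
  have hq0 : (q : ℚbar) ≠ 0 := by exact_mod_cast hq.out.ne_zero
  have hqM : (q : ℚbar) ^ M ≠ 0 := zpow_ne_zero _ hq0
  obtain ⟨c, hc⟩ := IsAlgClosed.exists_pow_nat_eq (b ^ n * (q : ℚbar) ^ M) (Nat.pos_of_ne_zero hn0)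
  have hvc : A.valuation c = 1 := by
    have h1 : A.valuation c ^ n = 1 := by rw [← map_pow, hc, hu]
    exact (pow_eq_one_iff_of_nonneg zero_le hn0).mp h1
  have hc0 : c ≠ 0 := by rintro rfl; simp at hvc
  have hb' : (b / c) ^ n = (q : ℚbar) ^ (-M) := by
    rw [div_pow, hc, zpow_neg]
    field_simp
  have hbc : b / c ≠ 0 := div_ne_zero hb hc0
  have hfix : ∀ σ ∈ A.inertiaSubgroupIn ℚ, σ (b / c) = b / c := by
    intro σ hσ
    obtain ⟨h1, h1'⟩ := hI σ hσ
    obtain ⟨h2, h2'⟩ := res_inertia hπ hσ hvc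
    obtain ⟨h3, h3'⟩ := unit_div h2 (by rw [h2']; exact one_ne_zero) h1 hπ
    rw [h1', h2', div_one] at h3'
    have hσc : σ c ≠ 0 := by simpa using hc0
    have e1 : σ b / b / (σ c / c) = σ (b / c) / (b / c) := by
      rw [map_div₀]
      field_simp
    set ζ : ℚbar := σ (b / c) / (b / c) with hζ
    have hζA : ζ ∈ A := by rw [← e1]; exact h3
    have hζ1 : π ⟨ζ, hζA⟩ = 1 := by
      rw [← h3']
      congr 1
      exact Subtype.ext e1.symm
    have hζn : ζ ^ n = 1 := by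
      rw [hζ, div_pow, ← map_pow, hb', map_zpow₀, map_natCast, div_self (zpow_ne_zero _ hq0)]
    have hζ11 : ζ = 1 := by
      by_contra hne
      have h4 := mul_neg_geom_sum ζ n
      rw [hζn, sub_self] at h4
      have h5 : ∑ i ∈ Finset.range n, ζ ^ i = 0 :=
        (mul_eq_zero.mp h4).resolve_left (sub_ne_zero.mpr (Ne.symm hne))
      apply hn
      have h6 : π (∑ i ∈ Finset.range n, (⟨ζ, hζA⟩ : A) ^ i) = n := by
        rw [map_sum, Finset.sum_congr rfl fun i _ => by rw [map_pow, hζ1, one_pow]]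
        simp
      rw [← h6]
      have h7 : (∑ i ∈ Finset.range n, (⟨ζ, hζA⟩ : A) ^ i) = 0 := by
        apply Subtype.ext
        push_cast
        exact h5
      rw [h7, map_zero]
    rw [hζ, div_eq_one_iff_eq hbc] at hζ11
    exact hζ11
  obtain ⟨j, hj⟩ := InertiaValue.exists_zpow_of_inertia_fixed A hq.out hA hbc hfix
  have h1 : A.valuation ((q : ℚbar) ^ (-M + j * n)) = 1 := by
    have h2 : (b / c * (q : ℚbar) ^ j) ^ n = (q : ℚbar) ^ (-M + j * n) := by
      rw [mul_pow, hb', ← zpow_natCast ((q : ℚbar) ^ j), ← zpow_mul, ← zpow_add₀ hq0]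
    rw [← h2, map_pow, hj, one_pow]
  have h2 := zpow_eq_zero_of_val hA h1
  exact ⟨j, by linarith⟩

end Residue

/-- the inertia input of the monodromy formula. -/
theorem inertInput {F : Type*} [Field F] [Algebra ℚbar F] {k : Type*} [Field k] {π : A →+* k}
    (hA : A.LiesOverPrime q) (hπ : Function.Surjective π) {n : ℕ} (hn : (n : k) ≠ 0)
    (G : Subgroup (SemilinearAut ℚbar F))
    (hG : ∀ σ ∈ A.inertiaSubgroupIn ℚ, ∃ g ∈ G, ∀ x, SemilinearAut.baseAut g x = σ x) :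
    InertInput π G (q : ℚbar) n := by
  intro b M hb hI hu
  refine inert hA hπ hn hb (fun σ hσ => ?_) ?_
  · obtain ⟨g, hg, hgσ⟩ := hG σ hσ
    have := hI g hg
    rwa [hgσ] at this
  · obtain ⟨h, h'⟩ := hu
    exact (res_ne_zero_iff hπ h).mp h'

end Fermat.Agent.DR.Mono
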