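import Fermat.Agent.DR.Mono.Node

/-!
# DR / Mono: coordinates on the annulus of a node

At a node, with enough inertia-invariant functions (`F₀`, on which the second Gauss valuation is
discrete), there is a function `y ∈ F₀` without zeros or poles on the annulus, which reduces to a
uniformiser at `s₁` on the first component and has second valuation `w` with `m * w = E`, where
`m = ord_{s₁} g₁` and `E` is the second valuation of the modular unit `g`.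
-/

set_option autoImplicit false

noncomputable section

open AlgebraicCurve Fermat.Agent.JRED Fermat.Agent.RR

namespace Fermat.Agent.DR.Mono

section Scal

variable {K F k Fk : Type*} [Field K] [Field F] [Algebra K F] [Field k] [Field Fk] [Algebra k Fk]
variable {A : ValuationSubring K} {π : A →+* k} (R : RedDatum K F k Fk A π)

/-- a nonunit multiple of a reducible function reduces to `0` -/
theorem red_zero_of_mem {R : RedDatum K F k Fk A π} {d : K} (hd : d ∈ A) (h0 : π ⟨d, hd⟩ = 0)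
    {w : F} {u : Fk} (h : R.Red w u) : R.Red (algebraMap K F d * w) 0 := by
  have h1 := RedDatum.smul_mem hd h
  rwa [h0, map_zero, zero_mul] at h1

theorem zpow_mem_of_nonneg {ϖ : K} (hϖ : ϖ ∈ A) {n : ℤ} (hn : 0 ≤ n) : ϖ ^ n ∈ A := by
  obtain ⟨m, rfl⟩ := Int.eq_ofNat_of_zero_le hn
  rw [zpow_natCast]
  exact pow_mem hϖ m

theorem res_zpow_of_pos {ϖ : K} (hϖ : ϖ ∈ A) (h0 : π ⟨ϖ, hϖ⟩ = 0) {n : ℤ} (hn : 0 < n) :
    π ⟨ϖ ^ n, zpow_mem_of_nonneg hϖ hn.le⟩ = 0 := by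
  obtain ⟨m, rfl⟩ := Int.eq_ofNat_of_zero_le hn.le
  have h1 : (⟨ϖ ^ (m : ℤ), zpow_mem_of_nonneg hϖ hn.le⟩ : A) = (⟨ϖ, hϖ⟩ : A) ^ m := by
    apply Subtype.ext
    simp
  rw [h1, map_pow, h0, zero_pow]
  omega

/-- an element of `K` is a unit of `A` if it maps a normalised function to a normalised one -/
theorem unit_of_red {R : RedDatum K F k Fk A π} (hπ : Function.Surjective π) {d : K} {w : F}
    {u v : Fk} (h : R.Red w u) (hu : u ≠ 0) (h' : R.Red (algebraMap K F d * w) v) (hv : v ≠ 0) :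
    ∃ hd : d ∈ A, π ⟨d, hd⟩ ≠ 0 := by
  obtain ⟨hd, h1, -⟩ := exists_unit_of_red hπ h hu h' hv
  exact ⟨hd, h1⟩

end Scal

variable {K F k F₁ F₂ : Type*} [Field K] [Field F] [Algebra K F] [Field k] [Field F₁] [Field F₂]
  [Algebra k F₁] [Algebra k F₂] [HasPrincipalDivisors K F] {A : ValuationSubring K} {π : A →+* k}
variable {R₁ : RedDatum K F k F₁ A π} {R₂ : RedDatum K F k F₂ A π}

section NodeUnit

variable {q : ℕ} (N : Node R₁ R₂ q)

/-- A function without poles on the annulus with vanishing second reduction has first reduction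
vanishing at `s₁`. -/
theorem Node.val_zero_of_red_zero [IsAlgClosed k] [Fact q.Prime] [CharP k q]
    [Fermat.FF.IsFF1 k F₁] [Fermat.FF.IsFF1 k F₂] (hπ : Function.Surjective π) (hA : Arch π)
    {G : F} {G₁ : F₁} (hG : PF N.Ann G) (h1 : R₁.Red G G₁) (h2 : R₂.Red G 0) :
    Val N.s₁ G₁ 0 := by
  obtain ⟨c, hc1, hc2⟩ := N.regs hπ hA h1 h2 hG
  have : c = 0 := hc2.unique (by simpa using val_const (s := N.s₂) (0 : k))
  rwa [this] at hc1

/-- An invertible function on the annulus whose first reduction is invertible at `s₁` has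
second valuation zero. -/
theorem Node.unit_of_inv [IsAlgClosed k] [Fact q.Prime] [CharP k q]
    [Fermat.FF.IsFF1 k F₁] [Fermat.FF.IsFF1 k F₂] (hπ : Function.Surjective π) (hA : Arch π)
    {G : F} {G₁ : F₁} (hG : Inv N.Ann G) (h1 : R₁.Red G G₁) (hG1 : G₁ ≠ 0)
    (hord : N.s₁.ord G₁ = 0)
    {d : K} {G₂ : F₂} (h2 : R₂.Red (algebraMap K F d * G) G₂) (hG2 : G₂ ≠ 0) :
    ∃ hd : d ∈ A, π ⟨d, hd⟩ ≠ 0 := by
  have hd0 : d ≠ 0 := by
    rintro rfl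
    rw [map_zero, zero_mul] at h2
    exact hG2 (R₂.unique h2 R₂.zero)
  have hdF : algebraMap K F d ≠ 0 := by simpa using hd0
  have key : ∀ {G : F} {G₁ : F₁}, PF N.Ann G → R₁.Red G G₁ → G₁ ≠ 0 → N.s₁.ord G₁ = 0 →
      ¬ R₂.Red G 0 := by
    intro G G₁ hG h1 hG1 hord h2
    rcases val_zero_iff.mp (N.val_zero_of_red_zero hπ hA hG h1 h2) with h | h
    · exact hG1 h
    · omega
  have hdA : d ∈ A := by
    by_contra hdA
    exact key hG.pf h1 hG1 hord (RedDatum.red_zero_of_smul hπ hdA h2)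
  refine ⟨hdA, fun h0 => ?_⟩
  apply key hG.inv.pf (RedDatum.inv hπ h1 hG1) (inv_ne_zero hG1) (by rw [N.s₁.ord_inv, hord]; rfl)
  have h3 := red_zero_of_mem hdA h0 (RedDatum.inv hπ h2 hG2)
  have h4 : algebraMap K F d * (algebraMap K F d * G)⁻¹ = G⁻¹ := by
    rw [mul_inv, ← mul_assoc, mul_inv_cancel₀ hdF, one_mul]
  rwa [h4] at h3

end NodeUnit

/-- Discreteness data: a subfield `F₀` of `F` on which `R₂` has value group `ϖ ^ ℤ`. -/
structure DiscData (R₂ : RedDatum K F k F₂ A π) (F₀ : Subfield F) (ϖ : K) : Prop where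
  ne_zero : ϖ ≠ 0
  mem : ϖ ∈ A
  res : π ⟨ϖ, mem⟩ = 0
  mem_F₀ : algebraMap K F ϖ ∈ F₀
  disc : ∀ y ∈ F₀, y ≠ 0 → ∃ a : ℤ, ∃ u : F₂, u ≠ 0 ∧ R₂.Red (algebraMap K F (ϖ ^ a)⁻¹ * y) u

/-- Node together with the second valuation `E` of `g` and invariant lifts. -/
structure NodeData (R₁ : RedDatum K F k F₁ A π) (R₂ : RedDatum K F k F₂ A π) (q : ℕ)
    (F₀ : Subfield F) (ϖ : K) (E : ℕ) extends Node R₁ R₂ q where
  g_mem : g ∈ F₀
  g₂ : F₂
  g₂_ne : g₂ ≠ 0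
  red_g₂ : R₂.Red (algebraMap K F (ϖ ^ (E : ℤ))⁻¹ * g) g₂
  start : ∃ e ∈ F₀, PF Ann e ∧ ∃ (u : F₁) (v : F₂), R₁.Red e u ∧ s₁.ord u = 1 ∧ R₂.Red e (v ^ q)
  lift₂ : ∀ v : F₂, v ∈ s₂.toValuationSubring → ∃ c ∈ F₀, PF Ann c ∧ R₂.Red c v ∧
    ∃ u, R₁.Red c u

/-- A coordinate on the annulus. -/
structure Coord (N : PlacePair R₁ R₂) (ϖ : K) where
  y : F
  y₁ : F₁
  y₂ : F₂
  w : ℕ
  w_pos : 0 < w
  inv : Inv N.Ann y
  red₁ : R₁.Red y y₁
  ord₁ : N.s₁.ord y₁ = 1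
  red₂ : R₂.Red (algebraMap K F (ϖ ^ (w : ℤ))⁻¹ * y) y₂
  y₂_ne : y₂ ≠ 0

/-- approximate coordinates -/
def IsPre (N : PlacePair R₁ R₂) (F₀ : Subfield F) (ϖ : K) (y : F) (w : ℕ) : Prop :=
  0 < w ∧ y ∈ F₀ ∧ PF N.Ann y ∧ (∃ y₁, R₁.Red y y₁ ∧ N.s₁.ord y₁ = 1) ∧
    ∃ y₂, y₂ ≠ 0 ∧ R₂.Red (algebraMap K F (ϖ ^ (w : ℤ))⁻¹ * y) y₂

section Exists

variable {q : ℕ} {F₀ : Subfield F} {ϖ : K} {E : ℕ} (N : NodeData R₁ R₂ q F₀ ϖ E)

theorem IsPre.mul_le [IsAlgClosed k] [Fact q.Prime] [CharP k q]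
    [Fermat.FF.IsFF1 k F₁] [Fermat.FF.IsFF1 k F₂] (hπ : Function.Surjective π) (hA : Arch π)
    (hD : DiscData R₂ F₀ ϖ) {y : F} {w : ℕ} (h : IsPre N.toPlacePair F₀ ϖ y w) {m : ℕ}
    (hm : N.s₁.ord N.g₁ = m) : m * w ≤ E := by
  obtain ⟨-, -, hpf, ⟨y₁, hy1, ho1⟩, y₂, hy2, hr2⟩ := h
  by_contra hlt
  push Not at hlt
  have hy10 : y₁ ≠ 0 := Fermat.FF.ne_zero_of_ord_ne_zero N.s₁ (by rw [ho1]; exact one_ne_zero)
  have h1 : R₁.Red (y ^ m * N.g⁻¹) (y₁ ^ m * N.g₁⁻¹) :=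
    R₁.mul (RedDatum.pow hy1 m) (RedDatum.inv hπ N.red_g N.g₁_ne)
  have hne : y₁ ^ m * N.g₁⁻¹ ≠ 0 := mul_ne_zero (pow_ne_zero _ hy10) (inv_ne_zero N.g₁_ne)
  have hord : N.s₁.ord (y₁ ^ m * N.g₁⁻¹) = 0 := by
    rw [N.s₁.ord_mul (pow_ne_zero _ hy10) (inv_ne_zero N.g₁_ne), Fermat.FF.ord_pow,
      N.s₁.ord_inv, hm, ho1]
    ring
  have h2 : R₂.Red (y ^ m * N.g⁻¹) 0 := by
    have h3 := R₂.mul (RedDatum.pow hr2 m) (RedDatum.inv hπ N.red_g₂ N.g₂_ne)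
    have hpos : (0 : ℤ) < (m * w : ℕ) - (E : ℤ) := by
      have : (E : ℤ) < (m * w : ℕ) := by exact_mod_cast hlt
      omega
    have h4 := red_zero_of_mem (zpow_mem_of_nonneg hD.mem hpos.le)
      (res_zpow_of_pos hD.mem hD.res hpos) h3
    have hϖ : algebraMap K F ϖ ≠ 0 := by simpa using hD.ne_zero
    have h5 : algebraMap K F (ϖ ^ ((m * w : ℕ) - (E : ℤ))) *
        ((algebraMap K F (ϖ ^ (w : ℤ))⁻¹ * y) ^ m *
          (algebraMap K F (ϖ ^ (E : ℤ))⁻¹ * N.g)⁻¹) = y ^ m * N.g⁻¹ := by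
      rw [zpow_sub₀ hD.ne_zero, map_div₀, map_inv₀, map_inv₀, mul_pow, mul_inv, inv_inv,
        zpow_natCast, zpow_natCast, zpow_natCast, map_pow, map_pow, map_pow, inv_pow, ← pow_mul,
        mul_comm w m]
      field_simp
    rwa [h5] at h4
  rcases val_zero_iff.mp (N.toNode.val_zero_of_red_zero hπ hA
    ((hpf.pow m).mul N.g_inv.inv.pf) h1 h2) with h | h
  · exact hne h
  · omega

theorem exists_isPre [IsAlgClosed k] [hq : Fact q.Prime] [CharP k q]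
    [Fermat.FF.IsFF1 k F₁] [Fermat.FF.IsFF1 k F₂] (hπ : Function.Surjective π) (hA : Arch π)
    (hD : DiscData R₂ F₀ ϖ) : ∃ y w, IsPre N.toPlacePair F₀ ϖ y w := by
  obtain ⟨e, he, hpe, u, v, hu, hou, hv⟩ := N.start
  have hu0 : u ≠ 0 := Fermat.FF.ne_zero_of_ord_ne_zero N.s₁ (by rw [hou]; exact one_ne_zero)
  have hvm : v ^ q ∈ N.s₂.toValuationSubring := N.toPlacePair.reg₂ hπ hu hv hpe
  have hvm' : v ∈ N.s₂.toValuationSubring := by
    by_contra hcon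
    have h1 : N.s₂.ord v < 0 := (Fermat.FF.not_mem_iff_ord _).mp hcon
    have h2 := Fermat.FF.ord_nonneg_of_mem _ hvm
    rw [Fermat.FF.ord_pow] at h2
    have h3 : (0 : ℤ) < q := by exact_mod_cast hq.out.pos
    nlinarith
  obtain ⟨c, hc, hpc, hcv, c₁, hc1⟩ := N.lift₂ v hvm'
  -- values
  obtain ⟨a, ha1, ha2⟩ := N.toNode.regs hπ hA hu hv hpe
  have ha0 : a = 0 := ha1.unique (val_zero_of_ord_pos (by rw [hou]; exact one_pos))
  subst ha0
  obtain ⟨b, hb1, hb2⟩ := N.toNode.regs hπ hA hc1 hcv hpc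
  have hb0 : b ^ q = 0 := (hb2.pow q).unique ha2
  have hb0' : b = 0 := pow_eq_zero_iff hq.out.ne_zero |>.mp hb0
  subst hb0'
  have hpf : PF N.Ann (e - c ^ q) := hpe.sub (hpc.pow q)
  have hr1 : R₁.Red (e - c ^ q) (u - c₁ ^ q) := RedDatum.sub hu (RedDatum.pow hc1 q)
  have hr2 : R₂.Red (e - c ^ q) 0 := by
    have := RedDatum.sub hv (RedDatum.pow hcv q)
    rwa [sub_self] at this
  have ho : N.s₁.ord (u - c₁ ^ q) = 1 := by
    rcases eq_or_ne c₁ 0 with rfl | hc10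
    · rw [zero_pow hq.out.ne_zero, sub_zero, hou]
    · have h1 : 0 < N.s₁.ord c₁ := (val_zero_iff.mp hb1).resolve_left hc10
      rw [sub_eq_add_neg, Fermat.FF.ord_add_of_lt N.s₁ hu0
        (neg_ne_zero.mpr (pow_ne_zero _ hc10)), hou]
      rw [Fermat.FF.ord_neg, Fermat.FF.ord_pow, hou]
      have h2 : (2 : ℤ) ≤ q := by exact_mod_cast hq.out.two_le
      nlinarith
  have hne1 : u - c₁ ^ q ≠ 0 :=
    Fermat.FF.ne_zero_of_ord_ne_zero N.s₁ (by rw [ho]; exact one_ne_zero)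
  have hne : e - c ^ q ≠ 0 := RedDatum.ne_zero_of_red hr1 hne1
  have hmem : e - c ^ q ∈ F₀ := sub_mem he (pow_mem hc q)
  obtain ⟨w, y₂, hy2, hw⟩ := hD.disc _ hmem hne
  have hwpos : 0 < w := by
    by_contra hle
    push Not at hle
    apply hy2
    apply R₂.unique hw
    have h1 := RedDatum.smul_mem (zpow_mem_of_nonneg hD.mem (neg_nonneg.mpr hle)) hr2
    rw [mul_zero, zpow_neg] at h1
    exact h1
  obtain ⟨w', rfl⟩ := Int.eq_ofNat_of_zero_le hwpos.le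
  exact ⟨e - c ^ q, w', by exact_mod_cast hwpos, hmem, hpf, ⟨_, hr1, ho⟩, y₂, hy2, hw⟩

/-- **Existence of a coordinate** on the annulus of a node. -/
theorem exists_coord [IsAlgClosed k] [hq : Fact q.Prime] [CharP k q]
    [Fermat.FF.IsFF1 k F₁] [Fermat.FF.IsFF1 k F₂] (hπ : Function.Surjective π) (hA : Arch π)
    (hD : DiscData R₂ F₀ ϖ) : ∃ C : Coord N.toPlacePair ϖ, C.y ∈ F₀ ∧
      N.s₁.ord N.g₁ * C.w = E := by
  classical
  obtain ⟨m, hm⟩ := Int.eq_ofNat_of_zero_le N.ord_g.le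
  have hm0 : 0 < m := by
    have := N.ord_g
    omega
  -- a maximal `w`
  have hbound : ∀ y w, IsPre N.toPlacePair F₀ ϖ y w → w ≤ E := by
    intro y w h
    have h1 := IsPre.mul_le N hπ hA hD h hm
    nlinarith
  have hex := exists_isPre N hπ hA hD
  let Pw : ℕ → Prop := fun w => ∃ y, IsPre N.toPlacePair F₀ ϖ y w
  obtain ⟨y₀, w₀, h₀⟩ := hex
  have hPw : Pw (Nat.findGreatest Pw E) := Nat.findGreatest_spec (hbound _ _ h₀) ⟨y₀, h₀⟩
  set w := Nat.findGreatest Pw E with hwdef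
  have hmax : ∀ y w', IsPre N.toPlacePair F₀ ϖ y w' → w' ≤ w := fun y w' h =>
    Nat.le_findGreatest (hbound _ _ h) ⟨y, h⟩
  obtain ⟨y, hy⟩ := hPw
  obtain ⟨hwpos, hyF, hpf, ⟨y₁, hy1, ho1⟩, y₂, hy2, hr2⟩ := id hy
  have hy10 : y₁ ≠ 0 := Fermat.FF.ne_zero_of_ord_ne_zero N.s₁ (by rw [ho1]; exact one_ne_zero)
  have hy0 : y ≠ 0 := RedDatum.ne_zero_of_red hy1 hy10
  have hϖ : algebraMap K F ϖ ≠ 0 := by simpa using hD.ne_zero
  -- `y₂` is not regular at `s₂`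
  have hneg : N.s₂.ord y₂ < 0 := by
    rw [← Fermat.FF.not_mem_iff_ord]
    intro hreg
    obtain ⟨c, hc, hpc, hcv, c₁, hc1⟩ := N.lift₂ y₂ hreg
    have hwA : ϖ ^ (w : ℤ) ∈ A := zpow_mem_of_nonneg hD.mem (Int.natCast_nonneg w)
    have hwz : π ⟨ϖ ^ (w : ℤ), hwA⟩ = 0 :=
      res_zpow_of_pos hD.mem hD.res (by exact_mod_cast hwpos)
    set y' : F := y - algebraMap K F (ϖ ^ (w : ℤ)) * c with hy'
    have hr1' : R₁.Red y' y₁ := by
      have := RedDatum.sub hy1 (red_zero_of_mem hwA hwz hc1)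
      rwa [sub_zero] at this
    have hr2' : R₂.Red (algebraMap K F (ϖ ^ (w : ℤ))⁻¹ * y') 0 := by
      have := RedDatum.sub hr2 hcv
      rw [sub_self] at this
      have h1 : algebraMap K F (ϖ ^ (w : ℤ))⁻¹ * y' =
          algebraMap K F (ϖ ^ (w : ℤ))⁻¹ * y - c := by
        rw [hy', mul_sub, ← mul_assoc, ← map_mul, inv_mul_cancel₀ (zpow_ne_zero _ hD.ne_zero),
          map_one, one_mul]
      rw [h1]
      exact this
    have hmem' : y' ∈ F₀ := by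
      refine sub_mem hyF (mul_mem ?_ hc)
      rw [zpow_natCast, map_pow]
      exact pow_mem hD.mem_F₀ w
    have hpf' : PF N.Ann y' := hpf.sub ((PF.const _).mul hpc)
    have hne' : y' ≠ 0 := RedDatum.ne_zero_of_red hr1' hy10
    obtain ⟨a, u, hu, hau⟩ := hD.disc _ hmem' hne'
    have hlt : (w : ℤ) < a := by
      by_contra hle
      push Not at hle
      apply hu
      apply R₂.unique hau
      have h1 := RedDatum.smul_mem (zpow_mem_of_nonneg hD.mem (sub_nonneg.mpr hle)) hr2'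
      rw [mul_zero, ← mul_assoc, ← map_mul, zpow_sub₀ hD.ne_zero, div_mul_eq_mul_div,
        mul_inv_cancel₀ (zpow_ne_zero _ hD.ne_zero), one_div] at h1
      exact h1
    obtain ⟨a', rfl⟩ := Int.eq_ofNat_of_zero_le (by omega : (0 : ℤ) ≤ a)
    have hpre : IsPre N.toPlacePair F₀ ϖ y' a' :=
      ⟨by omega, hmem', hpf', ⟨y₁, hr1', ho1⟩, u, hu, hau⟩
    have := hmax _ _ hpre
    omega
  have hinv0 : (ϖ ^ (w : ℤ))⁻¹ ≠ 0 := inv_ne_zero (zpow_ne_zero _ hD.ne_zero)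
  have hsum := N.toPlacePair.norm y hy0
  rw [o_eq' N.s₁ hπ hy1 hy10, o_eq N.s₂ hπ hr2 hy2, ho1] at hsum
  have hnn := annSum_nonneg hpf
  have hinv : Inv N.Ann y := inv_of_annSum_eq_zero hy0 hpf (by omega)
  refine ⟨⟨y, y₁, y₂, w, hwpos, hinv, hy1, ho1, hr2, hy2⟩, hyF, ?_⟩
  -- `m * w = E`
  have hu := N.toNode.unit_of_inv hπ hA (G := y ^ m * N.g⁻¹) (G₁ := y₁ ^ m * N.g₁⁻¹)
    ((hinv.pow m).mul N.g_inv.inv) (R₁.mul (RedDatum.pow hy1 m)
      (RedDatum.inv hπ N.red_g N.g₁_ne)) (mul_ne_zero (pow_ne_zero _ hy10)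
      (inv_ne_zero N.g₁_ne)) (by
        rw [N.s₁.ord_mul (pow_ne_zero _ hy10) (inv_ne_zero N.g₁_ne), Fermat.FF.ord_pow,
          N.s₁.ord_inv, hm, ho1]
        ring)
    (d := ϖ ^ ((E : ℤ) - (m * w : ℕ))) (G₂ := y₂ ^ m * N.g₂⁻¹) (by
      have h3 := R₂.mul (RedDatum.pow hr2 m) (RedDatum.inv hπ N.red_g₂ N.g₂_ne)
      have h5 : (algebraMap K F (ϖ ^ (w : ℤ))⁻¹ * y) ^ m *
          (algebraMap K F (ϖ ^ (E : ℤ))⁻¹ * N.g)⁻¹ =
          algebraMap K F (ϖ ^ ((E : ℤ) - (m * w : ℕ))) * (y ^ m * N.g⁻¹) := by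
        rw [zpow_sub₀ hD.ne_zero, map_div₀, map_inv₀, map_inv₀, mul_pow, mul_inv, inv_inv,
          zpow_natCast, zpow_natCast, zpow_natCast, map_pow, map_pow, map_pow, inv_pow, ← pow_mul,
          mul_comm w m]
        field_simp
      rwa [h5] at h3)
    (mul_ne_zero (pow_ne_zero _ hy2) (inv_ne_zero N.g₂_ne))
  obtain ⟨hdA, hdne⟩ := hu
  have hle := IsPre.mul_le N hπ hA hD hy hm
  have heq : m * w = E := by
    rcases lt_or_eq_of_le hle with hlt | heq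
    · exfalso
      apply hdne
      exact res_zpow_of_pos hD.mem hD.res (by
        have : ((m * w : ℕ) : ℤ) < E := by exact_mod_cast hlt
        omega)
    · exact heq
  rw [hm]
  change ((m : ℕ) : ℤ) * (w : ℤ) = E
  exact_mod_cast heq

end Exists

end Fermat.Agent.DR.Mono
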