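import Fermat.Agent.DR.Mono.Slope
import Fermat.Agent.DR.ModGal.NodeFrob
import Fermat.Agent.JRED.TorsionInj
import Fermat.Agent.Jan.HeckeNorm

set_option autoImplicit false
set_option linter.unusedSectionVars false

/-!
# DR / Mono: place pairs and nodes from two degeneracy maps

`MonoPair`: two embeddings `α, β : G → F`, reductions `R` of `G`, `R₁, R₂` of `F` with
`R₁ ∘ α = R`, `R₁ ∘ β = Φ ∘ R`, `R₂ ∘ α = Φ ∘ R`, `R₂ ∘ β = R`, a semilinear `φ` with
`Φ (φ u) = u ^ q`, a place map `r` of `R` and the Kronecker congruences for the norms.  The structure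
is symmetric (`MonoPair.swap`).

* `MonoPair.pair s`: for every place `s` of `Gb` the `PlacePair` `s₁ = s`, `s₂ = φ⁻¹ s`,
  `Ann = {P | r (P|α) = s}`.
* `MonoPair.restrict_β`: for `P ∈ Ann s`, `s` not a pole of `xb`: `r (P|β) ∈ {φ s, φ⁻¹ s}`.
* `MonoPair.node`: a function `g` without zeros and poles on `Ann s` with `R₁`-reduction vanishing
  at `s` makes `pair s` a node; then `φ² s = s`, `Ann s = {P | r (P|β) = φ s}`.
-/

noncomputable section

open AlgebraicCurve Fermat.Agent.JRED Fermat.Agent.RR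
open Fermat.Agent.DR.Nodes (regAlg mem_regAlg)
open Fermat.Agent.Jan.HeckeNorm (normAlong normAlong_ne_zero pushforwardAlong_eq_ord)
open Fermat.Agent.Jan.RelFundamental (normFormulaAlong inertiaDegAlong_eq_one)

namespace Fermat.Agent.DR.Mono

section Push

variable {K F G : Type*} [Field K] [Field F] [Algebra K F] [Field G] [Algebra K G]
  [IsAlgClosed K] [CharZero K] [Fermat.FF.IsFF1 K G] [HasPrincipalDivisors K F]

/-- The divisor of a norm. -/
theorem mapDomain_restrictAlong (ψ : G →ₐ[K] F) (hψ : ψ.toRingHom.IsIntegral)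
    (hfin : FiniteAlong K ψ) {f : F} (hf : f ≠ 0) {D : Divisor K F} (hD : ∀ P, D P = P.ord f)
    (Q : Place K G) :
    Finsupp.mapDomain (fun P : Place K F => P.restrictAlong ψ hψ) D Q = Q.ord (normAlong ψ f) := by
  rw [← pushforwardAlong_eq_ord ψ hψ hfin (normFormulaAlong ψ hfin) hf hD Q]
  congr 1
  clear hD hf
  induction D using Finsupp.induction_linear with
  | zero => simp
  | add D E h1 h2 => rw [Finsupp.mapDomain_add, h1, h2, map_add]
  | single P n =>
    rw [Finsupp.mapDomain_single, Divisor.pushforwardAlong_single,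
      inertiaDegAlong_eq_one ψ hψ hfin P]
    simp

end Push

section Sum

variable {K F k Fk : Type*} [Field K] [Field F] [Algebra K F] [Field k] [Field Fk] [Algebra k Fk]
  [HasPrincipalDivisors K F]

open Classical in
theorem annSum_eq_mapDomain (ρ : Place K F → Place k Fk) (s : Place k Fk) {f : F}
    {D : Divisor K F} (hD : ∀ P, D P = P.ord f) :
    annSum {P | ρ P = s} f = Finsupp.mapDomain ρ D s := by
  have hD' : D = divOf (K := K) f := by
    ext P
    rw [hD, divOf_apply]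
  rw [mapDomain_apply_eq, annSum, hD']
  refine Finset.sum_congr ?_ fun P _ => (divOf_apply f P).symm
  ext P
  simp

end Sum

variable (K F G k Gb : Type*) [Field K] [Field F] [Algebra K F] [Field G] [Algebra K G] [Field k]
  [Field Gb] [Algebra k Gb] {A : ValuationSubring K} (π : A →+* k)

/-- Two degeneracy maps with all their reduction data. -/
structure MonoPair [HasPrincipalDivisors K G] [HasPrincipalDivisors k Gb] where
  surj : Function.Surjective π
  R : RedDatum K G k Gb A π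
  R₁ : RedDatum K F k Gb A π
  R₂ : RedDatum K F k Gb A π
  α : G →ₐ[K] F
  β : G →ₐ[K] F
  Φ : Gb →ₐ[k] Gb
  φ : SemilinearAut k Gb
  q : ℕ
  two_le : 2 ≤ q
  x : G
  xb : Gb
  red_x : R.Red x xb
  transcendental : Transcendental k xb
  Φ_xb : Φ xb = xb ^ q
  φ_xb : φ • xb = xb
  base_φ : ∀ c, SemilinearAut.baseAut φ c = c ^ q
  Φ_φ : ∀ u, Φ (φ • u) = u ^ q
  integral_α : α.toRingHom.IsIntegral
  integral_β : β.toRingHom.IsIntegral
  finite_α : FiniteAlong K α
  finite_β : FiniteAlong K β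
  red₁_α : ∀ {f : G} {u : Gb}, R.Red f u → R₁.Red (α f) u
  red₁_β : ∀ {f : G} {u : Gb}, R.Red f u → R₁.Red (β f) (Φ u)
  red₂_α : ∀ {f : G} {u : Gb}, R.Red f u → R₂.Red (α f) (Φ u)
  red₂_β : ∀ {f : G} {u : Gb}, R.Red f u → R₂.Red (β f) u
  r : Place K G → Place k Gb
  placeRed : PlaceRed R r
  map_poles : Finsupp.mapDomain r (polesOf (K := K) x) = polesOf (K := k) xb
  /-- `α x` and `β x` have the same poles -/
  poles : ∀ P : Place K F, α x ∈ P.toValuationSubring ↔ β x ∈ P.toValuationSubring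
  lift : ∀ u ∈ regAlg k xb, ∃ f ∈ regAlg K x, R.Red f u
  norm_α : ∀ {f : F} {c₁ c₂ : K} {u₁ u₂ : Gb}, R₁.Red (algebraMap K F c₁ * f) u₁ →
    R₂.Red (algebraMap K F c₂ * f) u₂ → ∃ c : K,
      R.Red (algebraMap K G c * normAlong α f) (u₁ * φ • u₂)
  norm_β : ∀ {f : F} {c₁ c₂ : K} {u₁ u₂ : Gb}, R₁.Red (algebraMap K F c₁ * f) u₁ →
    R₂.Red (algebraMap K F c₂ * f) u₂ → ∃ c : K,
      R.Red (algebraMap K G c * normAlong β f) (u₂ * φ • u₁)

variable {K F G k Gb π}

namespace MonoPair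

section Basic

variable [HasPrincipalDivisors K G] [HasPrincipalDivisors k Gb] (X : MonoPair K F G k Gb π)

/-- Exchange of the two degeneracy maps and of the two reductions. -/
@[simps]
def swap : MonoPair K F G k Gb π where
  surj := X.surj
  R := X.R
  R₁ := X.R₂
  R₂ := X.R₁
  α := X.β
  β := X.α
  Φ := X.Φ
  φ := X.φ
  q := X.q
  two_le := X.two_le
  x := X.x
  xb := X.xb
  red_x := X.red_x
  transcendental := X.transcendental
  Φ_xb := X.Φ_xb
  φ_xb := X.φ_xb
  base_φ := X.base_φ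
  Φ_φ := X.Φ_φ
  integral_α := X.integral_β
  integral_β := X.integral_α
  finite_α := X.finite_β
  finite_β := X.finite_α
  red₁_α := X.red₂_β
  red₁_β := X.red₂_α
  red₂_α := X.red₁_β
  red₂_β := X.red₁_α
  r := X.r
  placeRed := X.placeRed
  map_poles := X.map_poles
  poles P := (X.poles P).symm
  lift := X.lift
  norm_α h1 h2 := X.norm_β h2 h1
  norm_β h1 h2 := X.norm_α h2 h1

/-- places below along `α` / `β` -/
def pα (P : Place K F) : Place K G := P.restrictAlong X.α X.integral_α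
def pβ (P : Place K F) : Place K G := P.restrictAlong X.β X.integral_β

/-- the set of places of `F` reducing to `s` along `α` -/
def Ann (s : Place k Gb) : Set (Place K F) := {P | X.r (X.pα P) = s}

theorem mem_Ann {s : Place k Gb} {P : Place K F} : P ∈ X.Ann s ↔ X.r (X.pα P) = s := Iff.rfl

theorem swap_pα (P : Place K F) : X.swap.pα P = X.pβ P := rfl

theorem mem_swap_Ann {s : Place k Gb} {P : Place K F} :
    P ∈ X.swap.Ann s ↔ X.r (X.pβ P) = s := Iff.rfl

theorem mem_pα {P : Place K F} {f : G} :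
    f ∈ (X.pα P).toValuationSubring ↔ X.α f ∈ P.toValuationSubring := Iff.rfl

theorem mem_pβ {P : Place K F} {f : G} :
    f ∈ (X.pβ P).toValuationSubring ↔ X.β f ∈ P.toValuationSubring := Iff.rfl

theorem val_lt_one_iff_inv {K F : Type*} [Field K] [Field F] [Algebra K F] {P : Place K F}
    {w : F} : P.adicValuation w < 1 ↔ w = 0 ∨ w⁻¹ ∉ P.toValuationSubring := by
  rcases eq_or_ne w 0 with rfl | hw
  · simp
  · rw [or_iff_right hw, Fermat.FF.mem_iff_val_le_one, map_inv₀, not_le,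
      one_lt_inv₀ (zero_lt_iff.mpr ((Valuation.ne_zero_iff _).mpr hw))]

theorem val_α {P : Place K F} {f : G} {c : K} (h : Val (X.pα P) f c) : Val P (X.α f) c := by
  unfold Val at *
  rw [val_lt_one_iff_inv] at *
  rw [← AlgHom.commutes X.α, ← map_sub, map_eq_zero, ← map_inv₀]
  exact h

theorem val_β {P : Place K F} {f : G} {c : K} (h : Val (X.pβ P) f c) : Val P (X.β f) c :=
  X.swap.val_α h

theorem q_ne_zero : X.q ≠ 0 := by have := X.two_le; omega

theorem xb_ne_zero : X.xb ≠ 0 := fun h => X.transcendental (h ▸ isAlgebraic_zero)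

theorem φ_inv_xb : X.φ⁻¹ • X.xb = X.xb := by rw [inv_smul_eq_iff, X.φ_xb]

theorem ord_xb_smul (g : SemilinearAut k Gb) (hg : g • X.xb = X.xb) (s : Place k Gb) :
    (g • s).ord X.xb = s.ord X.xb := by
  have h := SemilinearAut.ord_smul g s X.xb
  rwa [hg] at h

theorem xb_mem_iff {s : Place k Gb} : X.xb ∈ s.toValuationSubring ↔ 0 ≤ s.ord X.xb :=
  Fermat.FF.mem_iff_ord s X.xb_ne_zero

theorem xb_mem_smul {s : Place k Gb} (hs : X.xb ∈ s.toValuationSubring) :
    X.xb ∈ (X.φ • s).toValuationSubring := by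
  rw [X.xb_mem_iff] at *
  rwa [X.ord_xb_smul X.φ X.φ_xb]

theorem xb_mem_inv_smul {s : Place k Gb} (hs : X.xb ∈ s.toValuationSubring) :
    X.xb ∈ (X.φ⁻¹ • s).toValuationSubring := by
  rw [X.xb_mem_iff] at *
  rwa [X.ord_xb_smul X.φ⁻¹ X.φ_inv_xb]

/-- `x` is regular on the discs where `xb` is. -/
theorem x_mem {Q : Place K G} (h : X.xb ∈ (X.r Q).toValuationSubring) :
    X.x ∈ Q.toValuationSubring := by
  have h1 : polesOf (K := K) X.x Q ≤ Finsupp.mapDomain X.r (polesOf (K := K) X.x) (X.r Q) :=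
    le_mapDomain (fun P _ => polesOf_nonneg (K := K) X.x P) rfl
  rw [X.map_poles, polesOf_apply, polesOf_apply] at h1
  have h2 := X.xb_mem_iff.mp h
  rcases eq_or_ne X.x 0 with h0 | h0
  · rw [h0]; exact zero_mem _
  rw [Fermat.FF.mem_iff_ord _ h0]
  rw [max_eq_right (show -(X.r Q).ord X.xb ≤ 0 by omega)] at h1
  have h3 := le_max_left (-Q.ord X.x) 0
  omega

/-- `x` has no zeros on the discs of the poles of `xb`. -/
theorem x_inv_mem {Q : Place K G} (h : X.xb ∉ (X.r Q).toValuationSubring) :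
    X.x⁻¹ ∈ Q.toValuationSubring := by
  have hx0 : X.x ≠ 0 := RedDatum.ne_zero_of_red X.red_x X.xb_ne_zero
  set D : Divisor K G := divOf (K := K) X.x + polesOf (K := K) X.x with hD
  have hDP : ∀ P, D P = max (P.ord X.x) 0 := by
    intro P
    rw [hD, Finsupp.add_apply, divOf_apply, polesOf_apply]
    rcases le_total (P.ord X.x) 0 with h | h
    · rw [max_eq_left (by omega), max_eq_right h]; ring
    · rw [max_eq_right (by omega), max_eq_left h]; ring
  have h1 : D Q ≤ Finsupp.mapDomain X.r D (X.r Q) :=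
    le_mapDomain (fun P _ => by rw [hDP]; exact le_max_right _ _) rfl
  have h2 : Finsupp.mapDomain X.r D (X.r Q) = 0 := by
    have h3 := X.placeRed X.x X.xb X.red_x X.xb_ne_zero (divOf X.x)
      (fun P => divOf_apply X.x P) (X.r Q)
    rw [hD, Finsupp.mapDomain_add, Finsupp.add_apply, h3, X.map_poles, polesOf_apply]
    rw [X.xb_mem_iff] at h
    rw [max_eq_left (by omega)]
    ring
  rw [h2, hDP] at h1
  have h3 := le_max_left (Q.ord X.x) 0
  rw [Fermat.FF.mem_iff_ord _ (inv_ne_zero hx0), Q.ord_inv]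
  omega

/-- functions in `regAlg K x` are regular on the discs where `xb` is. -/
theorem regOn {z : G} (hz : z ∈ regAlg K X.x) {s : Place k Gb}
    (hs : X.xb ∈ s.toValuationSubring) : RegOn X.r s z := by
  intro P hP
  exact mem_regAlg.mp hz P (X.x_mem (by rw [hP]; exact hs))

theorem αx_mem {s : Place k Gb} (hs : X.xb ∈ s.toValuationSubring) {P : Place K F}
    (hP : P ∈ X.Ann s) : X.α X.x ∈ P.toValuationSubring :=
  X.mem_pα.mp (X.x_mem (by rw [X.mem_Ann.mp hP]; exact hs))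

theorem x_mem_pβ {s : Place k Gb} (hs : X.xb ∈ s.toValuationSubring) {P : Place K F}
    (hP : P ∈ X.Ann s) : X.x ∈ (X.pβ P).toValuationSubring :=
  X.mem_pβ.mpr ((X.poles P).mp (X.αx_mem hs hP))

theorem pf_β {s : Place k Gb} (hs : X.xb ∈ s.toValuationSubring) {z : G}
    (hz : z ∈ regAlg K X.x) : PF (X.Ann s) (X.β z) :=
  fun P hP => X.mem_pβ.mp (mem_regAlg.mp hz _ (X.x_mem_pβ hs hP))

theorem pf_α {s : Place k Gb} {z : G} (hz : RegOn X.r s z) : PF (X.Ann s) (X.α z) :=
  fun P hP => X.mem_pα.mp (hz _ hP)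

/-- value of `Φ u` -/
theorem val_Φ {s : Place k Gb} {u : Gb} {c : k} (h : Val (X.φ • s) u c) : Val s (X.Φ u) c := by
  have h1 := (h.smul (g := X.φ⁻¹)).pow X.q
  rw [inv_smul_smul, ← X.Φ_φ, smul_inv_smul, ← X.base_φ] at h1
  have h2 : SemilinearAut.baseAut X.φ (SemilinearAut.baseAut X.φ⁻¹ c) = c := by
    rw [SemilinearAut.baseAut_inv]
    exact (SemilinearAut.baseAut X.φ).apply_symm_apply c
  rwa [h2] at h1

end Basic

section Pair

variable [IsAlgClosed K] [CharZero K] [FunctionField K F] [FunctionField K G]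
  [IsAlgClosed k] [FunctionField k Gb] (X : MonoPair K F G k Gb π)

/-- the place pair of a place of `Gb` -/
def pair (s : Place k Gb) : PlacePair X.R₁ X.R₂ where
  s₁ := s
  s₂ := X.φ⁻¹ • s
  Ann := X.Ann s
  norm f hf := by
    have hFF := Descent.isFF1_of_functionField (K := K) (F := G)
    obtain ⟨c₁, hc₁, u₁, hu₁, h₁⟩ := X.R₁.normalize f hf
    obtain ⟨c₂, hc₂, u₂, hu₂, h₂⟩ := X.R₂.normalize f hf
    obtain ⟨c, hc⟩ := X.norm_α h₁ h₂
    have hφu : X.φ • u₂ ≠ 0 := by
      intro h0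
      apply hu₂
      have : X.φ⁻¹ • (X.φ • u₂) = 0 := by rw [h0, smul_zero]
      rwa [inv_smul_smul] at this
    have hne : u₁ * X.φ • u₂ ≠ 0 := mul_ne_zero hu₁ hφu
    have hw := RedDatum.ne_zero_of_red hc hne
    have hc0 : algebraMap K G c ≠ 0 := left_ne_zero_of_mul hw
    have hN0 : normAlong X.α f ≠ 0 := right_ne_zero_of_mul hw
    have hD : ∀ P, (divOf (K := K) f) P = P.ord f := fun P => divOf_apply f P
    rw [show X.Ann s = {P | (X.r ∘ X.pα) P = s} from rfl,
      annSum_eq_mapDomain (X.r ∘ X.pα) s hD, Finsupp.mapDomain_comp]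
    rw [X.placeRed _ _ hc hne (Finsupp.mapDomain X.pα (divOf (K := K) f)) (fun Q => by
      rw [show X.pα = fun P : Place K F => P.restrictAlong X.α X.integral_α from rfl,
        mapDomain_restrictAlong X.α X.integral_α X.finite_α hf hD,
        Q.ord_mul hc0 hN0, Fermat.FF.ord_algebraMap, zero_add]) s]
    have h3 := SemilinearAut.ord_smul X.φ (X.φ⁻¹ • s) u₂
    rw [smul_inv_smul] at h3
    rw [s.ord_mul hu₁ hφu, o_eq s X.surj h₁ hu₁, o_eq (X.φ⁻¹ • s) X.surj h₂ hu₂, h3]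

@[simp] theorem pair_s₁ (s : Place k Gb) : (X.pair s).s₁ = s := rfl
@[simp] theorem pair_s₂ (s : Place k Gb) : (X.pair s).s₂ = X.φ⁻¹ • s := rfl
@[simp] theorem pair_Ann (s : Place k Gb) : (X.pair s).Ann = X.Ann s := rfl

/-- `s` not a pole of `xb` ⇒ the places of `Ann s` do not reduce to poles of `xb` along `β`. -/
theorem xb_mem_β {s : Place k Gb} (hs : X.xb ∈ s.toValuationSubring) {P : Place K F}
    (hP : P ∈ X.Ann s) : X.xb ∈ (X.r (X.pβ P)).toValuationSubring := by
  by_contra hcon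
  have hFF := Descent.isFF1_of_functionField (K := K) (F := G)
  set Q := X.pβ P with hQ
  have hxQ : X.x ∈ Q.toValuationSubring := X.x_mem_pβ hs hP
  have hx0 : X.x ≠ 0 := RedDatum.ne_zero_of_red X.red_x X.xb_ne_zero
  have hord : Q.ord X.x = 0 := by
    have h1 := (Fermat.FF.mem_iff_ord _ hx0).mp hxQ
    have h2 := (Fermat.FF.mem_iff_ord _ (inv_ne_zero hx0)).mp (X.x_inv_mem hcon)
    rw [Q.ord_inv] at h2
    omega
  obtain ⟨c, hc0, hc⟩ := exists_val_ne_zero hx0 hord
  -- `c⁻¹` is in the maximal ideal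
  have hreg : RegOn X.r (X.r Q) X.x⁻¹ := fun P' hP' => X.x_inv_mem (by rw [hP']; exact hcon)
  obtain ⟨hcA, hcv⟩ := value_mem X.surj X.placeRed (RedDatum.inv X.surj X.red_x X.xb_ne_zero) hreg
    (hc.inv hc0)
  have hzero : Val (X.r Q) X.xb⁻¹ 0 := by
    rw [val_zero_iff]
    right
    rw [Place.ord_inv]
    rw [X.xb_mem_iff] at hcon
    omega
  have hπc : π ⟨c⁻¹, hcA⟩ = 0 := Val.unique hcv hzero
  -- the function `c⁻¹ β x - 1`
  set w : F := algebraMap K F c⁻¹ * X.β X.x - 1 with hw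
  have hr1 : X.R₁.Red w (-1) := by
    have h := RedDatum.sub (red_zero_of_mem hcA hπc (X.red₁_β X.red_x)) X.R₁.one
    rwa [zero_sub] at h
  have hr2 : X.R₂.Red w (-1) := by
    have h := RedDatum.sub (red_zero_of_mem hcA hπc (X.red₂_β X.red_x)) X.R₂.one
    rwa [zero_sub] at h
  have hw0 : w ≠ 0 := RedDatum.ne_zero_of_red hr1 (by simp)
  have hpf : PF (X.Ann s) w := ((PF.const _).mul (X.pf_β hs (fun _ h => h))).sub PF.one
  have hsum := (X.pair s).norm w hw0
  rw [o_eq' _ X.surj hr1 (by simp), o_eq' _ X.surj hr2 (by simp), Fermat.FF.ord_neg,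
    Fermat.FF.ord_neg, Place.ord_one, Place.ord_one, add_zero] at hsum
  have hinv := inv_of_annSum_eq_zero hw0 hpf hsum
  have h0 := hinv.2 P hP
  have hv : Val P w 0 := by
    have h1 := (val_const (s := P) (c⁻¹ : K)).mul (X.val_β (hQ ▸ hc))
    have h2 := h1.sub (val_const (s := P) (1 : K))
    rw [inv_mul_cancel₀ hc0, sub_self, map_one] at h2
    exact h2
  rcases val_zero_iff.mp hv with h | h
  · exact hw0 h
  · omega

/-- Functions `u ∈ regAlg k xb` with prescribed values. -/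
theorem exists_regAlg_val (S : Finset (Place k Gb)) (hS : ∀ P ∈ S, X.xb ∈ P.toValuationSubring)
    (c : Place k Gb → k) : ∃ u ∈ regAlg k X.xb, ∀ P ∈ S, Val P u (c P) :=
  ModGal.exists_regAlg_val X.transcendental S (fun P hP => X.xb_mem_iff.mp (hS P hP)) c

/-- The places of `Ann s` reduce to `φ s` or `φ⁻¹ s` along `β`. -/
theorem restrict_β {s : Place k Gb} (hs : X.xb ∈ s.toValuationSubring) {P : Place K F}
    (hP : P ∈ X.Ann s) : X.r (X.pβ P) = X.φ • s ∨ X.r (X.pβ P) = X.φ⁻¹ • s := by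
  classical
  by_contra hcon
  push Not at hcon
  have hFF := Descent.isFF1_of_functionField (K := K) (F := G)
  set Q := X.pβ P with hQ
  have ht := X.xb_mem_β hs hP
  obtain ⟨u, hu, hval⟩ := X.exists_regAlg_val {X.r Q, X.φ • s, X.φ⁻¹ • s} (by
    intro P' hP'
    simp only [Finset.mem_insert, Finset.mem_singleton] at hP'
    rcases hP' with rfl | rfl | rfl
    · exact ht
    · exact X.xb_mem_smul hs
    · exact X.xb_mem_inv_smul hs) (fun P' => if P' = X.r Q then 0 else 1)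
  obtain ⟨z, hz, hzu⟩ := X.lift u hu
  have h1 : Val (X.r Q) u 0 := by
    have := hval (X.r Q) (by simp)
    rwa [if_pos rfl] at this
  have h2 : Val (X.φ • s) u 1 := by
    have := hval (X.φ • s) (by simp)
    rwa [if_neg (Ne.symm hcon.1)] at this
  have h3 : Val (X.φ⁻¹ • s) u 1 := by
    have := hval (X.φ⁻¹ • s) (by simp)
    rwa [if_neg (Ne.symm hcon.2)] at this
  have hzQ : z ∈ Q.toValuationSubring := mem_regAlg.mp hz _ (X.x_mem_pβ hs hP)
  obtain ⟨c, hc⟩ := exists_val hzQ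
  obtain ⟨hcA, hcv⟩ := value_mem X.surj X.placeRed hzu (X.regOn hz ht) hc
  have hπc : π ⟨c, hcA⟩ = 0 := Val.unique hcv h1
  set w : F := X.β z - algebraMap K F c with hw
  have hr1 : X.R₁.Red w (X.Φ u) := by
    have h := RedDatum.sub (X.red₁_β hzu) (X.R₁.const ⟨c, hcA⟩)
    rwa [hπc, map_zero, sub_zero] at h
  have hr2 : X.R₂.Red w u := by
    have h := RedDatum.sub (X.red₂_β hzu) (X.R₂.const ⟨c, hcA⟩)
    rwa [hπc, map_zero, sub_zero] at h
  have h4 : Val s (X.Φ u) 1 := X.val_Φ h2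
  have hu0 : u ≠ 0 := h3.ne_zero one_ne_zero
  have hΦu0 : X.Φ u ≠ 0 := h4.ne_zero one_ne_zero
  have hw0 : w ≠ 0 := RedDatum.ne_zero_of_red hr2 hu0
  have hpf : PF (X.Ann s) w := (X.pf_β hs hz).sub (PF.const _)
  have hsum := (X.pair s).norm w hw0
  rw [pair_s₁, pair_s₂, o_eq' _ X.surj hr1 hΦu0, o_eq' _ X.surj hr2 hu0,
    h4.ord_eq_zero one_ne_zero, h3.ord_eq_zero one_ne_zero, add_zero] at hsum
  have hinv := inv_of_annSum_eq_zero hw0 hpf hsum
  have h0 := hinv.2 P hP
  have hv : Val P w 0 := by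
    have h5 := (X.val_β (hQ ▸ hc)).sub (val_const (s := P) c)
    rwa [sub_self] at h5
  rcases val_zero_iff.mp hv with h | h
  · exact hw0 h
  · omega

/-- multiply away the poles of a function which is regular at `s`. -/
theorem exists_frac {s : Place k Gb} (hs : X.xb ∈ s.toValuationSubring) {v : Gb}
    (hv : v ∈ s.toValuationSubring) : ∃ b ∈ regAlg k X.xb, Val s b 1 ∧ b * v ∈ regAlg k X.xb := by
  classical
  rcases eq_or_ne v 0 with rfl | hv0
  · exact ⟨1, one_mem _, by simpa using val_const (s := s) (1 : k), by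
      rw [mul_zero]; exact zero_mem _⟩
  set D : Divisor k Gb := divOf (K := k) v with hD
  let S : Finset (Place k Gb) := D.support.filter fun P =>
    X.xb ∈ P.toValuationSubring ∧ P.ord v < 0
  have hsS : s ∉ S := by
    intro h
    have h1 := (Finset.mem_filter.mp h).2.2
    have h2 := Fermat.FF.ord_nonneg_of_mem s hv
    omega
  obtain ⟨b, hb, hval⟩ := X.exists_regAlg_val (insert s S) (by
    intro P hP
    rcases Finset.mem_insert.mp hP with rfl | hP
    · exact hs
    · exact (Finset.mem_filter.mp hP).2.1) (fun P => if P = s then 1 else 0)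
  have hbs : Val s b 1 := by
    have := hval s (Finset.mem_insert_self _ _)
    rwa [if_pos rfl] at this
  have hb0 : b ≠ 0 := hbs.ne_zero one_ne_zero
  let n : ℕ := ∑ P ∈ S, (P.ord v).natAbs
  refine ⟨b ^ n, pow_mem hb n, by simpa using hbs.pow n, ?_⟩
  rw [mem_regAlg]
  intro P hP
  have hbP : 0 ≤ P.ord b := Fermat.FF.ord_nonneg_of_mem P (mem_regAlg.mp hb P hP)
  rw [Fermat.FF.mem_iff_ord P (mul_ne_zero (pow_ne_zero _ hb0) hv0),
    P.ord_mul (pow_ne_zero _ hb0) hv0, Fermat.FF.ord_pow]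
  rcases le_or_gt 0 (P.ord v) with h | h
  · have : 0 ≤ (n : ℤ) * P.ord b := mul_nonneg (Int.natCast_nonneg n) hbP
    omega
  · have hPS : P ∈ S := by
      refine Finset.mem_filter.mpr ⟨?_, hP, h⟩
      rw [Finsupp.mem_support_iff, hD, divOf_apply]
      omega
    have hne : P ≠ s := fun h => hsS (h ▸ hPS)
    have h1 := hval P (Finset.mem_insert_of_mem hPS)
    rw [if_neg hne] at h1
    have h2 : 0 < P.ord b := (val_zero_iff.mp h1).resolve_left hb0
    have h3 : (P.ord v).natAbs ≤ n := Finset.single_le_sum (f := fun P => (P.ord v).natAbs)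
      (fun _ _ => Nat.zero_le _) hPS
    have h4 : (n : ℤ) * 1 ≤ n * P.ord b :=
      mul_le_mul_of_nonneg_left h2 (Int.natCast_nonneg n)
    omega

/-- `G₀` contains lifts of all functions in `regAlg k xb`. -/
def Lifts (G₀ : Subfield G) : Prop :=
  ∀ u ∈ regAlg k X.xb, ∃ f ∈ regAlg K X.x, f ∈ G₀ ∧ X.R.Red f u

theorem lifts_top : X.Lifts ⊤ := by
  intro u hu
  obtain ⟨f, hf, h⟩ := X.lift u hu
  exact ⟨f, hf, Subfield.mem_top f, h⟩

/-- Lifting a function regular at `s` to a function regular on the disc of `s`. -/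
theorem exists_disc_lift {G₀ : Subfield G} (hG : X.Lifts G₀) {s : Place k Gb}
    (hs : X.xb ∈ s.toValuationSubring) {v : Gb} (hv : v ∈ s.toValuationSubring) :
    ∃ z ∈ G₀, X.R.Red z v ∧ RegOn X.r s z := by
  have hFF := Descent.isFF1_of_functionField (K := K) (F := G)
  obtain ⟨b, hb, hbs, hbv⟩ := X.exists_frac hs hv
  have hb0 : b ≠ 0 := hbs.ne_zero one_ne_zero
  obtain ⟨B, hB, hBG, hBr⟩ := hG b hb
  obtain ⟨C, hC, hCG, hCr⟩ := hG _ hbv
  have hB0 : B ≠ 0 := RedDatum.ne_zero_of_red hBr hb0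
  refine ⟨C / B, div_mem hCG hBG, ?_, ?_⟩
  · have h := RedDatum.div X.surj hCr hBr hb0
    rwa [mul_div_cancel_left₀ _ hb0] at h
  · intro P hP
    have hBP : B ∈ P.toValuationSubring := X.regOn hB hs P hP
    obtain ⟨c, hc⟩ := exists_val hBP
    obtain ⟨hcA, hcv⟩ := value_mem X.surj X.placeRed hBr (by rw [hP]; exact X.regOn hB hs) hc
    have h1 : π ⟨c, hcA⟩ = 1 := by
      rw [hP] at hcv
      exact Val.unique hcv hbs
    have hc0 : c ≠ 0 := by
      rintro rfl
      have h2 : (⟨0, hcA⟩ : A) = 0 := rfl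
      rw [h2, map_zero] at h1
      exact zero_ne_one h1
    have h2 : P.ord B = 0 := hc.ord_eq_zero hc0
    rw [div_eq_mul_inv]
    refine mul_mem (X.regOn hC hs P hP) ?_
    rw [Fermat.FF.mem_iff_ord P (inv_ne_zero hB0), P.ord_inv, h2, neg_zero]

/-- The node attached to a function without zeros and poles on `Ann s`. -/
def node {s : Place k Gb} (hs : X.xb ∈ s.toValuationSubring) {g : F} {g₁ : Gb}
    (hg : Inv (X.Ann s) g) (hred : X.R₁.Red g g₁) (hg₁ : g₁ ≠ 0) (hord : 0 < s.ord g₁) :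
    Node X.R₁ X.R₂ X.q where
  toPlacePair := X.pair s
  g := g
  g₁ := g₁
  g_inv := hg
  red_g := hred
  g₁_ne := hg₁
  ord_g := hord
  frob u c hu := by
    have h1 : X.φ • u ∈ s.toValuationSubring := by
      have h := (hu.smul (g := X.φ)).mem
      rwa [pair_s₂, smul_inv_smul] at h
    obtain ⟨z, -, hz, hreg⟩ := X.exists_disc_lift X.lifts_top hs h1
    refine ⟨X.α z, X.pf_α hreg, ?_, X.φ • u, X.red₁_α hz, ?_⟩
    · rw [← X.Φ_φ]
      exact X.red₂_α hz
    · have h := hu.smul (g := X.φ)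
      rwa [pair_s₂, smul_inv_smul, X.base_φ] at h

@[simp] theorem node_pair {s : Place k Gb} (hs : X.xb ∈ s.toValuationSubring) {g : F} {g₁ : Gb}
    (hg : Inv (X.Ann s) g) (hred : X.R₁.Red g g₁) (hg₁ : g₁ ≠ 0) (hord : 0 < s.ord g₁) :
    (X.node hs hg hred hg₁ hord).toPlacePair = X.pair s := rfl

variable {s : Place k Gb} (hs : X.xb ∈ s.toValuationSubring) {g : F} {g₁ : Gb}
    (hg : Inv (X.Ann s) g) (hred : X.R₁.Red g g₁) (hg₁ : g₁ ≠ 0) (hord : 0 < s.ord g₁)
    (hA : Arch π) [Fact X.q.Prime] [CharP k X.q]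

include hs hg hred hg₁ hord hA in
/-- At a node `φ² s = s`. -/
theorem node_fixed : X.φ • s = X.φ⁻¹ • s := by
  have hFF := Descent.isFF1_of_functionField (K := k) (F := Gb)
  refine ModGal.place_eq_of_val X.transcendental (X.xb_mem_iff.mp (X.xb_mem_smul hs))
    (X.xb_mem_iff.mp (X.xb_mem_inv_smul hs)) ?_
  intro u hu c hc
  obtain ⟨z, hz, hzu⟩ := X.lift u hu
  obtain ⟨c', h1, h2⟩ := (X.node hs hg hred hg₁ hord).regs X.surj hA (X.red₁_β hzu)
    (X.red₂_β hzu) (X.pf_β hs hz)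
  have h3 : c = c' := (X.val_Φ hc).unique h1
  rw [h3]
  exact h2

include hs hg hred hg₁ hord hA in
theorem node_fixed' : X.φ • X.φ • s = s := by
  rw [X.node_fixed hs hg hred hg₁ hord hA, smul_inv_smul]

include hs hg hred hg₁ hord hA in
/-- the `β`-description of `Ann s` at a node. -/
theorem mem_Ann_iff {P : Place K F} : P ∈ X.Ann s ↔ X.r (X.pβ P) = X.φ • s := by
  have hfix := X.node_fixed hs hg hred hg₁ hord hA
  constructor
  · intro hP
    rcases X.restrict_β hs hP with h | h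
    · exact h
    · rw [h, hfix]
  · intro hP
    have h1 : P ∈ X.swap.Ann (X.φ • s) := hP
    rcases X.swap.restrict_β (X.xb_mem_smul hs) h1 with h | h
    · have h2 : X.r (X.pα P) = X.φ • X.φ • s := h
      rw [X.mem_Ann, h2, X.node_fixed' hs hg hred hg₁ hord hA]
    · have h2 : X.r (X.pα P) = X.φ⁻¹ • X.φ • s := h
      rw [X.mem_Ann, h2, inv_smul_smul]

/-- The full node data. -/
def nodeData {G₀ : Subfield G} {F₀ : Subfield F} (hG : X.Lifts G₀) (hα : ∀ z ∈ G₀, X.α z ∈ F₀)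
    (hβ : ∀ z ∈ G₀, X.β z ∈ F₀) {ϖ : K} {E : ℕ} (hgF : g ∈ F₀) {g₂ : Gb} (hg₂ : g₂ ≠ 0)
    (hred₂ : X.R₂.Red (algebraMap K F (ϖ ^ (E : ℤ))⁻¹ * g) g₂) :
    NodeData X.R₁ X.R₂ X.q F₀ ϖ E where
  toNode := X.node hs hg hred hg₁ hord
  g_mem := hgF
  g₂ := g₂
  g₂_ne := hg₂
  red_g₂ := hred₂
  start := by
    obtain ⟨u, hu⟩ := Fermat.FF.exists_ord_eq_one s
    have hu0 : u ≠ 0 := Fermat.FF.ne_zero_of_ord_ne_zero s (by rw [hu]; exact one_ne_zero)
    have hus : u ∈ s.toValuationSubring := by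
      rw [Fermat.FF.mem_iff_ord s hu0, hu]
      exact zero_le_one
    obtain ⟨z, hzG, hz, hreg⟩ := X.exists_disc_lift hG hs hus
    refine ⟨X.α z, hα z hzG, X.pf_α hreg, u, X.φ⁻¹ • u, X.red₁_α hz, hu, ?_⟩
    rw [← X.Φ_φ, smul_inv_smul]
    exact X.red₂_α hz
  lift₂ v hv := by
    have hfix := X.node_fixed hs hg hred hg₁ hord hA
    have hv' : v ∈ (X.φ • s).toValuationSubring := by rw [hfix]; exact hv
    obtain ⟨z, hzG, hz, hreg⟩ := X.exists_disc_lift hG (X.xb_mem_smul hs) hv'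
    refine ⟨X.β z, hβ z hzG, fun P hP => ?_, X.red₂_β hz, _, X.red₁_β hz⟩
    exact X.mem_pβ.mp (hreg _ ((X.mem_Ann_iff hs hg hred hg₁ hord hA).mp hP))

end Pair

end MonoPair

end Fermat.Agent.DR.Mono
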