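import Fermat.Agent.DR.Mono.SepF
import Fermat.Agent.DR.Mono.Inst
import Fermat.Agent.DR.S36.LUnram

/-!
# Separated points from a `MonoPair`

For a place `s` of `Gb` which is not a node the place pair `X.pair s` is separated, with separating
functions in `F₀`.
-/

set_option autoImplicit false
set_option linter.unusedSectionVars false

noncomputable section

open AlgebraicCurve Fermat.Agent.JRED Fermat.Agent.RR
open Fermat.Agent.DR.Nodes (regAlg mem_regAlg)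

namespace Fermat.Agent.DR.Mono

namespace MonoPair

variable {K F G k Gb : Type*} [Field K] [Field F] [Algebra K F] [Field G] [Algebra K G] [Field k]
  [Field Gb] [Algebra k Gb] {A : ValuationSubring K} {π : A →+* k}
  [IsAlgClosed K] [CharZero K] [FunctionField K F] [FunctionField K G]
  [IsAlgClosed k] [FunctionField k Gb] (X : MonoPair K F G k Gb π)

/-- `G₀` contains lifts of all functions in `regAlg k xb⁻¹`. -/
def LiftsInv (G₀ : Subfield G) : Prop :=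
  ∀ u ∈ regAlg k X.xb⁻¹, ∃ f ∈ regAlg K X.x⁻¹, f ∈ G₀ ∧ X.R.Red f u

theorem x_ne_zero : X.x ≠ 0 := RedDatum.ne_zero_of_red X.red_x X.xb_ne_zero

theorem αx_ne_zero : X.α X.x ≠ 0 := (map_ne_zero X.α).mpr X.x_ne_zero

theorem βx_ne_zero : X.β X.x ≠ 0 := (map_ne_zero X.β).mpr X.x_ne_zero

/-- **Separation at the finite places.** -/
theorem exists_sepF_fin {G₀ : Subfield G} {F₀ : Subfield F} (hG : X.Lifts G₀)
    (hα : ∀ z ∈ G₀, X.α z ∈ F₀) (hβ : ∀ z ∈ G₀, X.β z ∈ F₀) {s : Place k Gb}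
    (hs : X.xb ∈ s.toValuationSubring) {g g' : F} {g₁ g₂ : Gb}
    (hg : PF (X.Ann s) g) (hg' : PF (X.Ann s) g') (hgF : g ∈ F₀) (hgF' : g' ∈ F₀)
    (hred : X.R₁.Red g g₁) (hg₁ : g₁ ≠ 0) (ho : s.ord g₁ = 0) (hred0 : X.R₂.Red g 0)
    (hred' : X.R₂.Red g' g₂) (hg₂ : g₂ ≠ 0) (ho' : (X.φ⁻¹ • s).ord g₂ = 0)
    (hred0' : X.R₁.Red g' 0) :
    ∃ N : SepF X.R₁ X.R₂ F₀, N.toPlacePair = X.pair s := by
  have hs2 := X.xb_mem_inv_smul hs
  obtain ⟨v, hv, hov⟩ := S36.L.exists_unif_regAlg X.transcendental (X.xb_mem_iff.mp hs)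
  obtain ⟨v', hv', hov'⟩ := S36.L.exists_unif_regAlg X.transcendental (X.xb_mem_iff.mp hs2)
  obtain ⟨z, hz, hzG, hzr⟩ := hG v hv
  obtain ⟨z', hz', hzG', hzr'⟩ := hG v' hv'
  exact ⟨{
    toPlacePair := X.pair s
    e := g
    e₁ := g₁
    pf_e := hg
    red₁_e := hred
    e₁_ne := hg₁
    ord_e₁ := ho
    red₂_e := hred0
    e' := g'
    e₂ := g₂
    pf_e' := hg'
    red₂_e' := hred'
    e₂_ne := hg₂
    ord_e₂ := ho'
    red₁_e' := hred0'
    z := X.α z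
    z₁ := v
    z₂ := X.Φ v
    pf_z := X.pf_α (X.regOn hz hs)
    red₁_z := X.red₁_α hzr
    red₂_z := X.red₂_α hzr
    ord_z₁ := hov
    z' := X.β z'
    z₁' := X.Φ v'
    z₂' := v'
    pf_z' := X.pf_β hs hz'
    red₁_z' := X.red₁_β hzr'
    red₂_z' := X.red₂_β hzr'
    ord_z₂' := hov'
    e_mem := hgF
    e'_mem := hgF'
    z_mem := hα z hzG
    z'_mem := hβ z' hzG' }, rfl⟩

section Cusp

variable {s : Place k Gb} (hs : X.xb ∉ s.toValuationSubring)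

include hs in
theorem αx_inv_mem {P : Place K F} (hP : P ∈ X.Ann s) : X.x⁻¹ ∈ (X.pα P).toValuationSubring :=
  X.x_inv_mem (by rw [X.mem_Ann.mp hP]; exact hs)

include hs in
theorem βx_inv_mem {P : Place K F} (hP : P ∈ X.Ann s) : X.x⁻¹ ∈ (X.pβ P).toValuationSubring := by
  refine X.x_inv_mem fun h => hs ?_
  have h1 : P ∈ X.swap.Ann (X.r (X.pβ P)) := rfl
  have h2 := X.swap.xb_mem_β (s := X.r (X.pβ P)) h h1
  have h3 : X.xb ∈ (X.r (X.pα P)).toValuationSubring := h2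
  rwa [X.mem_Ann.mp hP] at h3

/-- a product estimate -/
theorem quot_mem {P : Place K F} {u v : F} {q : ℕ} (hq : q ≠ 0) (hu0 : u ≠ 0) (hv0 : v ≠ 0)
    (hu : u⁻¹ ∈ P.toValuationSubring) (hv : v⁻¹ ∈ P.toValuationSubring)
    (h1 : u ∈ P.toValuationSubring → v ∈ P.toValuationSubring)
    (h2 : u ∉ P.toValuationSubring → P.adicValuation v = P.adicValuation u ^ q ∨
      P.adicValuation u = P.adicValuation v ^ q) : v / u ^ q ∈ P.toValuationSubring := by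
  rw [Fermat.FF.mem_iff_val_le_one] at *
  have hu1 : P.adicValuation u ≠ 0 := (Valuation.ne_zero_iff _).mpr hu0
  have hv1 : P.adicValuation v ≠ 0 := (Valuation.ne_zero_iff _).mpr hv0
  rw [map_inv₀, inv_le_one₀ (zero_lt_iff.mpr hu1)] at hu
  rw [map_inv₀, inv_le_one₀ (zero_lt_iff.mpr hv1)] at hv
  rw [map_div₀, map_pow, div_le_one₀ (zero_lt_iff.mpr (pow_ne_zero _ hu1))]
  by_cases h : P.adicValuation u ≤ 1
  · have h5 := h1 h
    rw [Fermat.FF.mem_iff_val_le_one] at h5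
    exact h5.trans (one_le_pow₀ hu)
  · rcases h2 h with h3 | h3
    · exact h3.le
    · rw [h3, ← pow_mul]
      calc P.adicValuation v = P.adicValuation v ^ 1 := (pow_one _).symm
        _ ≤ P.adicValuation v ^ (q * q) := pow_le_pow_right₀ hv (by
          have := Nat.pos_of_ne_zero hq
          nlinarith)

theorem xb_pow_ne (n : ℕ) : X.xb ^ n ≠ 0 := pow_ne_zero _ X.xb_ne_zero

/-- the separating function at the cusps -/
theorem exists_sep_cusp {s : Place k Gb} (hs : X.xb ∉ s.toValuationSubring) :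
    (1 - ((X.xb ^ X.q)⁻¹) ^ (X.q * X.q - 1) : Gb) ≠ 0 ∧
      s.ord (1 - ((X.xb ^ X.q)⁻¹) ^ (X.q * X.q - 1)) = 0 := by
  have hq := X.two_le
  have h4 : 4 ≤ X.q * X.q := Nat.mul_le_mul hq hq
  have h1 : Val s X.xb⁻¹ 0 := by
    rw [val_zero_iff]
    right
    rw [s.ord_inv]
    rw [X.xb_mem_iff] at hs
    omega
  have h2 : Val s (1 - ((X.xb ^ X.q)⁻¹) ^ (X.q * X.q - 1)) 1 := by
    have h3 := (h1.pow X.q).pow (X.q * X.q - 1)
    rw [zero_pow (by omega), zero_pow (by omega), inv_pow] at h3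
    have h5 := (val_const (s := s) (1 : k)).sub h3
    rwa [map_one, sub_zero] at h5
  exact ⟨h2.ne_zero one_ne_zero, h2.ord_eq_zero one_ne_zero⟩

/-- **Separation at the cusps.** -/
theorem exists_sepF_cusp {G₀ : Subfield G} {F₀ : Subfield F} (hG : X.LiftsInv G₀)
    (hα : ∀ z ∈ G₀, X.α z ∈ F₀) (hβ : ∀ z ∈ G₀, X.β z ∈ F₀) (hx : X.x ∈ G₀)
    (hval : ∀ P : Place K F, X.α X.x ∉ P.toValuationSubring →
      P.adicValuation (X.β X.x) = P.adicValuation (X.α X.x) ^ X.q ∨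
      P.adicValuation (X.α X.x) = P.adicValuation (X.β X.x) ^ X.q)
    {s : Place k Gb} (hs : X.xb ∉ s.toValuationSubring) :
    ∃ N : SepF X.R₁ X.R₂ F₀, N.toPlacePair = X.pair s := by
  have hs2 : X.xb ∉ (X.φ⁻¹ • s).toValuationSubring := by
    rw [X.xb_mem_iff, X.ord_xb_smul _ X.φ_inv_xb, ← X.xb_mem_iff]
    exact hs
  have htr : Transcendental k X.xb⁻¹ := fun h => X.transcendental (by simpa using h.inv)
  have hos : 0 ≤ s.ord X.xb⁻¹ := by
    rw [s.ord_inv]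
    have := X.xb_mem_iff.not.mp hs
    omega
  have hos2 : 0 ≤ (X.φ⁻¹ • s).ord X.xb⁻¹ := by
    rw [(X.φ⁻¹ • s).ord_inv]
    have := X.xb_mem_iff.not.mp hs2
    omega
  obtain ⟨v, hv, hov⟩ := S36.L.exists_unif_regAlg htr hos
  obtain ⟨v', hv', hov'⟩ := S36.L.exists_unif_regAlg htr hos2
  obtain ⟨z, hz, hzG, hzr⟩ := hG v hv
  obtain ⟨z', hz', hzG', hzr'⟩ := hG v' hv'
  have hq := X.two_le
  have h4 : 4 ≤ X.q * X.q := Nat.mul_le_mul hq hq
  have ha0 := X.αx_ne_zero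
  have hb0 := X.βx_ne_zero
  have hx0 := X.xb_ne_zero
  -- reductions
  have r1a : X.R₁.Red (X.α X.x) X.xb := X.red₁_α X.red_x
  have r1b : X.R₁.Red (X.β X.x) (X.xb ^ X.q) := by
    have := X.red₁_β X.red_x
    rwa [X.Φ_xb] at this
  have r2a : X.R₂.Red (X.α X.x) (X.xb ^ X.q) := by
    have := X.red₂_α X.red_x
    rwa [X.Φ_xb] at this
  have r2b : X.R₂.Red (X.β X.x) X.xb := X.red₂_β X.red_x
  have hinvpow : ∀ {R : RedDatum K F k Gb A π} {y : F} {yb : Gb}, R.Red y yb → yb ≠ 0 →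
      R.Red ((y⁻¹) ^ (X.q * X.q - 1)) ((yb⁻¹) ^ (X.q * X.q - 1)) := fun h h0 =>
    RedDatum.pow (RedDatum.inv X.surj h h0) _
  -- membership
  have pa : ∀ P ∈ X.Ann s, (X.α X.x)⁻¹ ∈ P.toValuationSubring := fun P hP => by
    have h := X.mem_pα.mp (X.αx_inv_mem hs hP)
    rwa [map_inv₀] at h
  have pb : ∀ P ∈ X.Ann s, (X.β X.x)⁻¹ ∈ P.toValuationSubring := fun P hP => by
    have h := X.mem_pβ.mp (X.βx_inv_mem hs hP)
    rwa [map_inv₀] at h
  have key1 : X.xb / (X.xb ^ X.q) ^ X.q = (X.xb⁻¹) ^ (X.q * X.q - 1) := by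
    rw [← pow_mul, inv_pow, div_eq_iff (X.xb_pow_ne _), eq_comm, inv_mul_eq_iff_eq_mul₀
      (X.xb_pow_ne _), ← pow_succ]
    congr 1
    omega
  have key2 : X.xb ^ X.q / X.xb ^ X.q = 1 := div_self (X.xb_pow_ne _)
  have hFαx := hα _ hx
  have hFβx := hβ _ hx
  exact ⟨{
    toPlacePair := X.pair s
    e := X.β X.x / X.α X.x ^ X.q - ((X.β X.x)⁻¹) ^ (X.q * X.q - 1)
    e₁ := 1 - ((X.xb ^ X.q)⁻¹) ^ (X.q * X.q - 1)
    pf_e := fun P hP => sub_mem (quot_mem X.q_ne_zero ha0 hb0 (pa P hP) (pb P hP)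
      (X.poles P).mp (hval P)) (pow_mem (pb P hP) _)
    red₁_e := by
      have h := RedDatum.sub (RedDatum.div X.surj r1b (RedDatum.pow r1a X.q) (X.xb_pow_ne _))
        (hinvpow r1b (X.xb_pow_ne _))
      rwa [key2] at h
    e₁_ne := (X.exists_sep_cusp hs).1
    ord_e₁ := (X.exists_sep_cusp hs).2
    red₂_e := by
      have h := RedDatum.sub (RedDatum.div X.surj r2b (RedDatum.pow r2a X.q)
        (pow_ne_zero _ (X.xb_pow_ne _))) (hinvpow r2b hx0)
      rwa [key1, sub_self] at h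
    e' := X.α X.x / X.β X.x ^ X.q - ((X.α X.x)⁻¹) ^ (X.q * X.q - 1)
    e₂ := 1 - ((X.xb ^ X.q)⁻¹) ^ (X.q * X.q - 1)
    pf_e' := fun P hP => sub_mem (quot_mem X.q_ne_zero hb0 ha0 (pb P hP) (pa P hP)
      (X.poles P).mpr (fun h => (hval P (fun h' => h ((X.poles P).mp h'))).symm))
        (pow_mem (pa P hP) _)
    red₂_e' := by
      have h := RedDatum.sub (RedDatum.div X.surj r2a (RedDatum.pow r2b X.q) (X.xb_pow_ne _))
        (hinvpow r2a (X.xb_pow_ne _))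
      rwa [key2] at h
    e₂_ne := (X.exists_sep_cusp hs2).1
    ord_e₂ := (X.exists_sep_cusp hs2).2
    red₁_e' := by
      have h := RedDatum.sub (RedDatum.div X.surj r1a (RedDatum.pow r1b X.q)
        (pow_ne_zero _ (X.xb_pow_ne _))) (hinvpow r1a hx0)
      rwa [key1, sub_self] at h
    z := X.α z
    z₁ := v
    z₂ := X.Φ v
    pf_z := fun P hP => X.mem_pα.mp (mem_regAlg.mp hz _ (X.αx_inv_mem hs hP))
    red₁_z := X.red₁_α hzr
    red₂_z := X.red₂_α hzr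
    ord_z₁ := hov
    z' := X.β z'
    z₁' := X.Φ v'
    z₂' := v'
    pf_z' := fun P hP => X.mem_pβ.mp (mem_regAlg.mp hz' _ (X.βx_inv_mem hs hP))
    red₁_z' := X.red₁_β hzr'
    red₂_z' := X.red₂_β hzr'
    ord_z₂' := hov'
    e_mem := sub_mem (div_mem hFβx (pow_mem hFαx _)) (pow_mem (inv_mem hFβx) _)
    e'_mem := sub_mem (div_mem hFαx (pow_mem hFβx _)) (pow_mem (inv_mem hFαx) _)
    z_mem := hα z hzG
    z'_mem := hβ z' hzG' }, rfl⟩

end Cusp

end MonoPair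

end Fermat.Agent.DR.Mono
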