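import Mathlib

/-!
# DR / Mono: the Eisenstein step (pure algebra)

`Df` = divisor of the first reduction of a function `f` representing an inertia-invariant
`p`-torsion class, `Dg` = divisor of the first reduction of the modular unit, `T` a Hecke operator
on divisors of the special fibre, `C` = cusps, `SS` = supersingular points.
-/

set_option autoImplicit false

namespace Fermat.Agent.DR.Mono

variable {ι : Type*}

open Classical in
/-- A homomorphism preserving divisors supported on `C` preserves divisors which are divisible by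
`p` off `C`. -/
theorem dvd_of_dvd_off (C : Set ι) (T : (ι →₀ ℤ) →+ (ι →₀ ℤ))
    (hT : ∀ D : ι →₀ ℤ, (∀ s ∉ C, D s = 0) → ∀ s ∉ C, T D s = 0) {p : ℤ} {D : ι →₀ ℤ}
    (hD : ∀ s ∉ C, p ∣ D s) : ∀ s ∉ C, p ∣ T D s := by
  set D₁ : ι →₀ ℤ := D.filter (· ∈ C) with hD₁
  have hdvd : ∀ s, p ∣ (D - D₁) s := by
    intro s
    rw [Finsupp.sub_apply, hD₁, Finsupp.filter_apply]
    by_cases hs : s ∈ C
    · rw [if_pos hs, sub_self]; exact dvd_zero _
    · rw [if_neg hs, sub_zero]; exact hD s hs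
  set D₂ : ι →₀ ℤ := (D - D₁).mapRange (fun x => x / p) (Int.zero_ediv p) with hD₂
  have h2 : D - D₁ = p • D₂ := by
    ext s
    rw [Finsupp.smul_apply, hD₂, Finsupp.mapRange_apply, smul_eq_mul, Int.mul_ediv_cancel' (hdvd s)]
  have h1 : D = D₁ + p • D₂ := by rw [← h2]; abel
  intro s hs
  rw [h1, map_add, map_zsmul, Finsupp.add_apply, Finsupp.smul_apply, smul_eq_mul,
    hT D₁ (fun t ht => by rw [hD₁, Finsupp.filter_apply, if_neg ht]) s hs, zero_add]
  exact dvd_mul_right _ _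

/-- **The Eisenstein step.** -/
theorem eisenstein (C SS : Set ι) (hSS : ∀ s ∈ SS, s ∉ C) (T : (ι →₀ ℤ) →+ (ι →₀ ℤ))
    (hT : ∀ D : ι →₀ ℤ, (∀ s ∉ C, D s = 0) → ∀ s ∉ C, T D s = 0) {p : ℤ} (hp : Prime p)
    {E : ℤ} (w : ι → ℤ) {Df Dg : ι →₀ ℤ} {a b : ℤ}
    (h1 : ∀ s ∈ SS, Dg s * w s = E) (h2 : ∀ s, s ∉ SS → s ∉ C → Dg s = 0)
    (h3 : ∀ s, s ∉ SS → p ∣ Df s) (h4 : ∀ s ∈ SS, ∀ t ∈ SS, p ∣ w s * Df s - w t * Df t)
    (h5 : ∀ s, p ∣ T Df s - a * Df s) (h6 : T Dg = b • Dg) (hpE : ¬ p ∣ E)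
    (hab : ¬ p ∣ a - b) (s : ι) : p ∣ Df s := by
  by_cases hs : s ∈ SS
  swap
  · exact h3 s hs
  have hsC := hSS s hs
  set lam : ℤ := w s * Df s with hlam
  have key : ∀ t ∉ C, p ∣ (E • Df - lam • Dg) t := by
    intro t ht
    rw [Finsupp.sub_apply, Finsupp.smul_apply, Finsupp.smul_apply, smul_eq_mul, smul_eq_mul]
    by_cases hts : t ∈ SS
    · have e1 : E * Df t - lam * Dg t = Dg t * (w t * Df t - w s * Df s) := by
        rw [← h1 t hts, hlam]
        ring
      rw [e1]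
      exact dvd_mul_of_dvd_right (h4 t hts s hs) _
    · rw [h2 t hts ht, mul_zero, sub_zero]
      exact dvd_mul_of_dvd_right (h3 t hts) _
  have key2 := dvd_of_dvd_off C T hT key s hsC
  rw [map_sub, map_zsmul, map_zsmul, h6, Finsupp.sub_apply, Finsupp.smul_apply,
    Finsupp.smul_apply, Finsupp.smul_apply, smul_eq_mul, smul_eq_mul, smul_eq_mul] at key2
  have key3 := key s hsC
  rw [Finsupp.sub_apply, Finsupp.smul_apply, Finsupp.smul_apply, smul_eq_mul, smul_eq_mul] at key3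
  have e2 : E * ((a - b) * Df s) = (E * T Df s - lam * (b * Dg s)) - E * (T Df s - a * Df s) -
      b * (E * Df s - lam * Dg s) := by ring
  have h7 : p ∣ E * ((a - b) * Df s) := by
    rw [e2]
    exact dvd_sub (dvd_sub key2 (dvd_mul_of_dvd_right (h5 s) _)) (dvd_mul_of_dvd_right key3 _)
  exact ((hp.dvd_or_dvd h7).resolve_left hpE |> hp.dvd_or_dvd).resolve_left hab

end Fermat.Agent.DR.Mono
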