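import Fermat.Agent.DR.Mono.Ord
import Fermat.Agent.JRED.DescentApprox

/-!
# DR / Mono: regularity of reductions and the node theorem

`R₁ : F ⇝ F₁`, `R₂ : F ⇝ F₂` two reduction data above `A`.  A `PlacePair` is a pair of places
`s₁` of `F₁`, `s₂` of `F₂` and a set `Ann` of places of `F` (think: those reducing to the point of
the base curve below `s₁`, `s₂`) such that the number of zeros of `f` on `Ann` equals
`ord_{s₁} f̄₁ + ord_{s₂} f̄₂`.

* `PlacePair.reg₁`: functions without poles on `Ann` have reductions without pole at `s₁`.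
* `Node.regs`: at a node the two reductions have the same value.
-/

set_option autoImplicit false

noncomputable section

open AlgebraicCurve Fermat.Agent.JRED Fermat.Agent.RR

namespace Fermat.Agent.DR.Mono

section PF

variable {K F : Type*} [Field K] [Field F] [Algebra K F]

/-- no poles on `S` -/
def PF (S : Set (Place K F)) (f : F) : Prop := ∀ P ∈ S, f ∈ P.toValuationSubring

variable {S : Set (Place K F)}

theorem PF.add {f g : F} (hf : PF S f) (hg : PF S g) : PF S (f + g) :=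
  fun P hP => add_mem (hf P hP) (hg P hP)

theorem PF.sub {f g : F} (hf : PF S f) (hg : PF S g) : PF S (f - g) :=
  fun P hP => sub_mem (hf P hP) (hg P hP)

theorem PF.neg {f : F} (hf : PF S f) : PF S (-f) := fun P hP => neg_mem (hf P hP)

theorem PF.mul {f g : F} (hf : PF S f) (hg : PF S g) : PF S (f * g) :=
  fun P hP => mul_mem (hf P hP) (hg P hP)

theorem PF.pow {f : F} (hf : PF S f) (n : ℕ) : PF S (f ^ n) := fun P hP => pow_mem (hf P hP) n

theorem PF.const (c : K) : PF S (algebraMap K F c) := fun P _ => P.algebraMap_mem' c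

theorem PF.one : PF S (1 : F) := fun _ _ => one_mem _

theorem PF.ord_nonneg {f : F} (hf : PF S f) {P : Place K F} (hP : P ∈ S) : 0 ≤ P.ord f :=
  Fermat.FF.ord_nonneg_of_mem P (hf P hP)

/-- neither zeros nor poles on `S` -/
def Inv (S : Set (Place K F)) (f : F) : Prop := f ≠ 0 ∧ ∀ P ∈ S, P.ord f = 0

theorem Inv.ne_zero {f : F} (hf : Inv S f) : f ≠ 0 := hf.1

theorem Inv.pf {f : F} (hf : Inv S f) : PF S f :=
  fun P hP => (Fermat.FF.mem_iff_ord P hf.1).mpr (hf.2 P hP).ge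

theorem Inv.inv {f : F} (hf : Inv S f) : Inv S f⁻¹ :=
  ⟨inv_ne_zero hf.1, fun P hP => by rw [P.ord_inv, hf.2 P hP, neg_zero]⟩

theorem Inv.mul {f g : F} (hf : Inv S f) (hg : Inv S g) : Inv S (f * g) :=
  ⟨mul_ne_zero hf.1 hg.1, fun P hP => by
    rw [P.ord_mul hf.1 hg.1, hf.2 P hP, hg.2 P hP, add_zero]⟩

theorem Inv.div {f g : F} (hf : Inv S f) (hg : Inv S g) : Inv S (f / g) := by
  rw [div_eq_mul_inv]
  exact hf.mul hg.inv

theorem Inv.zpow {f : F} (hf : Inv S f) (n : ℤ) : Inv S (f ^ n) :=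
  ⟨zpow_ne_zero _ hf.1, fun P hP => by rw [P.ord_zpow, hf.2 P hP, mul_zero]⟩

theorem Inv.pow {f : F} (hf : Inv S f) (n : ℕ) : Inv S (f ^ n) := by
  rw [← zpow_natCast]
  exact hf.zpow n

theorem Inv.const {c : K} (hc : c ≠ 0) : Inv S (algebraMap K F c) :=
  ⟨by simpa using hc, fun P _ => Fermat.FF.ord_algebraMap P c⟩

theorem Inv.prod {ι : Type*} (t : Finset ι) (w : ι → F) (h : ∀ i ∈ t, Inv S (w i)) :
    Inv S (∏ i ∈ t, w i) := by
  classical
  induction t using Finset.induction_on with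
  | empty => simpa using Inv.const (S := S) (K := K) (F := F) one_ne_zero
  | insert a t ha ih =>
    rw [Finset.prod_insert ha]
    exact (h a (Finset.mem_insert_self a t)).mul (ih fun i hi => h i (Finset.mem_insert_of_mem hi))

open Classical in
/-- The sum of the orders of `f` over `S`. -/
def annSum [HasPrincipalDivisors K F] (S : Set (Place K F)) (f : F) : ℤ :=
  ∑ P ∈ (divOf (K := K) f).support with P ∈ S, P.ord f

variable [HasPrincipalDivisors K F]

theorem mem_supp_iff {f : F} {P : Place K F} : P ∈ (divOf (K := K) f).support ↔ P.ord f ≠ 0 := by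
  rw [Finsupp.mem_support_iff, divOf_apply]

theorem annSum_nonneg {f : F} (hf : PF S f) : 0 ≤ annSum S f := by
  classical
  exact Finset.sum_nonneg fun P hP => hf.ord_nonneg (Finset.mem_filter.mp hP).2

theorem annSum_eq_zero_of_inv {f : F} (hf : Inv S f) : annSum S f = 0 := by
  classical
  exact Finset.sum_eq_zero fun P hP => hf.2 P (Finset.mem_filter.mp hP).2

/-- No poles and `annSum = 0` means no zeros either. -/
theorem inv_of_annSum_eq_zero {f : F} (hf0 : f ≠ 0) (hf : PF S f) (h : annSum S f = 0) :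
    Inv S f := by
  classical
  refine ⟨hf0, fun P hP => ?_⟩
  by_contra hne
  have h1 := (Finset.sum_eq_zero_iff_of_nonneg (fun Q hQ =>
    hf.ord_nonneg (Finset.mem_filter.mp hQ).2)).mp h P
      (Finset.mem_filter.mpr ⟨mem_supp_iff.mpr hne, hP⟩)
  exact hne h1

/-- No poles and `annSum = 1`, `P` a zero: then `P` is a simple zero and the only one. -/
theorem ord_of_annSum_eq_one {f : F} (hf : PF S f) (h : annSum S f = 1) {P : Place K F}
    (hP : P ∈ S) (hPf : P.ord f ≠ 0) :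
    P.ord f = 1 ∧ ∀ Q ∈ S, Q ≠ P → Q.ord f = 0 := by
  classical
  have hmem : P ∈ (divOf (K := K) f).support.filter (· ∈ S) :=
    Finset.mem_filter.mpr ⟨mem_supp_iff.mpr hPf, hP⟩
  unfold annSum at h
  rw [← Finset.add_sum_erase _ _ hmem] at h
  have h0 : 0 ≤ ∑ Q ∈ ((divOf (K := K) f).support.filter (· ∈ S)).erase P, Q.ord f :=
    Finset.sum_nonneg fun Q hQ =>
      hf.ord_nonneg (Finset.mem_filter.mp (Finset.mem_of_mem_erase hQ)).2
  have h1 := hf.ord_nonneg hP
  have h2 : P.ord f = 1 := by omega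
  refine ⟨h2, fun Q hQ hQP => ?_⟩
  by_contra hne
  have h3 : ∑ Q ∈ ((divOf (K := K) f).support.filter (· ∈ S)).erase P, Q.ord f = 0 := by omega
  have h4 := (Finset.sum_eq_zero_iff_of_nonneg (fun Q hQ =>
    hf.ord_nonneg (Finset.mem_filter.mp (Finset.mem_of_mem_erase hQ)).2)).mp h3 Q
      (Finset.mem_erase.mpr ⟨hQP, Finset.mem_filter.mpr ⟨mem_supp_iff.mpr hne, hQ⟩⟩)
  exact hne h4

end PF

section Arch

variable {K F k Fk : Type*} [Field K] [Field F] [Algebra K F] [Field k] [Field Fk] [Algebra k Fk]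
variable {A : ValuationSubring K} {π : A →+* k}

/-- The valuation ring `A` has rank one. -/
def Arch (π : A →+* k) : Prop :=
  ∀ a : A, π a = 0 → ∀ y : K, ∃ m : ℕ, (a : K) ^ m * y ∈ A

/-- If `c` reduces to `0`, then `c ^ m * w` is integral for large `m`. -/
theorem exists_pow_red (hπ : Function.Surjective π) (hA : Arch π) (R : RedDatum K F k Fk A π)
    {c : F} (hc : R.Red c 0) (w : F) : ∃ m : ℕ, ∃ u, R.Red (c ^ m * w) u := by
  rcases eq_or_ne c 0 with rfl | hc0
  · exact ⟨1, 0, by simpa using R.zero⟩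
  rcases eq_or_ne w 0 with rfl | hw0
  · exact ⟨0, 0, by simpa using R.zero⟩
  obtain ⟨a, ha, u, hu, hau⟩ := R.normalize c hc0
  obtain ⟨b, hb, v, hv, hbv⟩ := R.normalize w hw0
  have haA : a ∉ A := by
    intro haA
    have h1 := RedDatum.smul_mem haA hc
    rw [mul_zero] at h1
    exact hu (R.unique hau h1)
  obtain ⟨hi, h0⟩ := res_inv_eq_zero hπ haA
  obtain ⟨m, hm⟩ := hA ⟨a⁻¹, hi⟩ h0 b⁻¹
  have h2 := RedDatum.smul_mem hm (R.mul (RedDatum.pow hau m) hbv)
  have h3 : algebraMap K F (a⁻¹ ^ m * b⁻¹) * ((algebraMap K F a * c) ^ m *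
      (algebraMap K F b * w)) = c ^ m * w := by
    have haF : algebraMap K F a ≠ 0 := by simpa using ha
    have hbF : algebraMap K F b ≠ 0 := by simpa using hb
    rw [map_mul, map_pow, map_inv₀, map_inv₀, mul_pow, inv_pow]
    field_simp
  rw [h3] at h2
  exact ⟨m, _, h2⟩

end Arch

variable {K F k F₁ F₂ : Type*} [Field K] [Field F] [Algebra K F] [Field k] [Field F₁] [Field F₂]
  [Algebra k F₁] [Algebra k F₂] [HasPrincipalDivisors K F] {A : ValuationSubring K} {π : A →+* k}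

/-- A pair of places of the two reductions and the set of places of `F` reducing to it. -/
structure PlacePair (R₁ : RedDatum K F k F₁ A π) (R₂ : RedDatum K F k F₂ A π) where
  s₁ : Place k F₁
  s₂ : Place k F₂
  Ann : Set (Place K F)
  norm : ∀ f : F, f ≠ 0 → annSum Ann f = o R₁ s₁ f + o R₂ s₂ f

variable {R₁ : RedDatum K F k F₁ A π} {R₂ : RedDatum K F k F₂ A π}

namespace PlacePair

/-- exchange the two components -/
def swap (N : PlacePair R₁ R₂) : PlacePair R₂ R₁ where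
  s₁ := N.s₂
  s₂ := N.s₁
  Ann := N.Ann
  norm f hf := by rw [N.norm f hf, add_comm]

variable (N : PlacePair R₁ R₂)

theorem o_add_nonneg {f : F} (hf0 : f ≠ 0) (hf : PF N.Ann f) :
    0 ≤ o R₁ N.s₁ f + o R₂ N.s₂ f := by
  rw [← N.norm f hf0]
  exact annSum_nonneg hf

theorem o_add_eq_zero {f : F} (hf : Inv N.Ann f) :
    o R₁ N.s₁ f + o R₂ N.s₂ f = 0 := by
  rw [← N.norm f hf.1]
  exact annSum_eq_zero_of_inv hf

/-- **Regularity** of the first reduction. -/
theorem reg₁ (hπ : Function.Surjective π) {f : F} {u₁ : F₁} {u₂ : F₂} (h1 : R₁.Red f u₁)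
    (h2 : R₂.Red f u₂) (hf : PF N.Ann f) : u₁ ∈ N.s₁.toValuationSubring := by
  by_contra hcon
  have hlt : N.s₁.ord u₁ < 0 := (Fermat.FF.not_mem_iff_ord _).mp hcon
  have hu1 : u₁ ≠ 0 := Fermat.FF.ne_zero_of_ord_ne_zero _ hlt.ne
  -- choose the constant
  obtain ⟨c, hc, hco⟩ : ∃ c : A, u₂ - algebraMap k F₂ (π c) ≠ 0 ∧
      N.s₂.ord (u₂ - algebraMap k F₂ (π c)) ≤ 0 := by
    rcases eq_or_ne u₂ 0 with rfl | hu2
    · refine ⟨1, by simp, ?_⟩
      rw [map_one, map_one, zero_sub, Fermat.FF.ord_neg, N.s₂.ord_one]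
    by_cases hle : N.s₂.ord u₂ ≤ 0
    · exact ⟨0, by simpa using hu2, by simpa using hle⟩
    · have hv : Val N.s₂ (u₂ - 1) (0 - 1) :=
        (val_zero_of_ord_pos (not_le.mp hle)).sub (by simpa using val_const (s := N.s₂) (1 : k))
      have hne : (0 : k) - 1 ≠ 0 := by simp
      refine ⟨1, ?_, ?_⟩
      · rw [map_one, map_one]; exact hv.ne_zero hne
      · rw [map_one, map_one, hv.ord_eq_zero hne]
  have h1' := RedDatum.sub h1 (R₁.const c)
  have h2' := RedDatum.sub h2 (R₂.const c)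
  have hf' : PF N.Ann (f - algebraMap K F (c : K)) := hf.sub (PF.const _)
  have hne2 : f - algebraMap K F (c : K) ≠ 0 := RedDatum.ne_zero_of_red h2' hc
  have hord : N.s₁.ord (u₁ - algebraMap k F₁ (π c)) = N.s₁.ord u₁ := by
    rcases eq_or_ne (π c) 0 with h0 | h0
    · rw [h0, map_zero, sub_zero]
    rw [sub_eq_add_neg]
    apply Fermat.FF.ord_add_of_lt _ hu1 (by simpa using h0)
    rw [Fermat.FF.ord_neg, Fermat.FF.ord_algebraMap]
    exact hlt
  have hne1 : u₁ - algebraMap k F₁ (π c) ≠ 0 :=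
    Fermat.FF.ne_zero_of_ord_ne_zero N.s₁ (by rw [hord]; exact hlt.ne)
  have hsum := N.o_add_nonneg hne2 hf'
  rw [o_eq' N.s₁ hπ h1' hne1, o_eq' N.s₂ hπ h2' hc, hord] at hsum
  omega

/-- **Regularity** of the second reduction. -/
theorem reg₂ (hπ : Function.Surjective π) {f : F} {u₁ : F₁} {u₂ : F₂} (h1 : R₁.Red f u₁)
    (h2 : R₂.Red f u₂) (hf : PF N.Ann f) : u₂ ∈ N.s₂.toValuationSubring :=
  N.swap.reg₁ hπ h2 h1 hf

end PlacePair

/-- A node: there is a function `g` invertible on `Ann`, with `g₁` vanishing at `s₁`, and enough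
functions whose second reduction is a `q`-th power. -/
structure Node (R₁ : RedDatum K F k F₁ A π) (R₂ : RedDatum K F k F₂ A π) (q : ℕ)
    extends PlacePair R₁ R₂ where
  g : F
  g₁ : F₁
  g_inv : Inv Ann g
  red_g : R₁.Red g g₁
  g₁_ne : g₁ ≠ 0
  ord_g : 0 < s₁.ord g₁
  frob : ∀ (u : F₂) (c : k), Val s₂ u c → ∃ e : F, PF Ann e ∧ R₂.Red e (u ^ q) ∧
    ∃ e₁ : F₁, R₁.Red e e₁ ∧ Val s₁ e₁ (c ^ q)

namespace Node

variable {q : ℕ} (N : Node R₁ R₂ q)

/-- **The node theorem**: at a node, the values of the two reductions of a function without poles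
on the annulus agree. -/
theorem regs [IsAlgClosed k] [Fact q.Prime] [CharP k q] [Fermat.FF.IsFF1 k F₁]
    [Fermat.FF.IsFF1 k F₂] (hπ : Function.Surjective π) (hA : Arch π)
    {f : F} {u₁ : F₁} {u₂ : F₂} (h1 : R₁.Red f u₁)
    (h2 : R₂.Red f u₂) (hf : PF N.Ann f) : ∃ c : k, Val N.s₁ u₁ c ∧ Val N.s₂ u₂ c := by
  obtain ⟨c₁, hc₁⟩ := exists_val (N.toPlacePair.reg₁ hπ h1 h2 hf)
  obtain ⟨c₂, hc₂⟩ := exists_val (N.toPlacePair.reg₂ hπ h1 h2 hf)
  suffices h : c₁ = c₂ by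
    subst h
    exact ⟨c₁, hc₁, hc₂⟩
  by_contra hne
  obtain ⟨e, he, he2, e₁, he1, hev⟩ := N.frob u₂ c₂ hc₂
  have hc2 : R₂.Red (f ^ q - e) 0 := by
    have := RedDatum.sub (RedDatum.pow h2 q) he2
    rwa [sub_self] at this
  have hc1 : R₁.Red (f ^ q - e) (u₁ ^ q - e₁) := RedDatum.sub (RedDatum.pow h1 q) he1
  have hcv : Val N.s₁ (u₁ ^ q - e₁) ((c₁ - c₂) ^ q) := by
    rw [sub_pow_char]
    exact (hc₁.pow q).sub hev
  have hcne : (c₁ - c₂) ^ q ≠ 0 := pow_ne_zero _ (sub_ne_zero.mpr hne)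
  obtain ⟨m, u, hu⟩ := exists_pow_red hπ hA R₂ hc2 N.g⁻¹
  have h3 : R₁.Red ((f ^ q - e) ^ m * N.g⁻¹) ((u₁ ^ q - e₁) ^ m * N.g₁⁻¹) :=
    R₁.mul (RedDatum.pow hc1 m) (RedDatum.inv hπ N.red_g N.g₁_ne)
  have h4 : PF N.Ann ((f ^ q - e) ^ m * N.g⁻¹) :=
    (((hf.pow q).sub he).pow m).mul N.g_inv.inv.pf
  have h5 := N.toPlacePair.reg₁ hπ h3 hu h4
  have h6 := Fermat.FF.ord_nonneg_of_mem _ h5
  have h7 : N.s₁.ord ((u₁ ^ q - e₁) ^ m) = 0 :=
    (hcv.pow m).ord_eq_zero (pow_ne_zero _ hcne)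
  have h8 : (u₁ ^ q - e₁) ^ m ≠ 0 := pow_ne_zero _ (hcv.ne_zero hcne)
  rw [N.s₁.ord_mul h8 (inv_ne_zero N.g₁_ne), h7, N.s₁.ord_inv] at h6
  have := N.ord_g
  omega

end Node

end Fermat.Agent.DR.Mono
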