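import Fermat.Agent.FF.Principal
import Fermat.Agent.JRED.RedDatum

/-!
# DR / Mono: orders of normalised reductions, values at places

For a reduction datum `R` of `F / K` to `Fk / k` and a place `s` of `Fk`, `R.o s w` is the order
at `s` of the reduction of a normalised multiple of `w`; it is a homomorphism `Fˣ → ℤ`.
`Val s u c` says that the function `u` takes the value `c` at `s`.
-/

set_option autoImplicit false

noncomputable section

open AlgebraicCurve Fermat.Agent.JRED

namespace Fermat.Agent.DR.Mono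

section Val

variable {k Fk : Type*} [Field k] [Field Fk] [Algebra k Fk]

/-- the function `u` takes the value `c` at `s` -/
def Val (s : Place k Fk) (u : Fk) (c : k) : Prop :=
  s.adicValuation (u - algebraMap k Fk c) < 1

variable {s : Place k Fk}

theorem val_iff {u : Fk} {c : k} : Val s u c ↔
    u = algebraMap k Fk c ∨ 0 < s.ord (u - algebraMap k Fk c) := by
  rw [Val, FF.val_lt_one_iff, sub_eq_zero]

theorem adicValuation_algebraMap_le (c : k) : s.adicValuation (algebraMap k Fk c) ≤ 1 :=
  (FF.mem_iff_val_le_one s _).mp (s.algebraMap_mem' c)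

theorem val_const (c : k) : Val s (algebraMap k Fk c) c := val_iff.mpr (Or.inl rfl)

theorem Val.le_one {u : Fk} {c : k} (h : Val s u c) : s.adicValuation u ≤ 1 := by
  have h1 : u = (u - algebraMap k Fk c) + algebraMap k Fk c := by ring
  rw [h1]
  exact (Valuation.map_add _ _ _).trans (max_le (le_of_lt h) (adicValuation_algebraMap_le c))

theorem Val.mem {u : Fk} {c : k} (h : Val s u c) : u ∈ s.toValuationSubring :=
  (FF.mem_iff_val_le_one s u).mpr h.le_one

theorem Val.add {u v : Fk} {c d : k} (h : Val s u c) (h' : Val s v d) : Val s (u + v) (c + d) := by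
  unfold Val at *
  have h1 : u + v - algebraMap k Fk (c + d) = (u - algebraMap k Fk c) + (v - algebraMap k Fk d) := by
    rw [map_add]; ring
  rw [h1]
  exact Valuation.map_add_lt _ h h'

theorem Val.neg {u : Fk} {c : k} (h : Val s u c) : Val s (-u) (-c) := by
  unfold Val at *
  have h1 : -u - algebraMap k Fk (-c) = -(u - algebraMap k Fk c) := by
    rw [map_neg]; ring
  rw [h1, Valuation.map_neg]
  exact h

theorem Val.sub {u v : Fk} {c d : k} (h : Val s u c) (h' : Val s v d) : Val s (u - v) (c - d) := by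
  rw [sub_eq_add_neg, sub_eq_add_neg]
  exact h.add h'.neg

theorem Val.mul {u v : Fk} {c d : k} (h : Val s u c) (h' : Val s v d) : Val s (u * v) (c * d) := by
  have hv := h'.le_one
  unfold Val at *
  have h1 : u * v - algebraMap k Fk (c * d) =
      (u - algebraMap k Fk c) * v + algebraMap k Fk c * (v - algebraMap k Fk d) := by
    rw [map_mul]; ring
  rw [h1]
  refine Valuation.map_add_lt _ ?_ ?_
  · rw [map_mul]
    exact mul_lt_one_of_lt_of_le h hv
  · rw [map_mul]
    exact mul_lt_one_of_nonneg_of_lt_one_right (adicValuation_algebraMap_le c) zero_le h'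

theorem Val.pow {u : Fk} {c : k} (h : Val s u c) (n : ℕ) : Val s (u ^ n) (c ^ n) := by
  induction n with
  | zero => simpa using val_const (s := s) (1 : k)
  | succ n ih => rw [pow_succ, pow_succ]; exact ih.mul h

theorem adicValuation_algebraMap_eq_one {c : k} (hc : c ≠ 0) :
    s.adicValuation (algebraMap k Fk c) = 1 := by
  rw [← FF.ord_eq_zero_iff_val s (by simpa using hc)]
  exact FF.ord_algebraMap s c

theorem Val.unique {u : Fk} {c d : k} (h : Val s u c) (h' : Val s u d) : c = d := by
  by_contra hne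
  have h1 := h'.sub h
  rw [sub_self] at h1
  unfold Val at h1
  rw [zero_sub, Valuation.map_neg,
    adicValuation_algebraMap_eq_one (sub_ne_zero.mpr (Ne.symm hne))] at h1
  exact lt_irrefl _ h1

theorem val_zero_iff {u : Fk} : Val s u 0 ↔ u = 0 ∨ 0 < s.ord u := by
  rw [val_iff, map_zero, sub_zero]

theorem val_zero_of_ord_pos {u : Fk} (h : 0 < s.ord u) : Val s u 0 := val_zero_iff.mpr (Or.inr h)

theorem Val.ord_eq_zero {u : Fk} {c : k} (h : Val s u c) (hc : c ≠ 0) : s.ord u = 0 := by
  have h1 : s.adicValuation u = 1 := by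
    have h2 : u = algebraMap k Fk c + (u - algebraMap k Fk c) := by ring
    rw [h2, Valuation.map_add_eq_of_lt_left]
    · exact adicValuation_algebraMap_eq_one hc
    · rw [adicValuation_algebraMap_eq_one hc]; exact h
  have hu : u ≠ 0 := by
    rintro rfl
    simp at h1
  exact (FF.ord_eq_zero_iff_val s hu).mpr h1

theorem Val.ord_nonneg {u : Fk} {c : k} (h : Val s u c) : 0 ≤ s.ord u :=
  FF.ord_nonneg_of_mem s h.mem

theorem Val.ne_zero {u : Fk} {c : k} (h : Val s u c) (hc : c ≠ 0) : u ≠ 0 := by
  rintro rfl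
  exact hc (h.unique (by simpa using val_const (s := s) (0 : k)))

theorem Val.inv {u : Fk} {c : k} (h : Val s u c) (hc : c ≠ 0) : Val s u⁻¹ c⁻¹ := by
  have hu := h.ne_zero hc
  have h0 := h.ord_eq_zero hc
  have hi : s.adicValuation u⁻¹ = 1 := by
    rw [map_inv₀, (FF.ord_eq_zero_iff_val s hu).mp h0, inv_one]
  unfold Val at *
  have hcF : algebraMap k Fk c ≠ 0 := by simpa using hc
  have h1 : u⁻¹ - algebraMap k Fk c⁻¹ = -((u - algebraMap k Fk c) * u⁻¹ * algebraMap k Fk c⁻¹) := by
    rw [map_inv₀]
    field_simp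
    ring
  rw [h1, Valuation.map_neg, map_mul, map_mul, hi, mul_one,
    adicValuation_algebraMap_eq_one (inv_ne_zero hc), mul_one]
  exact h

theorem Val.div {u v : Fk} {c d : k} (h : Val s u c) (h' : Val s v d) (hd : d ≠ 0) :
    Val s (u / v) (c / d) := by
  rw [div_eq_mul_inv, div_eq_mul_inv]
  exact h.mul (h'.inv hd)

theorem exists_val [IsAlgClosed k] [FF.IsFF1 k Fk] {u : Fk} (hu : u ∈ s.toValuationSubring) :
    ∃ c, Val s u c := by
  obtain ⟨c, hc⟩ := FF.exists_const_of_mem s hu
  exact ⟨c, hc⟩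

theorem exists_val_ne_zero [IsAlgClosed k] [FF.IsFF1 k Fk] {u : Fk} (hu0 : u ≠ 0)
    (hu : s.ord u = 0) : ∃ c, c ≠ 0 ∧ Val s u c := by
  obtain ⟨c, hc⟩ := exists_val (s := s) ((FF.mem_iff_ord s hu0).mpr hu.ge)
  refine ⟨c, ?_, hc⟩
  rintro rfl
  rcases val_zero_iff.mp hc with h | h
  · exact hu0 h
  · omega

end Val

section Ord

variable {K F k Fk : Type*} [Field K] [Field F] [Algebra K F] [Field k] [Field Fk] [Algebra k Fk]
variable {A : ValuationSubring K} {π : A →+* k}
variable (R : RedDatum K F k Fk A π) (s : Place k Fk)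

theorem ord_const_mul {c : k} (hc : c ≠ 0) (u : Fk) : s.ord (algebraMap k Fk c * u) = s.ord u := by
  rcases eq_or_ne u 0 with rfl | hu
  · simp
  rw [s.ord_mul (by simpa using hc) hu, FF.ord_algebraMap, zero_add]

open Classical in
/-- order at `s` of the reduction of a normalised multiple of `w` -/
def o (w : F) : ℤ :=
  if h : w = 0 then 0 else s.ord (R.normalize w h).choose_spec.2.choose

variable {R}

theorem exists_unit_of_red (hπ : Function.Surjective π) {c : K} {w : F} {u u' : Fk}
    (h : R.Red w u) (hu : u ≠ 0) (h' : R.Red (algebraMap K F c * w) u') (hu' : u' ≠ 0) :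
    ∃ hc : c ∈ A, π ⟨c, hc⟩ ≠ 0 ∧ u' = algebraMap k Fk (π ⟨c, hc⟩) * u := by
  have hw := RedDatum.ne_zero_of_red h hu
  have h1 := RedDatum.div hπ h' h hu
  rw [mul_div_assoc, div_self hw, mul_one] at h1
  have hc := RedDatum.mem_of_red_const hπ h1
  have h2 := R.unique (R.const ⟨c, hc⟩) h1
  refine ⟨hc, ?_, ?_⟩
  · intro h0
    rw [h0, map_zero] at h2
    exact div_ne_zero hu' hu h2.symm
  · rw [h2, div_mul_cancel₀ _ hu]

theorem ord_eq_of_red (hπ : Function.Surjective π) {c c' : K} (hc : c ≠ 0) {w : F}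
    {u u' : Fk} (h : R.Red (algebraMap K F c * w) u) (hu : u ≠ 0)
    (h' : R.Red (algebraMap K F c' * w) u') (hu' : u' ≠ 0) : s.ord u' = s.ord u := by
  have h1 : R.Red (algebraMap K F (c' / c) * (algebraMap K F c * w)) u' := by
    rw [← mul_assoc, ← map_mul, div_mul_cancel₀ _ hc]
    exact h'
  obtain ⟨hm, h2, h3⟩ := exists_unit_of_red hπ h hu h1 hu'
  rw [h3, ord_const_mul s h2]

/-- the defining property of `o` -/
theorem o_eq (hπ : Function.Surjective π) {c : K} {w : F} {u : Fk}
    (h : R.Red (algebraMap K F c * w) u) (hu : u ≠ 0) : o R s w = s.ord u := by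
  have h0 := RedDatum.ne_zero_of_red h hu
  have hw : w ≠ 0 := right_ne_zero_of_mul h0
  have hc : c ≠ 0 := by
    intro h1
    rw [h1, map_zero, zero_mul] at h0
    exact h0 rfl
  rw [o, dif_neg hw]
  have hsp := (R.normalize w hw).choose_spec.2.choose_spec
  exact ord_eq_of_red s hπ hc h hu hsp.2 hsp.1

theorem o_eq' (hπ : Function.Surjective π) {w : F} {u : Fk}
    (h : R.Red w u) (hu : u ≠ 0) : o R s w = s.ord u := by
  have : R.Red (algebraMap K F 1 * w) u := by simpa using h
  exact o_eq s hπ this hu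

theorem o_mul (hπ : Function.Surjective π) {w w' : F} (hw : w ≠ 0) (hw' : w' ≠ 0) :
    o R s (w * w') = o R s w + o R s w' := by
  obtain ⟨c, hc, u, hu, h⟩ := R.normalize w hw
  obtain ⟨c', hc', u', hu', h'⟩ := R.normalize w' hw'
  have h1 : R.Red (algebraMap K F (c * c') * (w * w')) (u * u') := by
    have := R.mul h h'
    rwa [show algebraMap K F c * w * (algebraMap K F c' * w') =
      algebraMap K F (c * c') * (w * w') by rw [map_mul]; ring] at this
  rw [o_eq s hπ h1 (mul_ne_zero hu hu'), o_eq s hπ h hu, o_eq s hπ h' hu', s.ord_mul hu hu']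

theorem o_algebraMap (hπ : Function.Surjective π) {c : K} (hc : c ≠ 0) :
    o R s (algebraMap K F c) = 0 := by
  have h : R.Red (algebraMap K F c⁻¹ * algebraMap K F c) 1 := by
    rw [← map_mul, inv_mul_cancel₀ hc, map_one]
    exact R.one
  rw [o_eq s hπ h one_ne_zero, s.ord_one]

theorem o_one (hπ : Function.Surjective π) : o R s 1 = 0 := by
  simpa using o_algebraMap (R := R) s hπ (c := 1) one_ne_zero

theorem o_smul (hπ : Function.Surjective π) {c : K} (hc : c ≠ 0) (w : F) :
    o R s (algebraMap K F c * w) = o R s w := by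
  rcases eq_or_ne w 0 with rfl | hw
  · rw [mul_zero]
  rw [o_mul s hπ (by simpa using hc) hw, o_algebraMap s hπ hc, zero_add]

theorem o_inv (hπ : Function.Surjective π) {w : F} (hw : w ≠ 0) :
    o R s w⁻¹ = - o R s w := by
  have h := o_mul (R := R) s hπ hw (inv_ne_zero hw)
  rw [mul_inv_cancel₀ hw, o_one s hπ] at h
  omega

theorem o_div (hπ : Function.Surjective π) {w w' : F} (hw : w ≠ 0) (hw' : w' ≠ 0) :
    o R s (w / w') = o R s w - o R s w' := by
  rw [div_eq_mul_inv, o_mul s hπ hw (inv_ne_zero hw'), o_inv s hπ hw']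
  ring

theorem o_pow (hπ : Function.Surjective π) {w : F} (hw : w ≠ 0) (n : ℕ) :
    o R s (w ^ n) = n * o R s w := by
  induction n with
  | zero => simp [o_one s hπ]
  | succ n ih =>
    rw [pow_succ, o_mul s hπ (pow_ne_zero _ hw) hw, ih]
    push_cast
    ring

theorem o_zpow (hπ : Function.Surjective π) {w : F} (hw : w ≠ 0) (n : ℤ) :
    o R s (w ^ n) = n * o R s w := by
  cases n with
  | ofNat n => simpa using o_pow s hπ hw n
  | negSucc n =>
    rw [zpow_negSucc, o_inv s hπ (pow_ne_zero _ hw), o_pow s hπ hw, Int.negSucc_eq]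
    push_cast
    ring

theorem o_neg (hπ : Function.Surjective π) (w : F) : o R s (-w) = o R s w := by
  have h := o_smul (R := R) s hπ (c := -1) (by simp) w
  simpa using h

theorem o_prod (hπ : Function.Surjective π) {ι : Type*} (t : Finset ι) (w : ι → F)
    (hw : ∀ i ∈ t, w i ≠ 0) : o R s (∏ i ∈ t, w i) = ∑ i ∈ t, o R s (w i) := by
  classical
  induction t using Finset.induction_on with
  | empty => simp [o_one s hπ]
  | insert a t ha ih =>
    rw [Finset.prod_insert ha, Finset.sum_insert ha,
      o_mul s hπ (hw a (Finset.mem_insert_self a t))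
        (Finset.prod_ne_zero_iff.mpr fun i hi => hw i (Finset.mem_insert_of_mem hi)),
      ih fun i hi => hw i (Finset.mem_insert_of_mem hi)]

end Ord

end Fermat.Agent.DR.Mono
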