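import Fermat.Agent.DR.Mono.Slope

/-!
# DR / Mono: separated (non nodal) points

At a pair of places where the two components are separated by functions `e`, `e'`
(`e` is invertible at `s₁` and reduces to `0` on the second component, and symmetrically for `e'`),
a function all of whose orders on `Ann` are divisible by `n` has reductions with order
divisible by `n`.
-/

set_option autoImplicit false

noncomputable section

open AlgebraicCurve Fermat.Agent.JRED Fermat.Agent.RR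

namespace Fermat.Agent.DR.Mono

variable {K F k F₁ F₂ : Type*} [Field K] [Field F] [Algebra K F] [Field k] [Field F₁] [Field F₂]
  [Algebra k F₁] [Algebra k F₂] [HasPrincipalDivisors K F] {A : ValuationSubring K} {π : A →+* k}

/-- A separated pair of places. -/
structure Sep (R₁ : RedDatum K F k F₁ A π) (R₂ : RedDatum K F k F₂ A π)
    extends PlacePair R₁ R₂ where
  e : F
  e₁ : F₁
  pf_e : PF Ann e
  red₁_e : R₁.Red e e₁
  e₁_ne : e₁ ≠ 0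
  ord_e₁ : s₁.ord e₁ = 0
  red₂_e : R₂.Red e 0
  e' : F
  e₂ : F₂
  pf_e' : PF Ann e'
  red₂_e' : R₂.Red e' e₂
  e₂_ne : e₂ ≠ 0
  ord_e₂ : s₂.ord e₂ = 0
  red₁_e' : R₁.Red e' 0
  z : F
  z₁ : F₁
  z₂ : F₂
  pf_z : PF Ann z
  red₁_z : R₁.Red z z₁
  red₂_z : R₂.Red z z₂
  ord_z₁ : s₁.ord z₁ = 1
  z' : F
  z₁' : F₁
  z₂' : F₂
  pf_z' : PF Ann z'
  red₁_z' : R₁.Red z' z₁'
  red₂_z' : R₂.Red z' z₂'
  ord_z₂' : s₂.ord z₂' = 1

variable {R₁ : RedDatum K F k F₁ A π} {R₂ : RedDatum K F k F₂ A π}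

/-- On a `PlacePair`, a function `c` without poles on `Ann` with reductions `u₁` (a uniformiser at
`s₁`) and `u₂` (a unit at `s₂`): values of `c`. -/
theorem PlacePair.value_mem (hπ : Function.Surjective π) (N : PlacePair R₁ R₂) {c : F}
    {u₁ : F₁} {u₂ : F₂} (hc : PF N.Ann c) (h1 : R₁.Red c u₁) (h2 : R₂.Red c u₂)
    {P : Place K F} (hP : P ∈ N.Ann) {a : K} (ha : Val P c a) : a ∈ A := by
  by_contra haA
  have ha0 : a ≠ 0 := fun h => haA (h ▸ A.zero_mem)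
  obtain ⟨hi, hi0⟩ := res_inv_eq_zero hπ haA
  have e1 : algebraMap K F a⁻¹ * (c - algebraMap K F a) = algebraMap K F a⁻¹ * c - 1 := by
    rw [mul_sub, ← map_mul, inv_mul_cancel₀ ha0, map_one]
  have h1' : R₁.Red (algebraMap K F a⁻¹ * (c - algebraMap K F a)) (0 - 1) := by
    rw [e1]
    exact RedDatum.sub (red_zero_of_mem hi hi0 h1) R₁.one
  have h2' : R₂.Red (algebraMap K F a⁻¹ * (c - algebraMap K F a)) (0 - 1) := by
    rw [e1]
    exact RedDatum.sub (red_zero_of_mem hi hi0 h2) R₂.one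
  have hne : c - algebraMap K F a ≠ 0 :=
    right_ne_zero_of_mul (RedDatum.ne_zero_of_red h1' (by simp))
  have hPord : P.ord (c - algebraMap K F a) ≠ 0 :=
    ((val_iff.mp ha).resolve_left (fun h => hne (sub_eq_zero.mpr h))).ne'
  have hsum : annSum N.Ann (c - algebraMap K F a) = 0 := by
    rw [N.norm _ hne, o_eq N.s₁ hπ h1' (by simp), o_eq N.s₂ hπ h2' (by simp), zero_sub, zero_sub,
      Fermat.FF.ord_neg, Fermat.FF.ord_neg, N.s₁.ord_one, N.s₂.ord_one, add_zero]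
  exact hPord ((inv_of_annSum_eq_zero hne (hc.sub (PF.const a)) hsum).2 P hP)

/-- if both reductions of `c - a` are invertible then `a` is not a value of `c` on `Ann`. -/
theorem PlacePair.value_ne (hπ : Function.Surjective π) (N : PlacePair R₁ R₂) {c : F}
    {u₁ : F₁} {u₂ : F₂} (hc : PF N.Ann c) (h1 : R₁.Red c u₁) (h2 : R₂.Red c u₂)
    {b₁ b₂ : k} (hv1 : Val N.s₁ u₁ b₁) (hv2 : Val N.s₂ u₂ b₂)
    {P : Place K F} (hP : P ∈ N.Ann) {a : K} (ha : Val P c a) (haA : a ∈ A) :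
    π ⟨a, haA⟩ = b₁ ∨ π ⟨a, haA⟩ = b₂ := by
  by_contra hcon
  push Not at hcon
  have hne1 : b₁ - π ⟨a, haA⟩ ≠ 0 := sub_ne_zero.mpr (Ne.symm hcon.1)
  have hne2 : b₂ - π ⟨a, haA⟩ ≠ 0 := sub_ne_zero.mpr (Ne.symm hcon.2)
  have h1' := RedDatum.sub h1 (R₁.const ⟨a, haA⟩)
  have h2' := RedDatum.sub h2 (R₂.const ⟨a, haA⟩)
  have hw1 := hv1.sub (val_const (s := N.s₁) (π ⟨a, haA⟩))
  have hw2 := hv2.sub (val_const (s := N.s₂) (π ⟨a, haA⟩))
  have hne : c - algebraMap K F a ≠ 0 := RedDatum.ne_zero_of_red h1' (hw1.ne_zero hne1)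
  have hPord : P.ord (c - algebraMap K F a) ≠ 0 :=
    ((val_iff.mp ha).resolve_left (fun h => hne (sub_eq_zero.mpr h))).ne'
  have hsum : annSum N.Ann (c - algebraMap K F a) = 0 := by
    rw [N.norm _ hne, o_eq' N.s₁ hπ h1' (hw1.ne_zero hne1), o_eq' N.s₂ hπ h2' (hw2.ne_zero hne2),
      hw1.ord_eq_zero hne1, hw2.ord_eq_zero hne2, add_zero]
  exact hPord ((inv_of_annSum_eq_zero hne (hc.sub (PF.const a)) hsum).2 P hP)

/-- a function `c` with `u₁` a uniformiser at `s₁` and `u₂` a unit at `s₂`, at a point with value in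
the maximal ideal. -/
theorem PlacePair.sub_value (hπ : Function.Surjective π) (N : PlacePair R₁ R₂) {c : F}
    {u₁ : F₁} {u₂ : F₂} (hc : PF N.Ann c) (h1 : R₁.Red c u₁) (h2 : R₂.Red c u₂)
    (ho1 : N.s₁.ord u₁ = 1) (hu2 : u₂ ≠ 0) (ho2 : N.s₂.ord u₂ = 0)
    {P : Place K F} (hP : P ∈ N.Ann) {a : K} (ha : Val P c a) (haA : a ∈ A)
    (ha0 : π ⟨a, haA⟩ = 0) :
    c - algebraMap K F a ≠ 0 ∧ P.ord (c - algebraMap K F a) = 1 ∧
      (∀ Q ∈ N.Ann, Q ≠ P → Q.ord (c - algebraMap K F a) = 0) ∧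
      o R₁ N.s₁ (c - algebraMap K F a) = 1 ∧ o R₂ N.s₂ (c - algebraMap K F a) = 0 := by
  have hu1 : u₁ ≠ 0 := Fermat.FF.ne_zero_of_ord_ne_zero N.s₁ (by rw [ho1]; exact one_ne_zero)
  have h1' : R₁.Red (c - algebraMap K F a) u₁ := by
    have := RedDatum.sub h1 (R₁.const ⟨a, haA⟩)
    rwa [ha0, map_zero, sub_zero] at this
  have h2' : R₂.Red (c - algebraMap K F a) u₂ := by
    have := RedDatum.sub h2 (R₂.const ⟨a, haA⟩)
    rwa [ha0, map_zero, sub_zero] at this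
  have hne : c - algebraMap K F a ≠ 0 := RedDatum.ne_zero_of_red h1' hu1
  have hPord : P.ord (c - algebraMap K F a) ≠ 0 :=
    ((val_iff.mp ha).resolve_left (fun h => hne (sub_eq_zero.mpr h))).ne'
  have o1 : o R₁ N.s₁ (c - algebraMap K F a) = 1 := by rw [o_eq' N.s₁ hπ h1' hu1, ho1]
  have o2 : o R₂ N.s₂ (c - algebraMap K F a) = 0 := by rw [o_eq' N.s₂ hπ h2' hu2, ho2]
  obtain ⟨h3, h4⟩ := ord_of_annSum_eq_one (hc.sub (PF.const a))
    (by rw [N.norm _ hne, o1, o2, add_zero]) hP hPord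
  exact ⟨hne, h3, h4, o1, o2⟩

namespace Sep

/-- exchange the two components -/
def swap (N : Sep R₁ R₂) : Sep R₂ R₁ where
  toPlacePair := N.toPlacePair.swap
  e := N.e'
  e₁ := N.e₂
  pf_e := N.pf_e'
  red₁_e := N.red₂_e'
  e₁_ne := N.e₂_ne
  ord_e₁ := N.ord_e₂
  red₂_e := N.red₁_e'
  e' := N.e
  e₂ := N.e₁
  pf_e' := N.pf_e
  red₂_e' := N.red₁_e
  e₂_ne := N.e₁_ne
  ord_e₂ := N.ord_e₁
  red₁_e' := N.red₂_e
  z := N.z'
  z₁ := N.z₂'
  z₂ := N.z₁'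
  pf_z := N.pf_z'
  red₁_z := N.red₂_z'
  red₂_z := N.red₁_z'
  ord_z₁ := N.ord_z₂'
  z' := N.z
  z₁' := N.z₂
  z₂' := N.z₁
  pf_z' := N.pf_z
  red₁_z' := N.red₂_z
  red₂_z' := N.red₁_z
  ord_z₂' := N.ord_z₁

variable (N : Sep R₁ R₂) (hπ : Function.Surjective π) (hA : Arch π)

include hπ hA in
/-- regularity with no condition on the second component -/
theorem reg {f : F} {u : F₁} (h1 : R₁.Red f u) (hf : PF N.Ann f) :
    u ∈ N.s₁.toValuationSubring := by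
  obtain ⟨m, v, hv⟩ := exists_pow_red hπ hA R₂ N.red₂_e f
  have h2 := N.toPlacePair.reg₁ hπ (R₁.mul (RedDatum.pow N.red₁_e m) h1) hv
    ((N.pf_e.pow m).mul hf)
  rcases eq_or_ne u 0 with rfl | hu
  · exact zero_mem _
  rw [Fermat.FF.mem_iff_ord _ (mul_ne_zero (pow_ne_zero _ N.e₁_ne) hu),
    N.s₁.ord_mul (pow_ne_zero _ N.e₁_ne) hu, Fermat.FF.ord_pow, N.ord_e₁, mul_zero, zero_add] at h2
  exact (Fermat.FF.mem_iff_ord _ hu).mpr h2

include hπ hA in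
theorem o_eq_zero {G : F} (hG : Inv N.Ann G) : o R₁ N.s₁ G = 0 := by
  obtain ⟨c, hc, u, hu, h⟩ := R₁.normalize G hG.1
  have h1 : 0 ≤ N.s₁.ord u := Fermat.FF.ord_nonneg_of_mem _
    (N.reg hπ hA h ((Inv.const hc).mul hG).pf)
  have h2 : 0 ≤ N.s₁.ord u⁻¹ := Fermat.FF.ord_nonneg_of_mem _
    (N.reg hπ hA (RedDatum.inv hπ h hu) ((Inv.const hc).mul hG).inv.pf)
  rw [N.s₁.ord_inv] at h2
  rw [o_eq N.s₁ hπ h hu]
  omega

/-- coordinate on the first component -/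
def c₁ : F := N.z * N.e + N.e'

theorem pf_c₁ : PF N.Ann N.c₁ := (N.pf_z.mul N.pf_e).add N.pf_e'

theorem red₁_c₁ : R₁.Red N.c₁ (N.z₁ * N.e₁) := by
  have := R₁.add (R₁.mul N.red₁_z N.red₁_e) N.red₁_e'
  rwa [add_zero] at this

theorem red₂_c₁ : R₂.Red N.c₁ N.e₂ := by
  have := R₂.add (R₂.mul N.red₂_z N.red₂_e) N.red₂_e'
  rwa [mul_zero, zero_add] at this

theorem ord_c₁ : N.s₁.ord (N.z₁ * N.e₁) = 1 := by
  have hz : N.z₁ ≠ 0 :=
    Fermat.FF.ne_zero_of_ord_ne_zero N.s₁ (by rw [N.ord_z₁]; exact one_ne_zero)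
  rw [N.s₁.ord_mul hz N.e₁_ne, N.ord_z₁, N.ord_e₁, add_zero]

include hπ in
/-- every point of `Ann` is the simple and only zero on `Ann` of a function `w`. -/
theorem exists_local [IsAlgClosed K] [Fermat.FF.IsFF1 K F] [IsAlgClosed k] [Fermat.FF.IsFF1 k F₁]
    [Fermat.FF.IsFF1 k F₂] {P : Place K F} (hP : P ∈ N.Ann) :
    ∃ w : F, w ≠ 0 ∧ P.ord w = 1 ∧ ∀ Q ∈ N.Ann, Q ≠ P → Q.ord w = 0 := by
  obtain ⟨a₁, ha1⟩ := exists_val (N.pf_c₁ P hP)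
  obtain ⟨a₂, ha2⟩ := exists_val (N.swap.pf_c₁ P hP)
  have hA1 := N.toPlacePair.value_mem hπ N.pf_c₁ N.red₁_c₁ N.red₂_c₁ hP ha1
  have hA2 := N.toPlacePair.value_mem hπ N.swap.pf_c₁ N.swap.red₂_c₁ N.swap.red₁_c₁ hP ha2
  by_cases h1 : π ⟨a₁, hA1⟩ = 0
  · obtain ⟨h3, h4, h5, -, -⟩ := N.toPlacePair.sub_value hπ N.pf_c₁ N.red₁_c₁ N.red₂_c₁ N.ord_c₁
      N.e₂_ne N.ord_e₂ hP ha1 hA1 h1
    exact ⟨_, h3, h4, h5⟩
  by_cases h2 : π ⟨a₂, hA2⟩ = 0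
  · obtain ⟨h3, h4, h5, -, -⟩ := N.toPlacePair.swap.sub_value hπ N.swap.pf_c₁ N.swap.red₁_c₁
      N.swap.red₂_c₁ N.swap.ord_c₁ N.swap.e₂_ne N.swap.ord_e₂ hP ha2 hA2 h2
    exact ⟨_, h3, h4, h5⟩
  exfalso
  -- the product takes the value `a₁ a₂`, of nonzero residue
  have hv1 : Val N.s₁ (N.z₁ * N.e₁ * N.e₁) 0 := by
    obtain ⟨b, hb⟩ := exists_val (s := N.s₁) (u := N.e₁)
      ((Fermat.FF.mem_iff_ord _ N.e₁_ne).mpr N.ord_e₁.ge)
    have := (val_zero_of_ord_pos (s := N.s₁) (u := N.z₁ * N.e₁)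
      (by rw [N.ord_c₁]; exact one_pos)).mul hb
    rwa [zero_mul] at this
  have hv2 : Val N.s₂ (N.e₂ * (N.swap.z₁ * N.swap.e₁)) 0 := by
    obtain ⟨b, hb⟩ := exists_val (s := N.s₂) (u := N.e₂)
      ((Fermat.FF.mem_iff_ord _ N.e₂_ne).mpr N.ord_e₂.ge)
    have := hb.mul (val_zero_of_ord_pos (s := N.s₂) (u := N.swap.z₁ * N.swap.e₁)
      (by have := N.swap.ord_c₁; change N.s₂.ord _ = 1 at this; rw [this]; exact one_pos))
    rwa [mul_zero] at this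
  have hprodA : a₁ * a₂ ∈ A := mul_mem hA1 hA2
  have key := N.toPlacePair.value_ne hπ (N.pf_c₁.mul N.swap.pf_c₁)
    (R₁.mul N.red₁_c₁ N.swap.red₂_c₁) (R₂.mul N.red₂_c₁ N.swap.red₁_c₁) hv1 hv2 hP
    (ha1.mul ha2) hprodA
  have hne : π ⟨a₁ * a₂, hprodA⟩ ≠ 0 := by
    have : (⟨a₁ * a₂, hprodA⟩ : A) = ⟨a₁, hA1⟩ * ⟨a₂, hA2⟩ := rfl
    rw [this, map_mul]
    exact mul_ne_zero h1 h2
  rcases key with h | h <;> exact hne h

include hπ hA in
/-- **Divisibility at separated points.** -/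
theorem dvd_o [IsAlgClosed K] [Fermat.FF.IsFF1 K F] [IsAlgClosed k] [Fermat.FF.IsFF1 k F₁]
    [Fermat.FF.IsFF1 k F₂] {f : F} (hf : f ≠ 0) {n : ℤ} (hn : ∀ P ∈ N.Ann, n ∣ P.ord f) :
    n ∣ o R₁ N.s₁ f := by
  classical
  choose! w hw0 hw1 hw2 using fun (P : Place K F) (hP : P ∈ N.Ann) => N.exists_local hπ hP
  set T : Finset (Place K F) := (divOf (K := K) f).support.filter (· ∈ N.Ann) with hT
  have hT1 : ∀ P ∈ T, P ∈ N.Ann := fun P hP => (Finset.mem_filter.mp hP).2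
  have hT2 : ∀ P ∈ N.Ann, P ∉ T → P.ord f = 0 := by
    intro P hP hPT
    by_contra hne
    exact hPT (Finset.mem_filter.mpr ⟨mem_supp_iff.mpr hne, hP⟩)
  set H : F := ∏ P ∈ T, w P ^ P.ord f with hH
  have hwT : ∀ P ∈ T, w P ≠ 0 := fun P hP => hw0 P (hT1 P hP)
  have hH0 : H ≠ 0 := Finset.prod_ne_zero_iff.mpr fun P hP => zpow_ne_zero _ (hwT P hP)
  have hordH : ∀ Q ∈ N.Ann, Q.ord H = Q.ord f := by
    intro Q hQ
    rw [hH, ord_prod_zpow Q T _ hwT]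
    by_cases hQT : Q ∈ T
    · rw [Finset.sum_eq_single Q]
      · rw [hw1 Q hQ, mul_one]
      · intro P hP hPQ
        rw [hw2 P (hT1 P hP) Q hQ (Ne.symm hPQ), mul_zero]
      · exact fun h => absurd hQT h
    · rw [hT2 Q hQ hQT]
      apply Finset.sum_eq_zero
      intro P hP
      rw [hw2 P (hT1 P hP) Q hQ (fun h => hQT (h ▸ hP)), mul_zero]
  have hinv : Inv N.Ann (f * H⁻¹) := by
    refine ⟨mul_ne_zero hf (inv_ne_zero hH0), fun Q hQ => ?_⟩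
    rw [Q.ord_mul hf (inv_ne_zero hH0), Q.ord_inv, hordH Q hQ, add_neg_cancel]
  have h1 := N.o_eq_zero hπ hA hinv
  rw [o_mul N.s₁ hπ hf (inv_ne_zero hH0), o_inv N.s₁ hπ hH0] at h1
  have h2 : o R₁ N.s₁ f = o R₁ N.s₁ H := by omega
  rw [h2, hH, o_prod N.s₁ hπ T _ fun P hP => zpow_ne_zero _ (hwT P hP)]
  apply Finset.dvd_sum
  intro P hP
  rw [o_zpow N.s₁ hπ (hwT P hP)]
  exact dvd_mul_of_dvd_left (hn P (hT1 P hP)) _

end Sep

end Fermat.Agent.DR.Mono
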