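import Fermat.Agent.DR.Mono.Sep

/-!
# Separated points with rational separating functions
-/

set_option autoImplicit false

noncomputable section

open AlgebraicCurve Fermat.Agent.JRED Fermat.Agent.RR

namespace Fermat.Agent.DR.Mono

variable {K F k F₁ F₂ : Type*} [Field K] [Field F] [Algebra K F] [Field k] [Field F₁] [Field F₂]
  [Algebra k F₁] [Algebra k F₂] [HasPrincipalDivisors K F] {A : ValuationSubring K} {π : A →+* k}

/-- A separated pair of places, with the separating functions in the subfield `F₀`. -/
structure SepF (R₁ : RedDatum K F k F₁ A π) (R₂ : RedDatum K F k F₂ A π) (F₀ : Subfield F)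
    extends Sep R₁ R₂ where
  e_mem : e ∈ F₀
  e'_mem : e' ∈ F₀
  z_mem : z ∈ F₀
  z'_mem : z' ∈ F₀

end Fermat.Agent.DR.Mono
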