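import Fermat.Agent.DR.Mono.Coord
import Fermat.Prelude.Def_AlgebraicCurve_BaseChangeGalois

/-!
# DR / Mono: values of the coordinate, slopes and the monodromy formula

Let `f` be a function all of whose orders are divisible by `n` and such that `τ f / f` is an `n`-th
power for all `τ` in the inertia group.  Then `w_s * ord_s f̄₁` modulo `n` does not depend on the
node `s`.
-/

set_option autoImplicit false

noncomputable section

open AlgebraicCurve Fermat.Agent.JRED Fermat.Agent.RR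

namespace Fermat.Agent.DR.Mono

section General

variable {K F k Fk : Type*} [Field K] [Field F] [Algebra K F] [Field k] [Field Fk] [Algebra k Fk]
variable {A : ValuationSubring K} {π : A →+* k} {R : RedDatum K F k Fk A π}

theorem red_zpow (hπ : Function.Surjective π) {w : F} {u : Fk} (h : R.Red w u) (hu : u ≠ 0)
    (n : ℤ) : R.Red (w ^ n) (u ^ n) := by
  obtain ⟨m, rfl | rfl⟩ := n.eq_nat_or_neg
  · rw [zpow_natCast, zpow_natCast]
    exact RedDatum.pow h m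
  · rw [zpow_neg, zpow_neg, zpow_natCast, zpow_natCast]
    exact RedDatum.inv hπ (RedDatum.pow h m) (pow_ne_zero _ hu)

theorem red_prod {ι : Type*} (t : Finset ι) {w : ι → F} {u : ι → Fk}
    (h : ∀ i ∈ t, R.Red (w i) (u i)) : R.Red (∏ i ∈ t, w i) (∏ i ∈ t, u i) := by
  classical
  induction t using Finset.induction_on with
  | empty => simpa using R.one
  | insert a t ha ih =>
    rw [Finset.prod_insert ha, Finset.prod_insert ha]
    exact R.mul (h a (Finset.mem_insert_self a t))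
      (ih fun i hi => h i (Finset.mem_insert_of_mem hi))

theorem ord_prod_zpow {ι : Type*} (P : Place K F) (t : Finset ι) {w : ι → F} (e : ι → ℤ)
    (h : ∀ i ∈ t, w i ≠ 0) : P.ord (∏ i ∈ t, w i ^ e i) = ∑ i ∈ t, e i * P.ord (w i) := by
  classical
  induction t using Finset.induction_on with
  | empty => simp [P.ord_one]
  | insert a t ha ih =>
    have h1 : ∀ i ∈ t, w i ≠ 0 := fun i hi => h i (Finset.mem_insert_of_mem hi)
    rw [Finset.prod_insert ha, Finset.sum_insert ha,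
      P.ord_mul (zpow_ne_zero _ (h a (Finset.mem_insert_self a t)))
        (Finset.prod_ne_zero_iff.mpr fun i hi => zpow_ne_zero _ (h1 i hi)), P.ord_zpow, ih h1]

theorem prod_zpow_const {M ι : Type*} [Field M] {a : M} (ha : a ≠ 0) (t : Finset ι)
    (e : ι → ℤ) : ∏ i ∈ t, a ^ e i = a ^ (∑ i ∈ t, e i) := by
  classical
  induction t using Finset.induction_on with
  | empty => simp
  | insert b t hb ih => rw [Finset.prod_insert hb, Finset.sum_insert hb, zpow_add₀ ha, ih]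

theorem Val.smul {g : SemilinearAut K F} {P : Place K F} {f : F} {c : K} (h : Val P f c) :
    Val (g • P) (g • f) (SemilinearAut.baseAut g c) := by
  rw [val_iff] at h ⊢
  rw [← SemilinearAut.smul_algebraMap, ← smul_sub, SemilinearAut.ord_smul]
  rcases h with h | h
  · exact Or.inl (by rw [h])
  · exact Or.inr h

end General

variable {K F k F₁ F₂ : Type*} [Field K] [Field F] [Algebra K F] [Field k] [Field F₁] [Field F₂]
  [Algebra k F₁] [Algebra k F₂] [HasPrincipalDivisors K F] {A : ValuationSubring K} {π : A →+* k}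
variable {R₁ : RedDatum K F k F₁ A π} {R₂ : RedDatum K F k F₂ A π}

namespace Coord

variable {N : PlacePair R₁ R₂} {ϖ : K} (C : Coord N ϖ)

include C in
theorem y₁_ne : C.y₁ ≠ 0 :=
  Fermat.FF.ne_zero_of_ord_ne_zero N.s₁ (by rw [C.ord₁]; exact one_ne_zero)

theorem ord₂ (hπ : Function.Surjective π) : N.s₂.ord C.y₂ = -1 := by
  have h := N.o_add_eq_zero C.inv
  rw [o_eq' N.s₁ hπ C.red₁ C.y₁_ne, o_eq N.s₂ hπ C.red₂ C.y₂_ne, C.ord₁] at h
  omega

theorem red₂_zero (hϖ : ϖ ∈ A) (h0 : π ⟨ϖ, hϖ⟩ = 0) (hϖ0 : ϖ ≠ 0) : R₂.Red C.y 0 := by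
  have h := red_zero_of_mem (zpow_mem_of_nonneg hϖ (Int.natCast_nonneg C.w))
    (res_zpow_of_pos hϖ h0 (by exact_mod_cast C.w_pos)) C.red₂
  rwa [← mul_assoc, ← map_mul, mul_inv_cancel₀ (zpow_ne_zero _ hϖ0), map_one, one_mul] at h

/-- `y - c` for a value `c` of `y` on the annulus. -/
theorem value_spec (hπ : Function.Surjective π) (hϖ : ϖ ∈ A) (h0 : π ⟨ϖ, hϖ⟩ = 0) (hϖ0 : ϖ ≠ 0)
    {P : Place K F} (hP : P ∈ N.Ann) {c : K} (hc : Val P C.y c) :
    c ≠ 0 ∧ R₁.Red (C.y - algebraMap K F c) C.y₁ ∧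
      R₂.Red (algebraMap K F c⁻¹ * (C.y - algebraMap K F c)) (-1) ∧
      P.ord (C.y - algebraMap K F c) = 1 ∧
      ∀ Q ∈ N.Ann, Q ≠ P → Q.ord (C.y - algebraMap K F c) = 0 := by
  have hc0 : c ≠ 0 := by
    rintro rfl
    rcases val_zero_iff.mp hc with h | h
    · exact C.inv.1 h
    · rw [C.inv.2 P hP] at h
      exact lt_irrefl _ h
  have hcF : algebraMap K F c ≠ 0 := by simpa using hc0
  have hred0 := C.red₂_zero hϖ h0 hϖ0
  have hpf : PF N.Ann (C.y - algebraMap K F c) := C.inv.pf.sub (PF.const c)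
  have hne : C.y - algebraMap K F c ≠ 0 := by
    intro h
    have h1 : C.y = algebraMap K F c := sub_eq_zero.mp h
    have h2 := C.red₁
    rw [h1] at h2
    have h3 := RedDatum.mem_of_red_const hπ h2
    have h4 := R₁.unique h2 (R₁.const ⟨c, h3⟩)
    have h5 := C.ord₁
    rw [h4, Fermat.FF.ord_algebraMap] at h5
    exact absurd h5 (by norm_num)
  have hPord : P.ord (C.y - algebraMap K F c) ≠ 0 := by
    have := (val_iff.mp hc).resolve_left (fun h => hne (sub_eq_zero.mpr h))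
    exact this.ne'
  have hsum : o R₁ N.s₁ (C.y - algebraMap K F c) + o R₂ N.s₂ (C.y - algebraMap K F c) ≠ 0 := by
    intro h
    rw [← N.norm _ hne] at h
    exact hPord ((inv_of_annSum_eq_zero hne hpf h).2 P hP)
  -- `c ∈ A`
  have hcA : c ∈ A := by
    by_contra hcA
    obtain ⟨hi, hi0⟩ := res_inv_eq_zero hπ hcA
    have e1 : algebraMap K F c⁻¹ * (C.y - algebraMap K F c) = algebraMap K F c⁻¹ * C.y - 1 := by
      rw [mul_sub, ← map_mul, inv_mul_cancel₀ hc0, map_one]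
    have h1 : R₁.Red (algebraMap K F c⁻¹ * (C.y - algebraMap K F c)) (0 - 1) := by
      rw [e1]
      exact RedDatum.sub (red_zero_of_mem hi hi0 C.red₁) R₁.one
    have h2 : R₂.Red (algebraMap K F c⁻¹ * (C.y - algebraMap K F c)) (0 - 1) := by
      rw [e1]
      exact RedDatum.sub (red_zero_of_mem hi hi0 hred0) R₂.one
    apply hsum
    rw [o_eq N.s₁ hπ h1 (by simp), o_eq N.s₂ hπ h2 (by simp), zero_sub, zero_sub,
      Fermat.FF.ord_neg, Fermat.FF.ord_neg, N.s₁.ord_one, N.s₂.ord_one, add_zero]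
  have hcz : π ⟨c, hcA⟩ = 0 := by
    by_contra hcz
    have h1 : R₁.Red (C.y - algebraMap K F c) (C.y₁ - algebraMap k F₁ (π ⟨c, hcA⟩)) :=
      RedDatum.sub C.red₁ (R₁.const ⟨c, hcA⟩)
    have h2 : R₂.Red (C.y - algebraMap K F c) (0 - algebraMap k F₂ (π ⟨c, hcA⟩)) :=
      RedDatum.sub hred0 (R₂.const ⟨c, hcA⟩)
    have hv : Val N.s₁ (C.y₁ - algebraMap k F₁ (π ⟨c, hcA⟩)) (0 - π ⟨c, hcA⟩) :=
      (val_zero_of_ord_pos (by rw [C.ord₁]; exact one_pos)).sub (val_const _)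
    have hne' : (0 : k) - π ⟨c, hcA⟩ ≠ 0 := by rw [zero_sub]; exact neg_ne_zero.mpr hcz
    apply hsum
    rw [o_eq' N.s₁ hπ h1 (hv.ne_zero hne'), o_eq' N.s₂ hπ h2 (by simpa using hcz),
      hv.ord_eq_zero hne', zero_sub, Fermat.FF.ord_neg, Fermat.FF.ord_algebraMap, add_zero]
  have h1 : R₁.Red (C.y - algebraMap K F c) C.y₁ := by
    have := RedDatum.sub C.red₁ (R₁.const ⟨c, hcA⟩)
    rwa [hcz, map_zero, sub_zero] at this
  have ho1 : o R₁ N.s₁ (C.y - algebraMap K F c) = 1 := by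
    rw [o_eq' N.s₁ hπ h1 C.y₁_ne, C.ord₁]
  -- the second reduction
  have hd : ∃ hd : c⁻¹ * ϖ ^ (C.w : ℤ) ∈ A, π ⟨_, hd⟩ = 0 := by
    by_contra hcon
    have hd' : (c⁻¹ * ϖ ^ (C.w : ℤ))⁻¹ ∈ A := by
      rcases A.mem_or_inv_mem (c⁻¹ * ϖ ^ (C.w : ℤ)) with h | h
      · by_contra hni
        apply hcon
        refine ⟨h, res_eq_zero_of_not_isUnit hπ fun hu => hni ?_⟩
        obtain ⟨b, hb⟩ := isUnit_iff_exists_inv.mp hu
        have hb' : (c⁻¹ * ϖ ^ (C.w : ℤ)) * (b : K) = 1 := congrArg Subtype.val hb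
        rw [inv_eq_of_mul_eq_one_right hb']
        exact b.2
      · exact h
    have e2 : algebraMap K F (ϖ ^ (C.w : ℤ))⁻¹ * (C.y - algebraMap K F c) =
        algebraMap K F (ϖ ^ (C.w : ℤ))⁻¹ * C.y - algebraMap K F (c⁻¹ * ϖ ^ (C.w : ℤ))⁻¹ := by
      rw [mul_sub, ← map_mul, mul_inv, inv_inv, mul_comm c]
    have h2 : R₂.Red (algebraMap K F (ϖ ^ (C.w : ℤ))⁻¹ * (C.y - algebraMap K F c))
        (C.y₂ - algebraMap k F₂ (π ⟨_, hd'⟩)) := by
      rw [e2]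
      exact RedDatum.sub C.red₂ (R₂.const ⟨_, hd'⟩)
    have hord : N.s₂.ord (C.y₂ - algebraMap k F₂ (π ⟨_, hd'⟩)) = -1 := by
      rcases eq_or_ne (π ⟨_, hd'⟩) 0 with h | h
      · rw [h, map_zero, sub_zero, C.ord₂ hπ]
      · rw [sub_eq_add_neg, Fermat.FF.ord_add_of_lt N.s₂ C.y₂_ne (by simpa using h), C.ord₂ hπ]
        rw [Fermat.FF.ord_neg, Fermat.FF.ord_algebraMap, C.ord₂ hπ]
        norm_num
    apply hsum
    rw [ho1, o_eq N.s₂ hπ h2 (Fermat.FF.ne_zero_of_ord_ne_zero N.s₂ (by rw [hord]; norm_num)),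
      hord]
    norm_num
  obtain ⟨hd, hdz⟩ := hd
  have h2 : R₂.Red (algebraMap K F c⁻¹ * (C.y - algebraMap K F c)) (-1) := by
    have h3 := RedDatum.sub (red_zero_of_mem hd hdz C.red₂) R₂.one
    have e3 : algebraMap K F (c⁻¹ * ϖ ^ (C.w : ℤ)) * (algebraMap K F (ϖ ^ (C.w : ℤ))⁻¹ * C.y) - 1 =
        algebraMap K F c⁻¹ * (C.y - algebraMap K F c) := by
      rw [mul_sub, ← map_mul, inv_mul_cancel₀ hc0, map_one, ← mul_assoc, ← map_mul, mul_assoc,
        mul_inv_cancel₀ (zpow_ne_zero _ hϖ0), mul_one]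
    rw [e3, zero_sub] at h3
    exact h3
  have ho2 : o R₂ N.s₂ (C.y - algebraMap K F c) = 0 := by
    rw [o_eq N.s₂ hπ h2 (by simp), Fermat.FF.ord_neg, N.s₂.ord_one]
  have hs1 : annSum N.Ann (C.y - algebraMap K F c) = 1 := by
    rw [N.norm _ hne, ho1, ho2, add_zero]
  obtain ⟨h3, h4⟩ := ord_of_annSum_eq_one hpf hs1 hP hPord
  exact ⟨hc0, h1, h2, h3, h4⟩

end Coord

section Slope

variable {q : ℕ} (N : Node R₁ R₂ q) {ϖ : K} (C : Coord N.toPlacePair ϖ)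

/-- The value of the coordinate at a place. -/
def Coord.v [IsAlgClosed K] [Fermat.FF.IsFF1 K F] (P : Place K F) : K :=
  open Classical in if h : C.y ∈ P.toValuationSubring then (exists_val (s := P) h).choose else 1

theorem Coord.v_spec [IsAlgClosed K] [Fermat.FF.IsFF1 K F] {P : Place K F}
    (hP : P ∈ N.Ann) : Val P C.y (C.v N P) := by
  have h : C.y ∈ P.toValuationSubring := C.inv.pf P hP
  rw [Coord.v, dif_pos h]
  exact (exists_val (s := P) h).choose_spec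

variable [IsAlgClosed K] [Fermat.FF.IsFF1 K F]

/-- The product of the values of the coordinate with exponents `D`. -/
def Coord.b (T : Finset (Place K F)) (D : Place K F → ℤ) : K := ∏ P ∈ T, (C.v N P) ^ D P

variable [IsAlgClosed k] [hq : Fact q.Prime] [CharP k q]
    [Fermat.FF.IsFF1 k F₁] [Fermat.FF.IsFF1 k F₂] (hπ : Function.Surjective π) (hA : Arch π)
    (hϖ : ϖ ∈ A) (h0 : π ⟨ϖ, hϖ⟩ = 0) (hϖ0 : ϖ ≠ 0)

omit [IsAlgClosed k] hq [CharP k q] [Fermat.FF.IsFF1 k F₁] [Fermat.FF.IsFF1 k F₂] in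
include hπ hϖ h0 hϖ0 in
theorem Coord.b_ne_zero {T : Finset (Place K F)} (hT : ∀ P ∈ T, P ∈ N.Ann)
    (D : Place K F → ℤ) : C.b N T D ≠ 0 :=
  Finset.prod_ne_zero_iff.mpr fun P hP =>
    zpow_ne_zero _ (C.value_spec hπ hϖ h0 hϖ0 (hT P hP) (C.v_spec N (hT P hP))).1

include hπ hA hϖ h0 hϖ0 in
/-- **Slope formula**: the difference of the two valuations of `f` in terms of the zeros of `f` on
the annulus and of the order at `s₁` of its first reduction. -/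
theorem Coord.slope {f : F} (hf : f ≠ 0) (n : ℤ) (D : Place K F → ℤ)
    (hD : ∀ P ∈ N.Ann, P.ord f = n * D P)
    {T : Finset (Place K F)} (hT : ∀ P ∈ T, P ∈ N.Ann) (hT' : ∀ P ∈ N.Ann, P ∉ T → D P = 0)
    {c₁ c₂ : K} {u₁ : F₁} {u₂ : F₂} (h1 : R₁.Red (algebraMap K F c₁ * f) u₁) (hu1 : u₁ ≠ 0)
    (h2 : R₂.Red (algebraMap K F c₂ * f) u₂) (hu2 : u₂ ≠ 0) :
    ∃ hd : c₂ / c₁ * (C.b N T D) ^ n * ϖ ^ (C.w * (o R₁ N.s₁ f - n * ∑ P ∈ T, D P)) ∈ A,
      π ⟨_, hd⟩ ≠ 0 := by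
  classical
  have hc1 : c₁ ≠ 0 := by
    rintro rfl
    rw [map_zero, zero_mul] at h1
    exact hu1 (R₁.unique h1 R₁.zero)
  have hc2 : c₂ ≠ 0 := by
    rintro rfl
    rw [map_zero, zero_mul] at h2
    exact hu2 (R₂.unique h2 R₂.zero)
  have hsp := fun P (hP : P ∈ T) =>
    C.value_spec hπ hϖ h0 hϖ0 (hT P hP) (C.v_spec N (hT P hP))
  have hfac : ∀ P ∈ T, C.y - algebraMap K F (C.v N P) ≠ 0 := fun P hP =>
    Fermat.FF.ne_zero_of_ord_ne_zero P (by rw [(hsp P hP).2.2.2.1]; exact one_ne_zero)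
  set H : F := ∏ P ∈ T, (C.y - algebraMap K F (C.v N P)) ^ (n * D P) with hH
  have hH0 : H ≠ 0 := Finset.prod_ne_zero_iff.mpr fun P hP => zpow_ne_zero _ (hfac P hP)
  set m : ℤ := o R₁ N.s₁ f - n * ∑ P ∈ T, D P with hm
  have hordH : ∀ Q ∈ N.Ann, Q.ord H = n * D Q := by
    intro Q hQ
    rw [hH, ord_prod_zpow Q T _ hfac]
    by_cases hQT : Q ∈ T
    · rw [Finset.sum_eq_single Q]
      · rw [(hsp Q hQT).2.2.2.1, mul_one]
      · intro P hP hPQ
        rw [(hsp P hP).2.2.2.2 Q hQ (Ne.symm hPQ), mul_zero]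
      · exact fun h => absurd hQT h
    · rw [hT' Q hQ hQT, mul_zero]
      apply Finset.sum_eq_zero
      intro P hP
      rw [(hsp P hP).2.2.2.2 Q hQ (fun h => hQT (h ▸ hP)), mul_zero]
  have hrH1 : R₁.Red H (C.y₁ ^ (n * ∑ P ∈ T, D P)) := by
    have h3 : R₁.Red H (∏ P ∈ T, C.y₁ ^ (n * D P)) :=
      red_prod T fun P hP => red_zpow hπ (hsp P hP).2.1 C.y₁_ne _
    rwa [prod_zpow_const C.y₁_ne, ← Finset.mul_sum] at h3
  have hb0 := C.b_ne_zero N hπ hϖ h0 hϖ0 hT D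
  have hrH2 : R₂.Red (algebraMap K F ((C.b N T D) ^ n)⁻¹ * H) ((-1) ^ (n * ∑ P ∈ T, D P)) := by
    have h3 : R₂.Red (∏ P ∈ T, (algebraMap K F (C.v N P)⁻¹ *
        (C.y - algebraMap K F (C.v N P))) ^ (n * D P)) (∏ P ∈ T, (-1 : F₂) ^ (n * D P)) :=
      red_prod T fun P hP => red_zpow hπ (hsp P hP).2.2.1 (by simp) _
    rw [prod_zpow_const (by simp), ← Finset.mul_sum] at h3
    have h4 : ∏ P ∈ T, (algebraMap K F (C.v N P)⁻¹ *
        (C.y - algebraMap K F (C.v N P))) ^ (n * D P) =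
        algebraMap K F ((C.b N T D) ^ n)⁻¹ * H := by
      rw [hH, Coord.b, Finset.prod_congr rfl fun P _ => mul_zpow _ _ _, Finset.prod_mul_distrib,
        ← Finset.prod_zpow, ← Finset.prod_inv_distrib, map_prod]
      congr 1
      refine Finset.prod_congr rfl fun P _ => ?_
      rw [← map_zpow₀, inv_zpow, mul_comm n, zpow_mul]
    rwa [h4] at h3
  have hyF : C.y ≠ 0 := C.inv.1
  have hG : Inv N.Ann (algebraMap K F c₁ * f * H⁻¹ * C.y ^ (-m)) := by
    refine Inv.mul ⟨mul_ne_zero (mul_ne_zero (by simpa using hc1) hf) (inv_ne_zero hH0), ?_⟩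
      (C.inv.zpow _)
    intro Q hQ
    rw [Q.ord_mul (mul_ne_zero (by simpa using hc1) hf) (inv_ne_zero hH0),
      Q.ord_mul (by simpa using hc1) hf, Q.ord_inv, hordH Q hQ, hD Q hQ,
      Fermat.FF.ord_algebraMap]
    ring
  have hG1 : R₁.Red (algebraMap K F c₁ * f * H⁻¹ * C.y ^ (-m))
      (u₁ * (C.y₁ ^ (n * ∑ P ∈ T, D P))⁻¹ * C.y₁ ^ (-m)) :=
    R₁.mul (R₁.mul h1 (RedDatum.inv hπ hrH1 (zpow_ne_zero _ C.y₁_ne)))
      (red_zpow hπ C.red₁ C.y₁_ne _)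
  have hG2 : R₂.Red (algebraMap K F (c₂ / c₁ * (C.b N T D) ^ n * ϖ ^ (C.w * m)) *
      (algebraMap K F c₁ * f * H⁻¹ * C.y ^ (-m)))
      (u₂ * ((-1) ^ (n * ∑ P ∈ T, D P))⁻¹ * C.y₂ ^ (-m)) := by
    have h3 := R₂.mul (R₂.mul h2 (RedDatum.inv hπ hrH2 (zpow_ne_zero _ (by simp))))
      (red_zpow hπ C.red₂ C.y₂_ne (-m))
    have hbF : algebraMap K F (C.b N T D) ≠ 0 := by simpa using hb0
    have hc1F : algebraMap K F c₁ ≠ 0 := by simpa using hc1
    have hϖF : algebraMap K F ϖ ≠ 0 := by simpa using hϖ0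
    have h4 : algebraMap K F c₂ * f * (algebraMap K F ((C.b N T D) ^ n)⁻¹ * H)⁻¹ *
        (algebraMap K F (ϖ ^ (C.w : ℤ))⁻¹ * C.y) ^ (-m) =
        algebraMap K F (c₂ / c₁ * (C.b N T D) ^ n * ϖ ^ (C.w * m)) *
        (algebraMap K F c₁ * f * H⁻¹ * C.y ^ (-m)) := by
      rw [mul_zpow, mul_inv, map_mul, map_mul, map_div₀, map_inv₀, map_inv₀, inv_inv,
        map_zpow₀, map_zpow₀, map_zpow₀, inv_zpow, zpow_neg _ m, inv_inv, ← zpow_mul]
      field_simp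
    rwa [h4] at h3
  refine N.unit_of_inv hπ hA hG hG1 ?_ ?_ hG2 ?_
  · exact mul_ne_zero (mul_ne_zero hu1 (inv_ne_zero (zpow_ne_zero _ C.y₁_ne)))
      (zpow_ne_zero _ C.y₁_ne)
  · rw [N.s₁.ord_mul (mul_ne_zero hu1 (inv_ne_zero (zpow_ne_zero _ C.y₁_ne)))
        (zpow_ne_zero _ C.y₁_ne), N.s₁.ord_mul hu1 (inv_ne_zero (zpow_ne_zero _ C.y₁_ne)),
      N.s₁.ord_inv, N.s₁.ord_zpow, N.s₁.ord_zpow, C.ord₁, hm, o_eq N.s₁ hπ h1 hu1]
    ring
  · exact mul_ne_zero (mul_ne_zero hu2 (inv_ne_zero (zpow_ne_zero _ (by simp))))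
      (zpow_ne_zero _ C.y₂_ne)

end Slope

end Fermat.Agent.DR.Mono
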