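import Fermat.Agent.DR.Mono.Formula
import Fermat.Agent.DR.Mono.Eis
import Fermat.Agent.DR.Nodal.Swap

/-!
# DR / Mono: inertia-invariant torsion classes specialise, up to an Eisenstein factor

`x ∈ Pic⁰(F)[m]` fixed by inertia, `T x = a x` and `T̄ D₀ = b D₀` off the cusps, where
`D₀ = ∑ (E / w_s) s` over the supersingular places. Then `E (a - b) x` has a specialisation.
-/

set_option autoImplicit false

noncomputable section

open AlgebraicCurve Fermat.Agent.JRED Fermat.Agent.RR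

namespace Fermat.Agent.DR.Mono

/-- **The Eisenstein step**, general modulus. -/
theorem eisenstein' {ι : Type*} (C SS : Set ι) (hSS : ∀ s ∈ SS, s ∉ C)
    (T : (ι →₀ ℤ) →+ (ι →₀ ℤ))
    (hT : ∀ D : ι →₀ ℤ, (∀ s ∉ C, D s = 0) → ∀ s ∉ C, T D s = 0) {m : ℤ}
    {E : ℤ} (w : ι → ℤ) {Df D₀ : ι →₀ ℤ} {a b : ℤ}
    (h1 : ∀ s ∈ SS, D₀ s * w s = E) (h2 : ∀ s, s ∉ SS → s ∉ C → D₀ s = 0)
    (h3 : ∀ s, s ∉ SS → m ∣ Df s) (h4 : ∀ s ∈ SS, ∀ t ∈ SS, m ∣ w s * Df s - w t * Df t)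
    (h5 : ∀ s, m ∣ T Df s - a * Df s) (h6 : ∀ s ∉ C, T D₀ s = b * D₀ s) (s : ι) :
    m ∣ E * (a - b) * Df s := by
  by_cases hs : s ∈ SS
  swap
  · exact dvd_mul_of_dvd_right (h3 s hs) _
  have hsC := hSS s hs
  set lam : ℤ := w s * Df s with hlam
  have key : ∀ t ∉ C, m ∣ (E • Df - lam • D₀) t := by
    intro t ht
    rw [Finsupp.sub_apply, Finsupp.smul_apply, Finsupp.smul_apply, smul_eq_mul, smul_eq_mul]
    by_cases hts : t ∈ SS
    · have e1 : E * Df t - lam * D₀ t = D₀ t * (w t * Df t - w s * Df s) := by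
        rw [← h1 t hts, hlam]
        ring
      rw [e1]
      exact dvd_mul_of_dvd_right (h4 t hts s hs) _
    · rw [h2 t hts ht, mul_zero, sub_zero]
      exact dvd_mul_of_dvd_right (h3 t hts) _
  have key2 := dvd_of_dvd_off C T hT key s hsC
  rw [map_sub, map_zsmul, map_zsmul, Finsupp.sub_apply, Finsupp.smul_apply,
    Finsupp.smul_apply, smul_eq_mul, smul_eq_mul, h6 s hsC] at key2
  have key3 := key s hsC
  rw [Finsupp.sub_apply, Finsupp.smul_apply, Finsupp.smul_apply, smul_eq_mul, smul_eq_mul] at key3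
  have e2 : E * (a - b) * Df s = (E * T Df s - lam * (b * D₀ s)) - E * (T Df s - a * Df s) -
      b * (E * Df s - lam * D₀ s) := by ring
  rw [e2]
  exact dvd_sub (dvd_sub key2 (dvd_mul_of_dvd_right (h5 s) _)) (dvd_mul_of_dvd_right key3 _)

variable {K F k F₁ F₂ : Type*} [Field K] [Field F] [Algebra K F] [Field k] [Field F₁] [Field F₂]
  [Algebra k F₁] [Algebra k F₂] [IsAlgClosed K] [IsAlgClosed k] [FunctionField K F]
  [FunctionField k F₁] [FunctionField k F₂] {A : ValuationSubring K} {π : A →+* k}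

section General

theorem dvd_ord_of_red {k₀ E : Type*} [Field k₀] [Field E] [Algebra k₀ E] {π₀ : A →+* k₀}
    {R : RedDatum K F k₀ E A π₀} (hπ : Function.Surjective π₀) {m : ℕ}
    {f v : F} {u : E} (hf : R.Red f u) (hu : u ≠ 0) (hv : v ≠ 0)
    (h : ∀ P : Place K F, P.ord f = m * P.ord v) (P : Place k₀ E) : (m : ℤ) ∣ P.ord u := by
  have hf0 : f ≠ 0 := RedDatum.ne_zero_of_red hf hu
  have h1 : divOf (K := K) f = divOf (v ^ m) := by
    ext P
    rw [divOf_apply, divOf_apply, ord_pow, h]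
  obtain ⟨c, hc, hcf⟩ := (divOf_eq_iff hf0 (pow_ne_zero m hv)).mp h1
  obtain ⟨c₁, hc₁, w, hw, hcv⟩ := R.normalize v hv
  have h2 := RedDatum.div hπ hf (RedDatum.pow hcv m) (pow_ne_zero m hw)
  have hc₁' : algebraMap K F c₁ ≠ 0 := by simpa using hc₁
  have h3 : f / (algebraMap K F c₁ * v) ^ m = algebraMap K F (c / c₁ ^ m) := by
    rw [hcf, Algebra.smul_def, mul_pow, map_div₀, map_pow]
    field_simp
  rw [h3] at h2
  have hA := RedDatum.mem_of_red_const hπ h2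
  have h4 := R.unique (R.const ⟨_, hA⟩) h2
  have h5 : u = algebraMap k₀ E (π₀ ⟨_, hA⟩) * w ^ m := by
    rw [h4, div_mul_cancel₀ _ (pow_ne_zero m hw)]
  have hne : algebraMap k₀ E (π₀ ⟨_, hA⟩) ≠ 0 := by
    intro h0
    rw [h0, zero_mul] at h5
    exact hu h5
  rw [h5, P.ord_mul hne (pow_ne_zero m hw), Fermat.FF.ord_algebraMap, ord_pow, zero_add]
  exact dvd_mul_right _ _

end General

variable {X : NodalDatum K F k F₁ F₂ A π} {m : ℕ}

theorem IsRootDiv.zsmul (hπ : Function.Surjective π) {D : Divisor K F} {f : F} {u : F₁ × F₂}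
    (H : IsRootDiv X m D f u) (n : ℤ) :
    IsRootDiv X m (n • D) (f ^ n) (u.1 ^ n, u.2 ^ n) := by
  obtain ⟨a, rfl | rfl⟩ := n.eq_nat_or_neg
  · rw [natCast_zsmul, zpow_natCast, zpow_natCast, zpow_natCast]
    exact H.nsmul a
  · rw [neg_zsmul, zpow_neg, zpow_neg, zpow_neg, natCast_zsmul, zpow_natCast, zpow_natCast,
      zpow_natCast]
    exact (H.nsmul a).inv hπ

/-- The orders modulo `m` of the first reduction only depend on the class. -/
theorem res_unique (hπ : Function.Surjective π) {D D' : Divisor.degZero (K := K) (F := F)}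
    {f f' : F} {u u' : F₁ × F₂} (H : IsRootDiv X m (D : Divisor K F) f u)
    (H' : IsRootDiv X m (D' : Divisor K F) f' u') (h : Pic0.mk D = Pic0.mk D')
    (P : Place k F₁) : (m : ℤ) ∣ P.ord u.1 - P.ord u'.1 := by
  obtain ⟨v, hv, hdiv⟩ := pic0_mk_eq_iff.mp h
  have H2 := H.sub hπ H'
  have h2 := dvd_ord_of_red hπ H2.red.1 H2.ne₁ hv (fun P => by rw [← H2.div_eq, hdiv]) P
  simp only at h2
  rwa [ord_div P H.ne₁ H'.ne₁] at h2

omit [IsAlgClosed k] in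
theorem exists_root_of_fix {D : Divisor.degZero (K := K) (F := F)} {f : F} {u : F₁ × F₂}
    (H : IsRootDiv X m (D : Divisor K F) f u) {g : SemilinearAut K F}
    (hg : g • Pic0.mk D = Pic0.mk D) : ∃ h : F, h ^ m = (g • f) / f := by
  have h1 : Pic0.mk (SemilinearAut.degZeroSMulHom g D) = Pic0.mk D := hg
  obtain ⟨v, hv, hdiv⟩ := pic0_mk_eq_iff.mp h1
  have hgf : g • f ≠ 0 := (smul_ne_zero_iff_ne g).mpr H.ne_zero
  obtain ⟨w', -, hw'⟩ := eq_const_mul_pow (k := K) H.pos (div_ne_zero hgf H.ne_zero) hv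
    (fun P => by
      rw [ord_div P hgf H.ne_zero, ← hdiv, Finsupp.sub_apply, mul_sub, H.div_eq,
        SemilinearAut.coe_degZeroSMulHom, smul_div_eq g H.div_eq])
  exact ⟨w', hw'.symm⟩

/-- **The Eisenstein step on classes**: from the monodromy relation to a specialisation. -/
theorem exists_spec_of_mono (hπ : Function.Surjective π)
    (hm : 0 < m) {x : Pic0 K F} (hx : m • x = 0)
    (C SS : Set (Place k F₁)) (hSS : ∀ P ∈ SS, P ∉ C) (hnodes : ∀ s ∈ X.nodes, s.1 ∈ SS)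
    (E : ℤ) (D₀ : Divisor k F₁) (w : Place k F₁ → ℤ) (hw : ∀ P ∈ SS, D₀ P * w P = E)
    (hmono : ∀ (D : Divisor.degZero (K := K) (F := F)) (f : F) (u : F₁ × F₂), Pic0.mk D = x →
      IsRootDiv X m (D : Divisor K F) f u → ∀ s ∈ SS, ∀ t ∈ SS,
        (m : ℤ) ∣ w s * s.ord u.1 - w t * t.ord u.1)
    (hD₀ : ∀ P, P ∉ SS → P ∉ C → D₀ P = 0)
    (T : Divisor k F₁ →+ Divisor k F₁)
    (hTC : ∀ D : Divisor k F₁, (∀ P ∉ C, D P = 0) → ∀ P ∉ C, T D P = 0)
    {a b : ℤ} (hTD₀ : ∀ P ∉ C, T D₀ P = b * D₀ P)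
    (hT : ∀ (D : Divisor.degZero (K := K) (F := F)) (f : F) (u : F₁ × F₂), Pic0.mk D = x →
      IsRootDiv X m (D : Divisor K F) f u →
        ∃ (D' : Divisor.degZero (K := K) (F := F)) (f' : F) (u' : F₁ × F₂),
          Pic0.mk D' = a • x ∧ IsRootDiv X m (D' : Divisor K F) f' u' ∧
            ∀ P, P.ord u'.1 = T (divOf u.1) P) :
    ∃ y₁ y₂, Spec X m ((E * (a - b)) • x) y₁ y₂ := by
  obtain ⟨D, f, u, hDx, H⟩ := exists_rep X hm hx
  have h4 : ∀ s ∈ SS, ∀ t ∈ SS,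
      (m : ℤ) ∣ w s * (divOf (K := k) u.1) s - w t * (divOf (K := k) u.1) t := by
    intro s hs t ht
    rw [divOf_apply, divOf_apply]
    exact hmono D f u hDx H s hs t ht
  have h3 : ∀ s, s ∉ SS → (m : ℤ) ∣ (divOf (K := k) u.1) s := by
    intro s hs
    rw [divOf_apply]
    exact (H.parity hπ).1 s fun t ht hts => hs (hts ▸ hnodes t ht)
  have h5 : ∀ s, (m : ℤ) ∣ T (divOf (K := k) u.1) s - a * (divOf (K := k) u.1) s := by
    intro s
    obtain ⟨D', f', u', hD', H', hT'⟩ := hT D f u hDx H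
    have h6 := res_unique hπ H' (D' := a • D) (IsRootDiv.zsmul hπ H a) (by
      rw [hD', ← hDx]; rfl) s
    rw [hT', Place.ord_zpow] at h6
    rw [divOf_apply]
    exact h6
  have key := eisenstein' C SS hSS T hTC w hw hD₀ h3 h4 h5 hTD₀
  have H2 := IsRootDiv.zsmul hπ H (E * (a - b))
  have H3 : IsRootDiv X m (((E * (a - b)) • D : Divisor.degZero (K := K) (F := F)) :
    Divisor K F) (f ^ (E * (a - b))) (u.1 ^ (E * (a - b)), u.2 ^ (E * (a - b))) := H2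
  obtain ⟨y₁, y₂, hy⟩ := H3.exists_spec_of_nodes hπ fun s hs => by
    rw [Place.ord_zpow]
    have := key s.1
    rwa [divOf_apply] at this
  refine ⟨y₁, y₂, ?_⟩
  have e : Pic0.mk ((E * (a - b)) • D) = (E * (a - b)) • x := by rw [← hDx]; rfl
  rwa [e] at hy

/-- **Inertia-invariant torsion classes specialise up to an Eisenstein factor.** -/
theorem exists_spec_of_inertia {q : ℕ} [Fact q.Prime] [CharP k q] (hπ : Function.Surjective π)
    (hA : Arch π) {ϖ : K} (hϖ : ϖ ∈ A) (h0 : π ⟨ϖ, hϖ⟩ = 0) (hϖ0 : ϖ ≠ 0)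
    (hm : 0 < m) (G : Subgroup (SemilinearAut K F)) (hG : ∀ g ∈ G, InertiaAut X.R₁ X.R₂ g)
    (hI : InertInput π G ϖ m) {x : Pic0 K F} (hx : m • x = 0) (hfix : ∀ g ∈ G, g • x = x)
    (C SS : Set (Place k F₁)) (hSS : ∀ P ∈ SS, P ∉ C) (hnodes : ∀ s ∈ X.nodes, s.1 ∈ SS)
    (E : ℤ) (D₀ : Divisor k F₁)
    (hcoord : ∀ P ∈ SS, ∃ (N : Node X.R₁ X.R₂ q) (Y : Coord N.toPlacePair ϖ), N.s₁ = P ∧
      (∀ g ∈ G, ∀ Q ∈ N.Ann, g • Q ∈ N.Ann) ∧ (∀ g ∈ G, g • Y.y = Y.y) ∧ D₀ P * Y.w = E)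
    (hD₀ : ∀ P, P ∉ SS → P ∉ C → D₀ P = 0)
    (T : Divisor k F₁ →+ Divisor k F₁)
    (hTC : ∀ D : Divisor k F₁, (∀ P ∉ C, D P = 0) → ∀ P ∉ C, T D P = 0)
    {a b : ℤ} (hTD₀ : ∀ P ∉ C, T D₀ P = b * D₀ P)
    (hT : ∀ (D : Divisor.degZero (K := K) (F := F)) (f : F) (u : F₁ × F₂), Pic0.mk D = x →
      IsRootDiv X m (D : Divisor K F) f u →
        ∃ (D' : Divisor.degZero (K := K) (F := F)) (f' : F) (u' : F₁ × F₂),
          Pic0.mk D' = a • x ∧ IsRootDiv X m (D' : Divisor K F) f' u' ∧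
            ∀ P, P.ord u'.1 = T (divOf u.1) P) :
    ∃ y₁ y₂, Spec X m ((E * (a - b)) • x) y₁ y₂ := by
  classical
  have : Fermat.FF.IsFF1 K F := Descent.isFF1_of_functionField (K := K) (F := F)
  have : Fermat.FF.IsFF1 k F₁ := Descent.isFF1_of_functionField (K := k) (F := F₁)
  have : Fermat.FF.IsFF1 k F₂ := Descent.isFF1_of_functionField (K := k) (F := F₂)
  choose N Y hN using hcoord
  let w : Place k F₁ → ℤ := fun P => if hP : P ∈ SS then (Y P hP).w else 0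
  have hw : ∀ P (hP : P ∈ SS), w P = (Y P hP).w := fun P hP => dif_pos hP
  refine exists_spec_of_mono hπ hm hx C SS hSS hnodes E D₀ w
    (fun s hs => by rw [hw s hs]; exact (hN s hs).2.2.2) ?_ hD₀ T hTC hTD₀ hT
  intro D f u hDx H s hs t ht
  obtain ⟨hs1, hs2, hs3, -⟩ := hN s hs
  obtain ⟨ht1, ht2, ht3, -⟩ := hN t ht
  have h := mono hπ hA hϖ h0 hϖ0 (Y s hs) (Y t ht) G hG hs2 ht2 hs3 ht3 hm.ne' hI H.ne_zero
    (fun P => ⟨_, (H.div_eq P).symm⟩)
    (fun g hg => exists_root_of_fix H (by rw [hDx]; exact hfix g hg))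
  rw [o_eq' _ hπ H.red.1 H.ne₁, o_eq' _ hπ H.red.1 H.ne₁, hs1, ht1] at h
  rw [hw s hs, hw t ht]
  exact h

end Fermat.Agent.DR.Mono
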